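/-
LSb / Core / Datum  (helper1, architect)   -- INTERFACE v3  (plan (β) of helper6, msg #1184)

PROJECT LSb: unipotent inertia at `q ∥ N` on `J₀(N)[n]` (target S34).
The ABSTRACT interface, FUNCTION LEVEL ONLY (no place maps, no good/bad places):

* `F / L` a function field, `A` a rank one valuation ring of `L` with residue field `k`;
* two Gauss-type valuation rings `O₁ O₂` of `F` over `A` with residue fields `F₁ F₂`
  (function fields over `k`): `V₁ V₂ : S18lib.GaussDatum`, so the whole lemma library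
  `S18lib/Weak/Lemmas.lean` applies;  `O = O₁ ⊓ O₂` is the sup-norm ball, `red : O → F₁ × F₂`;
* two CHART divisors `P₁ P₂ ≥ 0` on `F` with disjoint supports (modular case: `P₁ = polar(j)`,
  `P₂ = zeros(j - j₀)`), and their reductions `Q₁₁ Q₂₁` on `F₁`, `Q₁₂ Q₂₂` on `F₂`;
* the NODES: `s` pairs `(x₁ c, x₂ c)`, `x₁ c` a place of `F₁`, `x₂ c` a place of `F₂`;
* (CHART) `f ∈ L(a P₁ + b P₂) ∩ O  ⟹  redᵢ f ∈ L(a Q₁ᵢ + b Q₂ᵢ)`;
* (GLUE)  for the same `f`, `red₁ f` and `red₂ f` have the same value at the two points of a node;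
* (COUNT) `g + 1 ≤ g₁ + g₂ + s`;   (N1) sup-norm orthonormal bases.

Conclusion (`UnipotentStatement`): an automorphism `σ` acting like an inertia element satisfies
`(σ - 1)² = 0` on the prime-to-`char k` torsion of `Pic⁰(F)`.
-/
import Mathlib
import Fermat.Prelude.Def_AlgebraicCurve_DivisorClassGroup
import Fermat.Prelude.Def_AlgebraicCurve_Repartitions
import Fermat.Prelude.Def_AlgebraicCurve_BaseChangeGalois
import Fermat.Agent.S18lib.Setup.CurveRR
import Fermat.Agent.S18lib.Weak.Lemmas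
import Fermat.Agent.LSb.Frame.Sup

set_option autoImplicit false

noncomputable section

namespace Fermat.Agent.LSb

open AlgebraicCurve

/-- `z` is regular at the place `Q` with value `c` (all places have degree one in our setting). -/
def HasValueAt {K Fk : Type*} [Field K] [Field Fk] [Algebra K Fk] (Q : Place K Fk) (z : Fk)
    (c : K) : Prop :=
  Q.adicValuation (z - algebraMap K Fk c) < 1

/-- The abstract nodal reduction datum (function level). -/
structure NodalDatum {L : Type*} [Field L] (A : ValuationSubring L)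
    (F : Type*) [Field F] [Algebra L F]
    (F₁ F₂ : Type*) [Field F₁] [Field F₂]
    [Algebra (IsLocalRing.ResidueField A) F₁] [Algebra (IsLocalRing.ResidueField A) F₂] where
  /-- the first component: Gauss valuation ring `O₁`, reduction `red₁ : O₁ → F₁` -/
  V₁ : S18lib.GaussDatum A F F₁
  /-- the second component -/
  V₂ : S18lib.GaussDatum A F F₂
  /-- the first chart divisor on `F` -/
  P₁ : Divisor L F
  /-- the second chart divisor on `F` -/
  P₂ : Divisor L F
  /-- reduction of `P₁` on the first component -/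
  Q₁₁ : Divisor (IsLocalRing.ResidueField A) F₁
  /-- reduction of `P₂` on the first component -/
  Q₂₁ : Divisor (IsLocalRing.ResidueField A) F₁
  /-- reduction of `P₁` on the second component -/
  Q₁₂ : Divisor (IsLocalRing.ResidueField A) F₂
  /-- reduction of `P₂` on the second component -/
  Q₂₂ : Divisor (IsLocalRing.ResidueField A) F₂
  /-- the number of nodes -/
  s : ℕ
  /-- the node points on the first component -/
  x₁ : Fin s → Place (IsLocalRing.ResidueField A) F₁
  /-- the node points on the second component -/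
  x₂ : Fin s → Place (IsLocalRing.ResidueField A) F₂

namespace NodalDatum

variable {L : Type*} [Field L] {A : ValuationSubring L}
variable {F : Type*} [Field F] [Algebra L F]
variable {F₁ F₂ : Type*} [Field F₁] [Field F₂]
variable [Algebra (IsLocalRing.ResidueField A) F₁] [Algebra (IsLocalRing.ResidueField A) F₂]

local notation "k" => IsLocalRing.ResidueField A

/-- the sup-norm unit ball `O = O₁ ⊓ O₂` (helper2's `Frame.supO`, whose API applies verbatim) -/
abbrev O (D : NodalDatum A F F₁ F₂) : Subring F := Frame.supO D.V₁ D.V₂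

theorem mem_O {D : NodalDatum A F F₁ F₂} {y : F} : y ∈ D.O ↔ y ∈ D.V₁.O ∧ y ∈ D.V₂.O :=
  Frame.mem_supO

/-- the total reduction `F → F₁ × F₂` (helper2's `Frame.redS`) -/
abbrev redF (D : NodalDatum A F F₁ F₂) (y : F) : F₁ × F₂ := Frame.redS D.V₁ D.V₂ y

/-- a family is *orthonormal* if it lies in `O` and its reductions are `k`-linearly independent -/
abbrev IsOrthonormal (D : NodalDatum A F F₁ F₂) {ι : Type*} (b : ι → F) : Prop :=
  Frame.IsOrthonormalS D.V₁ D.V₂ b

/-- (N1): every finite dimensional `L`-subspace of `F` has a sup-norm orthonormal basis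
(= helper2's `Frame.HasOrthonormalBasesS D.V₁ D.V₂`, the output of B3). -/
abbrev HasOrthonormalBases (D : NodalDatum A F F₁ F₂) : Prop :=
  Frame.HasOrthonormalBasesS D.V₁ D.V₂

/-- the chart divisor `a P₁ + b P₂` on `F` -/
def chartDiv (D : NodalDatum A F F₁ F₂) (a b : ℤ) : Divisor L F := a • D.P₁ + b • D.P₂

/-- its reduction on the first component -/
def chartDiv₁ (D : NodalDatum A F F₁ F₂) (a b : ℤ) : Divisor k F₁ := a • D.Q₁₁ + b • D.Q₂₁

/-- its reduction on the second component -/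
def chartDiv₂ (D : NodalDatum A F F₁ F₂) (a b : ℤ) : Divisor k F₂ := a • D.Q₁₂ + b • D.Q₂₂

/-- the lattice `M(E) = L(E) ∩ O` -/
def Lat (D : NodalDatum A F F₁ F₂) (E : Divisor L F) : Set F :=
  {y | y ∈ riemannRochSpace E ∧ y ∈ D.O}

/-- the twisted chart lattice `Lat_u(a,b) = {h ∈ O : hⁿ u ∈ L(n (a P₁ + b P₂))}`
`= L(div(u)/n + a P₁ + b P₂) ∩ O` -/
def KLat (D : NodalDatum A F F₁ F₂) (n : ℕ) (u : F) (a b : ℤ) : Set F :=
  {h | h ∈ D.O ∧ h ^ n * u ∈ riemannRochSpace ((n : ℤ) • D.chartDiv a b)}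

/-- the STABLE range of chart exponents: both reduced chart divisors have degree
`> 2 gᵢ - 2 + s` (then the nodal Riemann-Roch spaces have the expected dimension) -/
def Stable (D : NodalDatum A F F₁ F₂) (g₁ g₂ : ℕ) (a b : ℤ) : Prop :=
  2 * (g₁ : ℤ) - 2 + D.s < Divisor.degree (D.chartDiv₁ a b) ∧
    2 * (g₂ : ℤ) - 2 + D.s < Divisor.degree (D.chartDiv₂ a b)

/-- (N5), function level: a semilinear automorphism of `F / L` acting like an element of the
inertia group: it preserves the valuation of `A`, both valuation rings and both chart divisors, and acts trivially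
on both reductions. -/
structure IsInertial (D : NodalDatum A F F₁ F₂) (σ : SemilinearAut L F) : Prop where
  /-- `σ` preserves the valuation of `A`: `σ c / c ∈ Aˣ` (apply it to `c` and `c⁻¹`).
  For `L = ℚ̄` this follows from `σ A = A` because all `σ`-orbits are finite. -/
  base_div_mem : ∀ c : L, c ≠ 0 → SemilinearAut.baseAut σ c / c ∈ A
  mem₁ : ∀ y : F, σ • y ∈ D.V₁.O ↔ y ∈ D.V₁.O
  mem₂ : ∀ y : F, σ • y ∈ D.V₂.O ↔ y ∈ D.V₂.O
  red₁ : ∀ y : F, y ∈ D.V₁.O → D.V₁.redF (σ • y) = D.V₁.redF y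
  red₂ : ∀ y : F, y ∈ D.V₂.O → D.V₂.redF (σ • y) = D.V₂.redF y
  smul_P₁ : σ • D.P₁ = D.P₁
  smul_P₂ : σ • D.P₂ = D.P₂

end NodalDatum

/-- The hypotheses on a nodal datum: genera, rank one, frames (N1), shape of the charts,
(CHART), (GLUE), (COUNT). -/
structure NodalCtx {L : Type*} [Field L] {A : ValuationSubring L}
    {F : Type*} [Field F] [Algebra L F]
    {F₁ F₂ : Type*} [Field F₁] [Field F₂]
    [Algebra (IsLocalRing.ResidueField A) F₁] [Algebra (IsLocalRing.ResidueField A) F₂]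
    (D : NodalDatum A F F₁ F₂) (g g₁ g₂ : ℕ) : Prop where
  hF : S18lib.IsCurveOfGenus L F g
  hF₁ : S18lib.IsCurveOfGenus (IsLocalRing.ResidueField A) F₁ g₁
  hF₂ : S18lib.IsCurveOfGenus (IsLocalRing.ResidueField A) F₂ g₂
  /-- `A` has rank one (same form as in `S18lib.Cech.Ctx.main`) -/
  rankOne : ∀ c : A, c ∈ IsLocalRing.maximalIdeal A → ∀ d : A, d ≠ 0 → ∃ n : ℕ, ¬ c ^ n ∣ d
  /-- (N1) -/
  hD : D.HasOrthonormalBases
  P₁_nonneg : 0 ≤ D.P₁
  P₂_nonneg : 0 ≤ D.P₂
  P_disjoint : Disjoint D.P₁.support D.P₂.support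
  Q₁₁_nonneg : 0 ≤ D.Q₁₁
  Q₂₁_nonneg : 0 ≤ D.Q₂₁
  Q₁₂_nonneg : 0 ≤ D.Q₁₂
  Q₂₂_nonneg : 0 ≤ D.Q₂₂
  Q₁_disjoint : Disjoint D.Q₁₁.support D.Q₂₁.support
  Q₂_disjoint : Disjoint D.Q₁₂.support D.Q₂₂.support
  /-- every chart meets every component -/
  deg_Q₁₁_pos : 0 < Divisor.degree D.Q₁₁
  deg_Q₂₁_pos : 0 < Divisor.degree D.Q₂₁
  deg_Q₁₂_pos : 0 < Divisor.degree D.Q₁₂
  deg_Q₂₂_pos : 0 < Divisor.degree D.Q₂₂
  /-- only `≤` is needed (equality follows) -/
  deg_Q₁_le : Divisor.degree D.Q₁₁ + Divisor.degree D.Q₁₂ ≤ Divisor.degree D.P₁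
  deg_Q₂_le : Divisor.degree D.Q₂₁ + Divisor.degree D.Q₂₂ ≤ Divisor.degree D.P₂
  x₁_injective : Function.Injective D.x₁
  x₂_injective : Function.Injective D.x₂
  /-- the node points do not lie on the charts' boundaries -/
  x₁_not_mem : ∀ c, D.x₁ c ∉ D.Q₁₁.support ∧ D.x₁ c ∉ D.Q₂₁.support
  x₂_not_mem : ∀ c, D.x₂ c ∉ D.Q₁₂.support ∧ D.x₂ c ∉ D.Q₂₂.support
  /-- (CHART) on the first component -/
  chart₁ : ∀ (a b : ℕ) (f : F), f ∈ riemannRochSpace (D.chartDiv a b) → f ∈ D.V₁.O → f ∈ D.V₂.O →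
    D.V₁.redF f ∈ riemannRochSpace (D.chartDiv₁ a b)
  /-- (CHART) on the second component -/
  chart₂ : ∀ (a b : ℕ) (f : F), f ∈ riemannRochSpace (D.chartDiv a b) → f ∈ D.V₁.O → f ∈ D.V₂.O →
    D.V₂.redF f ∈ riemannRochSpace (D.chartDiv₂ a b)
  /-- (GLUE) -/
  glue : ∀ (a b : ℕ) (f : F), f ∈ riemannRochSpace (D.chartDiv a b) → f ∈ D.V₁.O → f ∈ D.V₂.O →
    ∀ c, ∃ α : IsLocalRing.ResidueField A,
      HasValueAt (D.x₁ c) (D.V₁.redF f) α ∧ HasValueAt (D.x₂ c) (D.V₂.redF f) α
  /-- (COUNT): there are at least `g + 1 - g₁ - g₂` nodes -/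
  count : g + 1 ≤ g₁ + g₂ + D.s
  /-- the special fibre is connected -/
  s_pos : 0 < D.s

/-! ### The contracts between the abstract bricks (statements; proofs live in the named files) -/

section Contracts

variable {L : Type*} [Field L] {A : ValuationSubring L}
variable {F : Type*} [Field F] [Algebra L F]
variable {F₁ F₂ : Type*} [Field F₁] [Field F₂]
variable [Algebra (IsLocalRing.ResidueField A) F₁] [Algebra (IsLocalRing.ResidueField A) F₂]

/-- `u` is a unit of the sup-norm ball that reduces to a pair of nonzero CONSTANTS and whose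
divisor is divisible by `n` -/
structure IsKummerUnit (D : NodalDatum A F F₁ F₂) (n : ℕ) (u : F) : Prop where
  ne_zero : u ≠ 0
  dvd_ord : ∀ P : Place L F, (n : ℤ) ∣ P.ord u
  red₁ : ∃ b₁ : IsLocalRing.ResidueField A, b₁ ≠ 0 ∧
    D.V₁.redF u = algebraMap (IsLocalRing.ResidueField A) F₁ b₁
  red₂ : ∃ b₂ : IsLocalRing.ResidueField A, b₂ ≠ 0 ∧
    D.V₂.redF u = algebraMap (IsLocalRing.ResidueField A) F₂ b₂

/-- **Step 1** (LSb/Kum, helper3), abstract function form: for an inertial `σ` and any `f ≠ 0`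
the function `σ f / f` reduces to a nonzero constant on both components
(pure `GaussDatum` algebra: `f = cᵢ fᵢ`, `fᵢ ∈ Oᵢˣ`, `σ cᵢ / cᵢ ∈ Aˣ`). -/
def KummerStatement (D : NodalDatum A F F₁ F₂) : Prop :=
  ∀ (σ : SemilinearAut L F), D.IsInertial σ → ∀ f : F, f ≠ 0 →
    (∃ b₁ : IsLocalRing.ResidueField A, b₁ ≠ 0 ∧
      D.V₁.redF (σ • f * f⁻¹) = algebraMap (IsLocalRing.ResidueField A) F₁ b₁) ∧
    (∃ b₂ : IsLocalRing.ResidueField A, b₂ ≠ 0 ∧
      D.V₂.redF (σ • f * f⁻¹) = algebraMap (IsLocalRing.ResidueField A) F₂ b₂)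

/-- **(U), abstract form** (LSb/Core/Unipotent, helper1): an inertial automorphism acts
unipotently of level 2 on the `n`-torsion of `Pic⁰`, `n` invertible in `k`. -/
def UnipotentStatement (D : NodalDatum A F F₁ F₂) : Prop :=
  ∀ (σ : SemilinearAut L F), D.IsInertial σ → ∀ (n : ℕ), (n : IsLocalRing.ResidueField A) ≠ 0 →
    ∀ x : Pic0 L F, n • x = 0 → σ • (σ • x - x) = σ • x - x

end Contracts

end Fermat.Agent.LSb
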