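/-
LSb / Core / RedSub  (helper1)

The reduction `redSub W ⊆ F₁ × F₂` of the unit ball `W ∩ O` of a finite dimensional `L`-subspace
`W ⊆ F`: it is a `k`-subspace, and by (N1) `dim_k redSub W = dim_L W`.
-/
import Fermat.Agent.LSb.Core.Datum

set_option autoImplicit false

noncomputable section

namespace Fermat.Agent.LSb

open AlgebraicCurve Module

namespace NodalDatum

variable {L : Type*} [Field L] {A : ValuationSubring L}
variable {F : Type*} [Field F] [Algebra L F]
variable {F₁ F₂ : Type*} [Field F₁] [Field F₂]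
variable [Algebra (IsLocalRing.ResidueField A) F₁] [Algebra (IsLocalRing.ResidueField A) F₂]

local notation "k" => IsLocalRing.ResidueField A

variable (D : NodalDatum A F F₁ F₂)

/-- the reduction of the unit ball of an `L`-subspace `W` of `F` -/
def redSub (W : Submodule L F) : Submodule k (F₁ × F₂) where
  carrier := {φ | ∃ h ∈ W, h ∈ D.O ∧ D.redF h = φ}
  zero_mem' := ⟨0, W.zero_mem, D.O.zero_mem, Frame.redS_zero⟩
  add_mem' := by
    rintro _ _ ⟨h, hW, hO, rfl⟩ ⟨h', hW', hO', rfl⟩
    exact ⟨h + h', W.add_mem hW hW', D.O.add_mem hO hO', Frame.redS_add hO hO'⟩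
  smul_mem' := by
    rintro c _ ⟨h, hW, hO, rfl⟩
    obtain ⟨a, rfl⟩ := IsLocalRing.residue_surjective c
    refine ⟨algebraMap L F (a : L) * h, ?_, Frame.smul_mem_supO a hO, Frame.redS_smul a hO⟩
    rw [← Algebra.smul_def]
    exact W.smul_mem _ hW

variable {D}

theorem mem_redSub {W : Submodule L F} {φ : F₁ × F₂} :
    φ ∈ D.redSub W ↔ ∃ h ∈ W, h ∈ D.O ∧ D.redF h = φ := Iff.rfl

theorem redF_mem_redSub {W : Submodule L F} {h : F} (hW : h ∈ W) (hO : h ∈ D.O) :
    D.redF h ∈ D.redSub W := ⟨h, hW, hO, rfl⟩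

theorem redSub_mono {W W' : Submodule L F} (h : W ≤ W') : D.redSub W ≤ D.redSub W' := by
  rintro _ ⟨y, hW, hO, rfl⟩
  exact ⟨y, h hW, hO, rfl⟩

/-- an orthonormal basis of `W` reduces to a basis of `redSub W` -/
theorem redSub_eq_span {W : Submodule L F} [FiniteDimensional L W]
    {b : Fin (finrank L W) → F} (hbW : ∀ i, b i ∈ W) (hb : D.IsOrthonormal b) :
    D.redSub W = Submodule.span k (Set.range fun i => D.redF (b i)) := by
  classical
  -- `b` spans `W`
  have hspan : ∀ x ∈ W, x ∈ Submodule.span L (Set.range b) := by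
    set b' : Fin (finrank L W) → W := fun i => ⟨b i, hbW i⟩ with hb'
    have hli : LinearIndependent L b' := by
      apply LinearIndependent.of_comp W.subtype
      exact hb.linearIndependent
    have htop := hli.span_eq_top_of_card_eq_finrank' (by simp)
    intro x hx
    have h1 : (⟨x, hx⟩ : W) ∈ Submodule.span L (Set.range b') := by rw [htop]; trivial
    have h2 := Submodule.apply_mem_span_image_of_mem_span W.subtype h1
    rw [← Set.range_comp] at h2
    exact h2
  apply le_antisymm
  · rintro _ ⟨h, hW, hO, rfl⟩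
    obtain ⟨a, rfl⟩ := hb.exists_coeff_of_mem_span (hspan h hW) hO
    have hred : D.redF (∑ i, algebraMap L F (a i : L) * b i) =
        ∑ i, IsLocalRing.residue A (a i) • D.redF (b i) := hb.redS_sum a
    rw [hred]
    exact Submodule.sum_mem _ fun i _ =>
      Submodule.smul_mem _ _ (Submodule.subset_span ⟨i, rfl⟩)
  · rw [Submodule.span_le]
    rintro _ ⟨i, rfl⟩
    exact ⟨b i, hbW i, hb.1 i, rfl⟩

/-- (N1) `⟹ dim_k redSub W = dim_L W` -/
theorem finrank_redSub (hD : D.HasOrthonormalBases) (W : Submodule L F)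
    [FiniteDimensional L W] : finrank k (D.redSub W) = finrank L W := by
  obtain ⟨b, hbW, hb⟩ := hD W inferInstance
  rw [redSub_eq_span hbW hb, finrank_span_eq_card hb.2, Fintype.card_fin]

theorem finiteDimensional_redSub (hD : D.HasOrthonormalBases) (W : Submodule L F)
    [FiniteDimensional L W] : FiniteDimensional k (D.redSub W) := by
  obtain ⟨b, hbW, hb⟩ := hD W inferInstance
  rw [redSub_eq_span hbW hb]
  exact FiniteDimensional.span_of_finite k (Set.finite_range _)

end NodalDatum

end Fermat.Agent.LSb
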