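/-
LSb / Core / Lattice (helper6).
Lattices `W ∩ O` (`O = O₁ ⊓ O₂` the sup-norm ball of a nodal datum, `W ⊆ F` finite dimensional)
and their reductions `D.redSub W = red(W ∩ O) ⊆ F₁ × F₂` (helper1's `Core/RedSub.lean`, which has
`finrank_redSub` : `dim_k red(W ∩ O) = dim_L W` from (N1)):
* `exists_add_of_redSub_le` : **sum principle**: if `red(W ∩ O) ⊆ red(W' ∩ O) + red(W'' ∩ O)`
  (`W', W'' ⊆ W`) then `W ∩ O = (W' ∩ O) + (W'' ∩ O)`;
* `exists_eq_smul_of_redF_eq_zero` : an element of `O` with zero reduction is `c • x`, `c ∈ 𝔪_A`.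
-/
import Fermat.Agent.LSb.Core.RedSub
import Fermat.Agent.S18lib.Cech.CurveBasics

set_option autoImplicit false

noncomputable section

namespace Fermat.Agent.LSb.Core

open AlgebraicCurve Fermat.Agent.S18lib Fermat.Agent.LSb Fermat.Agent.LSb.Frame Module

variable {L : Type*} [Field L] {A : ValuationSubring L}
variable {F : Type*} [Field F] [Algebra L F]
variable {F₁ F₂ : Type*} [Field F₁] [Field F₂]
variable [Algebra (IsLocalRing.ResidueField A) F₁] [Algebra (IsLocalRing.ResidueField A) F₂]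

local notation "k" => IsLocalRing.ResidueField A

variable (D : NodalDatum A F F₁ F₂)

/-! ### the reduction `D.redF` on the sup-norm ball `D.O` (restatements of helper2's `redS` API) -/

section RedF

variable {D} {x y : F}

theorem _root_.Fermat.Agent.LSb.NodalDatum.redF_zero' : D.redF 0 = 0 := redS_zero

theorem _root_.Fermat.Agent.LSb.NodalDatum.redF_one' : D.redF 1 = 1 := redS_one

theorem _root_.Fermat.Agent.LSb.NodalDatum.redF_add (hx : x ∈ D.O) (hy : y ∈ D.O) : D.redF (x + y) = D.redF x + D.redF y :=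
  redS_add hx hy

theorem _root_.Fermat.Agent.LSb.NodalDatum.redF_mul (hx : x ∈ D.O) (hy : y ∈ D.O) : D.redF (x * y) = D.redF x * D.redF y :=
  redS_mul hx hy

theorem _root_.Fermat.Agent.LSb.NodalDatum.redF_pow (hx : x ∈ D.O) (n : ℕ) : D.redF (x ^ n) = D.redF x ^ n := redS_pow hx n

theorem _root_.Fermat.Agent.LSb.NodalDatum.redF_smul (a : A) (hx : x ∈ D.O) :
    D.redF (algebraMap L F (a : L) * x) = IsLocalRing.residue A a • D.redF x := redS_smul a hx

theorem _root_.Fermat.Agent.LSb.NodalDatum.redF_neg (hx : x ∈ D.O) : D.redF (-x) = -D.redF x := by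
  have h := NodalDatum.redF_add hx (D.O.neg_mem hx)
  rw [add_neg_cancel, NodalDatum.redF_zero'] at h
  exact eq_neg_of_add_eq_zero_right h.symm

theorem _root_.Fermat.Agent.LSb.NodalDatum.redF_sub (hx : x ∈ D.O) (hy : y ∈ D.O) : D.redF (x - y) = D.redF x - D.redF y := by
  rw [sub_eq_add_neg, NodalDatum.redF_add hx (D.O.neg_mem hy), NodalDatum.redF_neg hy, sub_eq_add_neg]

theorem _root_.Fermat.Agent.LSb.NodalDatum.redF_smul_eq_zero {c : A} (hc : c ∈ IsLocalRing.maximalIdeal A) (hx : x ∈ D.O) :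
    D.redF (algebraMap L F (c : L) * x) = 0 := by
  rw [NodalDatum.redF_smul c hx, (IsLocalRing.residue_eq_zero_iff _).mpr hc, zero_smul]

theorem _root_.Fermat.Agent.LSb.NodalDatum.redF_add_smul {c : A} (hc : c ∈ IsLocalRing.maximalIdeal A) (hx : x ∈ D.O) (hy : y ∈ D.O) :
    D.redF (x + algebraMap L F (c : L) * y) = D.redF x := by
  rw [NodalDatum.redF_add hx (smul_mem_supO c hy), NodalDatum.redF_smul_eq_zero hc hy, add_zero]

theorem _root_.Fermat.Agent.LSb.NodalDatum.redF_sub_smul {c : A} (hc : c ∈ IsLocalRing.maximalIdeal A) (hx : x ∈ D.O) (hy : y ∈ D.O) :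
    D.redF (x - algebraMap L F (c : L) * y) = D.redF x := by
  rw [NodalDatum.redF_sub hx (smul_mem_supO c hy), NodalDatum.redF_smul_eq_zero hc hy, sub_zero]

theorem _root_.Fermat.Agent.LSb.NodalDatum.smul_mem_O (a : A) (hx : x ∈ D.O) : algebraMap L F (a : L) * x ∈ D.O :=
  smul_mem_supO a hx

end RedF

/-! ### the lattices `Lat E` -/

section Lat

variable {D} {E E' : Divisor L F} {x y : F}

theorem Lat.zero : (0 : F) ∈ D.Lat E := ⟨Submodule.zero_mem _, D.O.zero_mem⟩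

theorem Lat.add (hx : x ∈ D.Lat E) (hy : y ∈ D.Lat E) : x + y ∈ D.Lat E :=
  ⟨Submodule.add_mem _ hx.1 hy.1, D.O.add_mem hx.2 hy.2⟩

theorem Lat.neg (hx : x ∈ D.Lat E) : -x ∈ D.Lat E :=
  ⟨Submodule.neg_mem _ hx.1, D.O.neg_mem hx.2⟩

theorem Lat.sub (hx : x ∈ D.Lat E) (hy : y ∈ D.Lat E) : x - y ∈ D.Lat E :=
  ⟨Submodule.sub_mem _ hx.1 hy.1, D.O.sub_mem hx.2 hy.2⟩

theorem Lat.smul (a : A) (hx : x ∈ D.Lat E) : algebraMap L F (a : L) * x ∈ D.Lat E := by
  refine ⟨?_, smul_mem_supO a hx.2⟩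
  have := Submodule.smul_mem (riemannRochSpace E) (a : L) hx.1
  rwa [Algebra.smul_def] at this

theorem Lat.mono (h : ∀ v, E v ≤ E' v) (hx : x ∈ D.Lat E) : x ∈ D.Lat E' :=
  ⟨Fermat.Agent.S18lib.Cech.rr_mono h hx.1, hx.2⟩

theorem Lat.sum {ι : Type*} (s : Finset ι) (f : ι → F) (hf : ∀ i ∈ s, f i ∈ D.Lat E) :
    ∑ i ∈ s, f i ∈ D.Lat E :=
  ⟨Submodule.sum_mem _ fun i hi => (hf i hi).1, D.O.sum_mem fun i hi => (hf i hi).2⟩

end Lat

/-! ### orthonormal bases and the sum principle -/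

variable {D}

/-- an orthonormal family of `finrank W` elements of `W` spans `W` -/
theorem span_of_orthonormal {W : Submodule L F} [FiniteDimensional L W]
    {b : Fin (finrank L W) → F} (hbW : ∀ i, b i ∈ W) (hb : D.IsOrthonormal b) :
    ∀ x ∈ W, x ∈ Submodule.span L (Set.range b) := by
  set b' : Fin (finrank L W) → W := fun i => ⟨b i, hbW i⟩ with hb'
  have hli : LinearIndependent L b' := by
    apply LinearIndependent.of_comp W.subtype
    exact hb.linearIndependent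
  have htop := hli.span_eq_top_of_card_eq_finrank' (by simp)
  intro x hx
  have h1 : (⟨x, hx⟩ : W) ∈ Submodule.span L (Set.range b') := by rw [htop]; trivial
  have h2 := Submodule.apply_mem_span_image_of_mem_span W.subtype h1
  rw [← Set.range_comp] at h2
  exact h2

/-- coordinates of an element of `W ∩ O` in an orthonormal basis -/
theorem exists_coeff_of_orthonormal {W : Submodule L F} [FiniteDimensional L W]
    {b : Fin (finrank L W) → F} (hbW : ∀ i, b i ∈ W) (hb : D.IsOrthonormal b) {y : F}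
    (hy : y ∈ W) (hyO : y ∈ D.O) :
    ∃ a : Fin (finrank L W) → A, y = ∑ i, algebraMap L F (a i : L) * b i :=
  hb.exists_coeff_of_mem_span (span_of_orthonormal hbW hb y hy) hyO

/-- **the sum principle**: `red(W ∩ O) ⊆ red(W' ∩ O) + red(W'' ∩ O)` implies
`W ∩ O = (W' ∩ O) + (W'' ∩ O)`. -/
theorem exists_add_of_redSub_le (hD : D.HasOrthonormalBases) {W W' W'' : Submodule L F}
    [FiniteDimensional L W] (h' : W' ≤ W) (h'' : W'' ≤ W)
    (hred : D.redSub W ≤ D.redSub W' ⊔ D.redSub W'') {y : F} (hy : y ∈ W) (hyO : y ∈ D.O) :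
    ∃ y' ∈ W', y' ∈ D.O ∧ ∃ y'' ∈ W'', y'' ∈ D.O ∧ y = y' + y'' := by
  classical
  obtain ⟨b, hbW, hb⟩ := hD W inferInstance
  -- decompose the reductions of the basis
  have hdec : ∀ i, ∃ p ∈ W', p ∈ D.O ∧ ∃ q ∈ W'', q ∈ D.O ∧ D.redF (b i) = D.redF p + D.redF q := by
    intro i
    have := hred (NodalDatum.redF_mem_redSub (hbW i) (hb.1 i))
    obtain ⟨φ, ⟨p, hp, hpO, rfl⟩, ψ, ⟨q, hq, hqO, rfl⟩, hsum⟩ := Submodule.mem_sup.1 this
    exact ⟨p, hp, hpO, q, hq, hqO, hsum.symm⟩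
  choose p hp hpO q hq hqO hpq using hdec
  -- the new basis `e i = p i + q i`
  set e : Fin (finrank L W) → F := fun i => p i + q i with he
  have heW : ∀ i, e i ∈ W := fun i => W.add_mem (h' (hp i)) (h'' (hq i))
  have heO : ∀ i, e i ∈ D.O := fun i => D.O.add_mem (hpO i) (hqO i)
  have hered : ∀ i, D.redF (e i) = D.redF (b i) := fun i => by
    rw [hpq i]; exact redS_add (hpO i) (hqO i)
  have heo : D.IsOrthonormal e := by
    refine ⟨heO, ?_⟩
    have : (fun i => redS D.V₁ D.V₂ (e i)) = fun i => redS D.V₁ D.V₂ (b i) := funext hered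
    rw [this]
    exact hb.2
  obtain ⟨a, ha⟩ := exists_coeff_of_orthonormal heW heo hy hyO
  refine ⟨∑ i, algebraMap L F (a i : L) * p i, ?_, ?_, ∑ i, algebraMap L F (a i : L) * q i, ?_, ?_, ?_⟩
  · refine Submodule.sum_mem _ fun i _ => ?_
    have := W'.smul_mem (a i : L) (hp i)
    rwa [Algebra.smul_def] at this
  · exact D.O.sum_mem fun i _ => smul_mem_supO (a i) (hpO i)
  · refine Submodule.sum_mem _ fun i _ => ?_
    have := W''.smul_mem (a i : L) (hq i)
    rwa [Algebra.smul_def] at this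
  · exact D.O.sum_mem fun i _ => smul_mem_supO (a i) (hqO i)
  · rw [ha, ← Finset.sum_add_distrib]
    refine Finset.sum_congr rfl fun i _ => ?_
    rw [he]; ring

/-! ### elements with zero reduction -/

/-- an element of `O` whose reduction vanishes (on both components) is `c • x`, `c ∈ 𝔪_A`,
`x ∈ O` -/
theorem exists_eq_smul_of_redF_eq_zero {y : F} (hyO : y ∈ D.O) (h₁ : D.V₁.redF y = 0)
    (h₂ : D.V₂.redF y = 0) :
    ∃ c : A, c ∈ IsLocalRing.maximalIdeal A ∧ ∃ x ∈ D.O, y = algebraMap L F (c : L) * x := by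
  rcases eq_or_ne y 0 with rfl | hy0
  · exact ⟨0, Ideal.zero_mem _, 0, D.O.zero_mem, by simp⟩
  obtain ⟨hy1, hy2⟩ := NodalDatum.mem_O.1 hyO
  obtain ⟨a₁, y₁, ha₁, hy₁, hay₁⟩ := D.V₁.exists_eq_mul_of_redF_eq_zero hy1 hy0 h₁
  obtain ⟨a₂, y₂, ha₂, hy₂, hay₂⟩ := D.V₂.exists_eq_mul_of_redF_eq_zero hy2 hy0 h₂
  have hy₁O := D.V₁.mem_of_redF_ne_zero hy₁
  have hy₂O := D.V₂.mem_of_redF_ne_zero hy₂
  have ha₁0 : (a₁ : L) ≠ 0 := by
    intro h
    apply hy0
    rw [hay₁, h, map_zero, zero_mul]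
  have ha₂0 : (a₂ : L) ≠ 0 := by
    intro h
    apply hy0
    rw [hay₂, h, map_zero, zero_mul]
  have hF₁ : algebraMap L F (a₁ : L) ≠ 0 := (map_ne_zero _).2 ha₁0
  have hF₂ : algebraMap L F (a₂ : L) ≠ 0 := (map_ne_zero _).2 ha₂0
  rcases ValuationRing.dvd_total a₁ a₂ with ⟨d, hd⟩ | ⟨d, hd⟩
  · -- `a₂ = a₁ d`: take `c = a₁`, `x = y₁ = d y₂`
    refine ⟨a₁, ha₁, y₁, NodalDatum.mem_O.2 ⟨hy₁O, ?_⟩, hay₁⟩
    have : y₁ = algebraMap L F (d : L) * y₂ := by
      apply mul_left_cancel₀ hF₁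
      rw [← hay₁, hay₂, hd, MulMemClass.coe_mul, map_mul, mul_assoc]
    rw [this]
    exact D.V₂.smul_mem d hy₂O
  · refine ⟨a₂, ha₂, y₂, NodalDatum.mem_O.2 ⟨?_, hy₂O⟩, hay₂⟩
    have : y₂ = algebraMap L F (d : L) * y₁ := by
      apply mul_left_cancel₀ hF₂
      rw [← hay₂, hay₁, hd, MulMemClass.coe_mul, map_mul, mul_assoc]
    rw [this]
    exact D.V₁.smul_mem d hy₁O

/-- the reduction of `c • x` vanishes for `c ∈ 𝔪_A` -/
theorem redF_smul_of_mem_maximalIdeal {c : A} (hc : c ∈ IsLocalRing.maximalIdeal A) {x : F}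
    (hx : x ∈ D.O) : D.redF (algebraMap L F (c : L) * x) = 0 := by
  rw [show D.redF (algebraMap L F (c : L) * x) = IsLocalRing.residue A c • D.redF x from
    redS_smul c hx, (IsLocalRing.residue_eq_zero_iff _).mpr hc, zero_smul]

/-- an element of `O` whose reduction has both components nonzero is a unit of `O` -/
theorem inv_mem_O {x : F} (h₁ : D.V₁.redF x ≠ 0) (h₂ : D.V₂.redF x ≠ 0) : x⁻¹ ∈ D.O :=
  NodalDatum.mem_O.2 ⟨D.V₁.inv_mem_of_redF_ne_zero h₁, D.V₂.inv_mem_of_redF_ne_zero h₂⟩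

end Fermat.Agent.LSb.Core
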