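/-
LSb / Core / Value  (helper1)

The calculus of `HasValueAt Q z c` ("`z` is regular at the place `Q` with value `c`"):
constants, sums, products, powers, inverses, uniqueness, existence at places of degree one,
and the translation to `Place.ord`.
-/
import Fermat.Agent.LSb.Core.Datum
import Fermat.Agent.S18lib.Cech.CurveBasics

set_option autoImplicit false

noncomputable section

namespace Fermat.Agent.LSb

open AlgebraicCurve WithZero

variable {K Fk : Type*} [Field K] [Field Fk] [Algebra K Fk] {Q : Place K Fk}

theorem adicValuation_lt_one_iff {f : Fk} :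
    Q.adicValuation f < 1 ↔ f = 0 ∨ 0 < Q.ord f := by
  rcases eq_or_ne f 0 with rfl | hf
  · simp
  · rw [Q.adicValuation_eq_exp_neg_ord hf, ← exp_zero, exp_lt_exp, or_iff_right hf]
    omega

theorem hasValueAt_iff {z : Fk} {c : K} :
    HasValueAt Q z c ↔ z = algebraMap K Fk c ∨ 0 < Q.ord (z - algebraMap K Fk c) := by
  rw [HasValueAt, adicValuation_lt_one_iff, sub_eq_zero]

theorem hasValueAt_zero_iff {z : Fk} : HasValueAt Q z 0 ↔ z = 0 ∨ 0 < Q.ord z := by
  rw [hasValueAt_iff, map_zero, sub_zero]

theorem hasValueAt_const (c : K) : HasValueAt Q (algebraMap K Fk c) c := by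
  rw [HasValueAt, sub_self, map_zero]
  exact zero_lt_one

theorem hasValueAt_zero : HasValueAt Q (0 : Fk) 0 := by
  simpa using hasValueAt_const (Q := Q) (0 : K)

theorem hasValueAt_one : HasValueAt Q (1 : Fk) 1 := by
  simpa using hasValueAt_const (Q := Q) (1 : K)

namespace HasValueAt

variable {z z' : Fk} {c c' : K}

theorem add (h : HasValueAt Q z c) (h' : HasValueAt Q z' c') : HasValueAt Q (z + z') (c + c') := by
  unfold HasValueAt at *
  have : z + z' - algebraMap K Fk (c + c') = (z - algebraMap K Fk c) + (z' - algebraMap K Fk c') := by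
    rw [map_add]; ring
  rw [this]
  exact Valuation.map_add_lt _ h h'

theorem neg (h : HasValueAt Q z c) : HasValueAt Q (-z) (-c) := by
  unfold HasValueAt at *
  have : -z - algebraMap K Fk (-c) = -(z - algebraMap K Fk c) := by
    rw [map_neg]; ring
  rw [this, Valuation.map_neg]
  exact h

theorem sub (h : HasValueAt Q z c) (h' : HasValueAt Q z' c') : HasValueAt Q (z - z') (c - c') := by
  rw [sub_eq_add_neg, sub_eq_add_neg]
  exact h.add h'.neg

/-- a function with a value at `Q` is regular at `Q` -/
theorem le_one (h : HasValueAt Q z c) : Q.adicValuation z ≤ 1 := by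
  have : z = (z - algebraMap K Fk c) + algebraMap K Fk c := by ring
  rw [this]
  exact (Valuation.map_add _ _ _).trans (max_le h.le (Q.adicValuation_algebraMap_le_one c))

theorem ord_nonneg (h : HasValueAt Q z c) : 0 ≤ Q.ord z := by
  rcases Q.adicValuation_le_one_iff.1 h.le_one with rfl | h0
  · simp
  · exact h0

theorem mul (h : HasValueAt Q z c) (h' : HasValueAt Q z' c') : HasValueAt Q (z * z') (c * c') := by
  have h1 := h'.le_one
  unfold HasValueAt at *
  have : z * z' - algebraMap K Fk (c * c') =
      (z - algebraMap K Fk c) * z' + algebraMap K Fk c * (z' - algebraMap K Fk c') := by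
    rw [map_mul]; ring
  rw [this]
  refine Valuation.map_add_lt _ ?_ ?_
  · rw [map_mul]
    calc Q.adicValuation (z - algebraMap K Fk c) * Q.adicValuation z'
        ≤ Q.adicValuation (z - algebraMap K Fk c) * 1 := mul_le_mul_right h1 _
      _ = Q.adicValuation (z - algebraMap K Fk c) := mul_one _
      _ < 1 := h
  · rw [map_mul]
    calc Q.adicValuation (algebraMap K Fk c) * Q.adicValuation (z' - algebraMap K Fk c')
        ≤ 1 * Q.adicValuation (z' - algebraMap K Fk c') :=
          mul_le_mul_left (Q.adicValuation_algebraMap_le_one c) _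
      _ = Q.adicValuation (z' - algebraMap K Fk c') := one_mul _
      _ < 1 := h'

theorem smul (a : K) (h : HasValueAt Q z c) : HasValueAt Q (a • z) (a * c) := by
  rw [Algebra.smul_def]
  exact (hasValueAt_const a).mul h

theorem pow (h : HasValueAt Q z c) (n : ℕ) : HasValueAt Q (z ^ n) (c ^ n) := by
  induction n with
  | zero => simpa using hasValueAt_one (Q := Q)
  | succ n ih =>
    rw [pow_succ, pow_succ]
    exact ih.mul h

/-- nonzero constants are units at every place -/
theorem _root_.Fermat.Agent.LSb.adicValuation_algebraMap_eq_one {c : K} (hc : c ≠ 0) :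
    Q.adicValuation (algebraMap K Fk c) = 1 := by
  rw [Q.adicValuation_eq_exp_neg_ord ((map_ne_zero _).2 hc), S18lib.Cech.ord_const]
  simp

/-- the value is unique -/
theorem unique (h : HasValueAt Q z c) (h' : HasValueAt Q z c') : c = c' := by
  by_contra hne
  have h1 := h'.sub h
  rw [sub_self] at h1
  unfold HasValueAt at h1
  rw [zero_sub, Valuation.map_neg, adicValuation_algebraMap_eq_one (sub_ne_zero.2 (Ne.symm hne))]
    at h1
  exact lt_irrefl _ h1

theorem eq_zero_of_eq_zero (h : HasValueAt Q (0 : Fk) c) : c = 0 :=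
  h.unique hasValueAt_zero

/-- a function with a nonzero value is a unit at `Q` -/
theorem adicValuation_eq_one (h : HasValueAt Q z c) (hc : c ≠ 0) : Q.adicValuation z = 1 := by
  have : z = (z - algebraMap K Fk c) + algebraMap K Fk c := by ring
  rw [this, Valuation.map_add_eq_of_lt_right]
  · exact adicValuation_algebraMap_eq_one hc
  · rw [adicValuation_algebraMap_eq_one hc]
    exact h

theorem ne_zero (h : HasValueAt Q z c) (hc : c ≠ 0) : z ≠ 0 := by
  rintro rfl
  exact hc h.eq_zero_of_eq_zero

theorem ord_eq_zero (h : HasValueAt Q z c) (hc : c ≠ 0) : Q.ord z = 0 := by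
  have h1 := h.adicValuation_eq_one hc
  rw [Q.adicValuation_eq_exp_neg_ord (h.ne_zero hc), ← exp_zero, exp_inj] at h1
  omega

theorem inv (h : HasValueAt Q z c) (hc : c ≠ 0) : HasValueAt Q z⁻¹ c⁻¹ := by
  have hz := h.ne_zero hc
  have h1 := h.adicValuation_eq_one hc
  have hcF : algebraMap K Fk c ≠ 0 := (map_ne_zero _).2 hc
  unfold HasValueAt at *
  have : z⁻¹ - algebraMap K Fk c⁻¹ = -(z - algebraMap K Fk c) * (z⁻¹ * (algebraMap K Fk c)⁻¹) := by
    rw [map_inv₀]; field_simp; ring
  rw [this, map_mul, Valuation.map_neg, map_mul, map_inv₀, map_inv₀, h1,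
    adicValuation_algebraMap_eq_one hc]
  simpa using h

/-- if `z ^ n` is regular at `Q` (`n > 0`) then so is `z` -/
theorem _root_.Fermat.Agent.LSb.adicValuation_le_one_of_pow {z : Fk} {n : ℕ} (hn : 0 < n)
    (h : Q.adicValuation (z ^ n) ≤ 1) : Q.adicValuation z ≤ 1 := by
  rw [map_pow] at h
  by_contra hlt
  push Not at hlt
  exact absurd h (not_le.2 (one_lt_pow₀ hlt hn.ne'))

end HasValueAt

/-- at a place of degree one every regular function has a value -/
theorem exists_hasValueAt (hQ : Q.deg = 1) {z : Fk} (hz : Q.adicValuation z ≤ 1) :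
    ∃ c : K, HasValueAt Q z c := by
  have hmem : z ∈ Q.toValuationSubring := by
    rcases Q.adicValuation_le_one_iff.1 hz with rfl | h0
    · exact zero_mem _
    · exact Fermat.Agent.ProgramR.FF.mem_of_ord_nonneg Q h0
  obtain ⟨c, hc⟩ := S18lib.Cech.exists_value_of_deg_eq_one Q hQ hmem
  refine ⟨c, hasValueAt_iff.2 ?_⟩
  rcases hc with hc | hc
  · exact Or.inl hc
  · exact Or.inr (by omega)

/-- a function in `L(E)` is regular at every place outside the support of `E`
(more generally where `E ≤ 0`) -/
theorem adicValuation_le_one_of_mem_rr {E : Divisor K Fk} {z : Fk}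
    (hz : z ∈ riemannRochSpace E) (hQ : E Q ≤ 0) : Q.adicValuation z ≤ 1 := by
  rw [Q.adicValuation_le_one_iff]
  rcases S18lib.Cech.mem_rr_iff.1 hz Q with h | h
  · exact Or.inl h
  · exact Or.inr (by omega)

/-- value at a place of degree one of a function of `L(E)`, `E Q ≤ 0` -/
theorem exists_hasValueAt_of_mem_rr (hQd : Q.deg = 1) {E : Divisor K Fk} {z : Fk}
    (hz : z ∈ riemannRochSpace E) (hQ : E Q ≤ 0) : ∃ c : K, HasValueAt Q z c :=
  exists_hasValueAt hQd (adicValuation_le_one_of_mem_rr hz hQ)

end Fermat.Agent.LSb
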