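/-
LSb / Core / Chart  (helper1)

Elementary lemmas on the chart divisors `chartDiv a b = a P₁ + b P₂` and their reductions, the
Kummer divisor `E_u = div(u)/n`, and the identification
`KLat n u a b = Lat (E_u + chartDiv a b)`.
-/
import Fermat.Agent.LSb.Core.Value

set_option autoImplicit false

noncomputable section

namespace Fermat.Agent.LSb

open AlgebraicCurve Module

/-! ### divisibility of divisors -/

section Kummer

variable {K F : Type*} [Field K] [Field F] [Algebra K F]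

/-- the divisor `div(u)/n` -/
theorem exists_kummerDiv [HasPrincipalDivisors K F] {n : ℕ} (hn : 0 < n) {u : F} (hu : u ≠ 0)
    (hdvd : ∀ P : Place K F, (n : ℤ) ∣ P.ord u) :
    ∃ E : Divisor K F, (∀ P, (n : ℤ) * E P = P.ord u) ∧ Divisor.degree E = 0 := by
  obtain ⟨Du, hDu, hdeg⟩ := HasPrincipalDivisors.exists_divisor (K := K) u hu
  refine ⟨Du.mapRange (fun m => m / (n : ℤ)) (by simp), fun P => ?_, ?_⟩
  · rw [Finsupp.mapRange_apply, hDu P]
    exact Int.mul_ediv_cancel' (hdvd P)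
  · have hnE : (n : ℤ) • Du.mapRange (fun m => m / (n : ℤ)) (by simp) = Du := by
      ext P
      rw [Finsupp.smul_apply, Finsupp.mapRange_apply, hDu P, smul_eq_mul]
      exact Int.mul_ediv_cancel' (hdvd P)
    have h1 := congrArg Divisor.degree hnE
    rw [map_zsmul, hdeg, smul_eq_mul] at h1
    have hn' : (n : ℤ) ≠ 0 := by exact_mod_cast hn.ne'
    exact (mul_eq_zero.1 h1).resolve_left hn'

/-- `hⁿ u ∈ L(n G) ↔ h ∈ L(E_u + G)` -/
theorem pow_mul_mem_rr_iff {n : ℕ} (hn : 0 < n) {u : F} (hu : u ≠ 0) {E : Divisor K F}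
    (hE : ∀ P, (n : ℤ) * E P = P.ord u) (G : Divisor K F) (h : F) :
    h ^ n * u ∈ riemannRochSpace ((n : ℤ) • G) ↔ h ∈ riemannRochSpace (E + G) := by
  rcases eq_or_ne h 0 with rfl | hh
  · rw [zero_pow hn.ne', zero_mul]
    exact ⟨fun _ => Submodule.zero_mem _, fun _ => Submodule.zero_mem _⟩
  have hn' : (0 : ℤ) < n := by exact_mod_cast hn
  rw [S18lib.Cech.mem_rr_of_ne (mul_ne_zero (pow_ne_zero n hh) hu), S18lib.Cech.mem_rr_of_ne hh]
  refine forall_congr' fun P => ?_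
  rw [P.ord_mul (pow_ne_zero n hh) hu, S18lib.Cech.ord_pow, ← hE P, Finsupp.smul_apply,
    Finsupp.add_apply, smul_eq_mul]
  constructor
  · intro h1
    have : (n : ℤ) * (-(E P + G P)) ≤ (n : ℤ) * P.ord h := by linarith
    exact le_of_mul_le_mul_left this hn'
  · intro h1
    have := mul_le_mul_of_nonneg_left h1 hn'.le
    linarith

end Kummer

namespace NodalDatum

variable {L : Type*} [Field L] {A : ValuationSubring L}
variable {F : Type*} [Field F] [Algebra L F]
variable {F₁ F₂ : Type*} [Field F₁] [Field F₂]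
variable [Algebra (IsLocalRing.ResidueField A) F₁] [Algebra (IsLocalRing.ResidueField A) F₂]

local notation "k" => IsLocalRing.ResidueField A

variable (D : NodalDatum A F F₁ F₂)

theorem zsmul_chartDiv (n a b : ℤ) : n • D.chartDiv a b = D.chartDiv (n * a) (n * b) := by
  rw [chartDiv, chartDiv, smul_add, smul_smul, smul_smul]

theorem zsmul_chartDiv₁ (n a b : ℤ) : n • D.chartDiv₁ a b = D.chartDiv₁ (n * a) (n * b) := by
  rw [chartDiv₁, chartDiv₁, smul_add, smul_smul, smul_smul]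

theorem zsmul_chartDiv₂ (n a b : ℤ) : n • D.chartDiv₂ a b = D.chartDiv₂ (n * a) (n * b) := by
  rw [chartDiv₂, chartDiv₂, smul_add, smul_smul, smul_smul]

theorem degree_chartDiv (a b : ℤ) :
    Divisor.degree (D.chartDiv a b) = a * Divisor.degree D.P₁ + b * Divisor.degree D.P₂ := by
  rw [chartDiv, map_add, map_zsmul, map_zsmul, smul_eq_mul, smul_eq_mul]

theorem degree_chartDiv₁ (a b : ℤ) :
    Divisor.degree (D.chartDiv₁ a b) = a * Divisor.degree D.Q₁₁ + b * Divisor.degree D.Q₂₁ := by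
  rw [chartDiv₁, map_add, map_zsmul, map_zsmul, smul_eq_mul, smul_eq_mul]

theorem degree_chartDiv₂ (a b : ℤ) :
    Divisor.degree (D.chartDiv₂ a b) = a * Divisor.degree D.Q₁₂ + b * Divisor.degree D.Q₂₂ := by
  rw [chartDiv₂, map_add, map_zsmul, map_zsmul, smul_eq_mul, smul_eq_mul]

theorem chartDiv_apply (a b : ℤ) (P : Place L F) :
    D.chartDiv a b P = a * D.P₁ P + b * D.P₂ P := by
  rw [chartDiv, Finsupp.add_apply, Finsupp.smul_apply, Finsupp.smul_apply, smul_eq_mul, smul_eq_mul]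

theorem chartDiv₁_apply (a b : ℤ) (Q : Place k F₁) :
    D.chartDiv₁ a b Q = a * D.Q₁₁ Q + b * D.Q₂₁ Q := by
  rw [chartDiv₁, Finsupp.add_apply, Finsupp.smul_apply, Finsupp.smul_apply, smul_eq_mul, smul_eq_mul]

theorem chartDiv₂_apply (a b : ℤ) (Q : Place k F₂) :
    D.chartDiv₂ a b Q = a * D.Q₁₂ Q + b * D.Q₂₂ Q := by
  rw [chartDiv₂, Finsupp.add_apply, Finsupp.smul_apply, Finsupp.smul_apply, smul_eq_mul, smul_eq_mul]

variable {D}

/-- `KLat n u a b = Lat (E_u + chartDiv a b)` -/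
theorem mem_KLat_iff {n : ℕ} (hn : 0 < n) {u : F} (hu : u ≠ 0) {E : Divisor L F}
    (hE : ∀ P, (n : ℤ) * E P = P.ord u) (a b : ℤ) (h : F) :
    h ∈ D.KLat n u a b ↔ h ∈ D.Lat (E + D.chartDiv a b) := by
  show (h ∈ D.O ∧ _) ↔ (_ ∧ h ∈ D.O)
  rw [pow_mul_mem_rr_iff hn hu hE]
  exact and_comm

theorem KLat_eq_Lat {n : ℕ} (hn : 0 < n) {u : F} (hu : u ≠ 0) {E : Divisor L F}
    (hE : ∀ P, (n : ℤ) * E P = P.ord u) (a b : ℤ) :
    D.KLat n u a b = D.Lat (E + D.chartDiv a b) :=
  Set.ext fun h => mem_KLat_iff hn hu hE a b h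

end NodalDatum

namespace NodalCtx

variable {L : Type*} [Field L] {A : ValuationSubring L}
variable {F : Type*} [Field F] [Algebra L F]
variable {F₁ F₂ : Type*} [Field F₁] [Field F₂]
variable [Algebra (IsLocalRing.ResidueField A) F₁] [Algebra (IsLocalRing.ResidueField A) F₂]
variable {D : NodalDatum A F F₁ F₂} {g g₁ g₂ : ℕ} (C : NodalCtx D g g₁ g₂)

local notation "k" => IsLocalRing.ResidueField A

include C

/-- the chart divisors vanish at the node points -/
theorem chartDiv₁_x₁ (a b : ℤ) (c : Fin D.s) : D.chartDiv₁ a b (D.x₁ c) = 0 := by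
  have h := C.x₁_not_mem c
  rw [Finsupp.notMem_support_iff, Finsupp.notMem_support_iff] at h
  rw [D.chartDiv₁_apply, h.1, h.2]
  ring

theorem chartDiv₂_x₂ (a b : ℤ) (c : Fin D.s) : D.chartDiv₂ a b (D.x₂ c) = 0 := by
  have h := C.x₂_not_mem c
  rw [Finsupp.notMem_support_iff, Finsupp.notMem_support_iff] at h
  rw [D.chartDiv₂_apply, h.1, h.2]
  ring

/-- values at the node points of functions in the chart spaces -/
theorem exists_hasValueAt₁ {a b : ℤ} {z : F₁} (hz : z ∈ riemannRochSpace (D.chartDiv₁ a b))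
    (c : Fin D.s) : ∃ α : k, HasValueAt (D.x₁ c) z α :=
  exists_hasValueAt_of_mem_rr (C.hF₁.deg_eq_one _) hz (C.chartDiv₁_x₁ a b c).le

theorem exists_hasValueAt₂ {a b : ℤ} {z : F₂} (hz : z ∈ riemannRochSpace (D.chartDiv₂ a b))
    (c : Fin D.s) : ∃ α : k, HasValueAt (D.x₂ c) z α :=
  exists_hasValueAt_of_mem_rr (C.hF₂.deg_eq_one _) hz (C.chartDiv₂_x₂ a b c).le

end NodalCtx

end Fermat.Agent.LSb
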