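/-
LSb / Core / ValAt (helper6).
Values of functions at rational places of a function field `F / K` (Prelude `AlgebraicCurve.Place`):
`valAt x φ : K` is the value of `φ` at `x` (junk value `0` if `φ` has a pole at `x`).
On functions regular at `x` it is a `K`-algebra map.
-/
import Mathlib
import Fermat.Agent.S18lib.Cech.CurveBasics

set_option autoImplicit false

noncomputable section

namespace Fermat.Agent.LSb.Core

open AlgebraicCurve Fermat.Agent.ProgramR Fermat.Agent.S18lib.Cech

variable {K F : Type*} [Field K] [Field F] [Algebra K F]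

/-- `φ` vanishes at `x` (true for `φ = 0`) -/
def VanishAt (x : Place K F) (φ : F) : Prop := x.adicValuation φ < 1

theorem vanishAt_iff (x : Place K F) (φ : F) : VanishAt x φ ↔ φ = 0 ∨ 1 ≤ x.ord φ := by
  rw [VanishAt]
  have h1 : (1 : WithZero (Multiplicative ℤ)) = WithZero.exp (0 : ℤ) := by simp
  constructor
  · intro h
    by_cases h0 : φ = 0
    · exact Or.inl h0
    right
    rw [x.adicValuation_eq_exp_neg_ord h0, h1, WithZero.exp_lt_exp] at h
    omega
  · rintro (rfl | h)
    · simp
    · by_cases h0 : φ = 0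
      · subst h0; simp
      rw [x.adicValuation_eq_exp_neg_ord h0, h1, WithZero.exp_lt_exp]
      omega

theorem vanishAt_zero (x : Place K F) : VanishAt x (0 : F) := by
  rw [vanishAt_iff]; exact Or.inl rfl

theorem VanishAt.mem {x : Place K F} {φ : F} (h : VanishAt x φ) : φ ∈ x.toValuationSubring := by
  rw [vanishAt_iff] at h
  rcases h with rfl | h
  · exact zero_mem _
  · exact FF.mem_of_ord_nonneg x (by omega)

theorem VanishAt.add {x : Place K F} {φ ψ : F} (h₁ : VanishAt x φ) (h₂ : VanishAt x ψ) :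
    VanishAt x (φ + ψ) :=
  lt_of_le_of_lt (Valuation.map_add _ _ _) (max_lt h₁ h₂)

theorem VanishAt.neg {x : Place K F} {φ : F} (h : VanishAt x φ) : VanishAt x (-φ) := by
  rw [VanishAt, Valuation.map_neg]; exact h

theorem VanishAt.sub {x : Place K F} {φ ψ : F} (h₁ : VanishAt x φ) (h₂ : VanishAt x ψ) :
    VanishAt x (φ - ψ) := by
  rw [sub_eq_add_neg]; exact h₁.add h₂.neg

theorem VanishAt.mul_right {x : Place K F} {φ ψ : F} (h₁ : VanishAt x φ)
    (h₂ : ψ ∈ x.toValuationSubring) : VanishAt x (φ * ψ) := by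
  rw [VanishAt, map_mul]
  have h3 : x.adicValuation ψ ≤ 1 := x.adicValuation_le_one_of_mem h₂
  calc x.adicValuation φ * x.adicValuation ψ ≤ x.adicValuation φ * 1 := by gcongr
    _ = x.adicValuation φ := mul_one _
    _ < 1 := h₁

theorem VanishAt.mul_left {x : Place K F} {φ ψ : F} (h₁ : VanishAt x φ)
    (h₂ : ψ ∈ x.toValuationSubring) : VanishAt x (ψ * φ) := by
  rw [mul_comm]; exact h₁.mul_right h₂

/-- a constant vanishes at `x` iff it is zero -/
theorem vanishAt_algebraMap_iff (x : Place K F) (c : K) : VanishAt x (algebraMap K F c) ↔ c = 0 := by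
  rw [vanishAt_iff]
  constructor
  · rintro (h | h)
    · exact (map_eq_zero _).1 h
    · rw [ord_const] at h; omega
  · rintro rfl
    exact Or.inl (map_zero _)

/-- the value of `φ` at the place `x` (`0` if there is no value) -/
def valAt (x : Place K F) (φ : F) : K :=
  letI := Classical.propDecidable
  if h : ∃ c : K, VanishAt x (φ - algebraMap K F c) then h.choose else 0

theorem valAt_eq_of_vanishAt {x : Place K F} {φ : F} {c : K}
    (h : VanishAt x (φ - algebraMap K F c)) : valAt x φ = c := by
  classical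
  have hex : ∃ c : K, VanishAt x (φ - algebraMap K F c) := ⟨c, h⟩
  rw [valAt, dif_pos hex]
  have h1 := hex.choose_spec
  have h2 : VanishAt x (algebraMap K F (c - hex.choose)) := by
    have := h1.sub h
    have e : φ - algebraMap K F hex.choose - (φ - algebraMap K F c) =
        algebraMap K F (c - hex.choose) := by rw [map_sub]; ring
    rwa [e] at this
  rw [vanishAt_algebraMap_iff] at h2
  exact (sub_eq_zero.1 h2).symm

/-- existence of the value at a rational place -/
theorem exists_vanishAt_sub (x : Place K F) (hx : x.deg = 1) {φ : F}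
    (hφ : φ ∈ x.toValuationSubring) : ∃ c : K, VanishAt x (φ - algebraMap K F c) := by
  obtain ⟨c, hc⟩ := exists_value_of_deg_eq_one x hx hφ
  refine ⟨c, ?_⟩
  rw [vanishAt_iff]
  rcases hc with hc | hc
  · exact Or.inl (sub_eq_zero.2 hc)
  · exact Or.inr hc

theorem vanishAt_sub_valAt (x : Place K F) (hx : x.deg = 1) {φ : F}
    (hφ : φ ∈ x.toValuationSubring) : VanishAt x (φ - algebraMap K F (valAt x φ)) := by
  obtain ⟨c, hc⟩ := exists_vanishAt_sub x hx hφ
  rw [valAt_eq_of_vanishAt hc]
  exact hc

@[simp] theorem valAt_algebraMap (x : Place K F) (c : K) : valAt x (algebraMap K F c) = c :=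
  valAt_eq_of_vanishAt (by rw [sub_self]; exact vanishAt_zero x)

@[simp] theorem valAt_zero (x : Place K F) : valAt x (0 : F) = 0 := by
  have := valAt_algebraMap x (0 : K)
  rwa [map_zero] at this

@[simp] theorem valAt_one (x : Place K F) : valAt x (1 : F) = 1 := by
  have := valAt_algebraMap x (1 : K)
  rwa [map_one] at this

theorem valAt_add (x : Place K F) (hx : x.deg = 1) {φ ψ : F} (hφ : φ ∈ x.toValuationSubring)
    (hψ : ψ ∈ x.toValuationSubring) : valAt x (φ + ψ) = valAt x φ + valAt x ψ := by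
  apply valAt_eq_of_vanishAt
  have := (vanishAt_sub_valAt x hx hφ).add (vanishAt_sub_valAt x hx hψ)
  have e : φ - algebraMap K F (valAt x φ) + (ψ - algebraMap K F (valAt x ψ)) =
      φ + ψ - algebraMap K F (valAt x φ + valAt x ψ) := by rw [map_add]; ring
  rwa [e] at this

theorem valAt_neg (x : Place K F) (hx : x.deg = 1) {φ : F} (hφ : φ ∈ x.toValuationSubring) :
    valAt x (-φ) = -valAt x φ := by
  apply valAt_eq_of_vanishAt
  have := (vanishAt_sub_valAt x hx hφ).neg
  have e : -(φ - algebraMap K F (valAt x φ)) = -φ - algebraMap K F (-valAt x φ) := by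
    rw [map_neg]; ring
  rwa [e] at this

theorem valAt_sub (x : Place K F) (hx : x.deg = 1) {φ ψ : F} (hφ : φ ∈ x.toValuationSubring)
    (hψ : ψ ∈ x.toValuationSubring) : valAt x (φ - ψ) = valAt x φ - valAt x ψ := by
  rw [sub_eq_add_neg, valAt_add x hx hφ (neg_mem hψ), valAt_neg x hx hψ, sub_eq_add_neg]

theorem valAt_mul (x : Place K F) (hx : x.deg = 1) {φ ψ : F} (hφ : φ ∈ x.toValuationSubring)
    (hψ : ψ ∈ x.toValuationSubring) : valAt x (φ * ψ) = valAt x φ * valAt x ψ := by
  apply valAt_eq_of_vanishAt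
  have h1 := (vanishAt_sub_valAt x hx hφ).mul_right hψ
  have h2 := (vanishAt_sub_valAt x hx hψ).mul_left (x.algebraMap_mem' (valAt x φ))
  have := h1.add h2
  have e : (φ - algebraMap K F (valAt x φ)) * ψ +
      algebraMap K F (valAt x φ) * (ψ - algebraMap K F (valAt x ψ)) =
      φ * ψ - algebraMap K F (valAt x φ * valAt x ψ) := by rw [map_mul]; ring
  rwa [e] at this

theorem valAt_pow (x : Place K F) (hx : x.deg = 1) {φ : F} (hφ : φ ∈ x.toValuationSubring)
    (n : ℕ) : valAt x (φ ^ n) = valAt x φ ^ n := by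
  induction n with
  | zero => simp
  | succ n ih => rw [pow_succ, pow_succ, valAt_mul x hx (pow_mem hφ n) hφ, ih]

theorem valAt_smul (x : Place K F) (hx : x.deg = 1) (c : K) {φ : F}
    (hφ : φ ∈ x.toValuationSubring) : valAt x (c • φ) = c * valAt x φ := by
  rw [Algebra.smul_def, valAt_mul x hx (x.algebraMap_mem' c) hφ, valAt_algebraMap]

theorem smul_mem_valuationSubring (x : Place K F) (c : K) {φ : F}
    (hφ : φ ∈ x.toValuationSubring) : c • φ ∈ x.toValuationSubring := by
  rw [Algebra.smul_def]
  exact mul_mem (x.algebraMap_mem' c) hφ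

theorem valAt_smul_sub_smul (x : Place K F) (hx : x.deg = 1) (a b : K) {φ ψ : F}
    (hφ : φ ∈ x.toValuationSubring) (hψ : ψ ∈ x.toValuationSubring) :
    valAt x (a • φ - b • ψ) = a * valAt x φ - b * valAt x ψ := by
  rw [valAt_sub x hx (smul_mem_valuationSubring x a hφ) (smul_mem_valuationSubring x b hψ),
    valAt_smul x hx a hφ, valAt_smul x hx b hψ]

/-- the value vanishes iff the function vanishes -/
theorem valAt_eq_zero_iff (x : Place K F) (hx : x.deg = 1) {φ : F}
    (hφ : φ ∈ x.toValuationSubring) : valAt x φ = 0 ↔ VanishAt x φ := by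
  constructor
  · intro h
    have := vanishAt_sub_valAt x hx hφ
    rwa [h, map_zero, sub_zero] at this
  · intro h
    apply valAt_eq_of_vanishAt
    rwa [map_zero, sub_zero]

/-- a function regular at `x` whose value is nonzero is a unit at `x` -/
theorem ord_eq_zero_of_valAt_ne_zero (x : Place K F) (hx : x.deg = 1) {φ : F}
    (hφ : φ ∈ x.toValuationSubring) (h : valAt x φ ≠ 0) : x.ord φ = 0 := by
  have h1 := FF.ord_nonneg_of_mem x hφ
  by_contra hne
  apply h
  rw [valAt_eq_zero_iff x hx hφ, vanishAt_iff]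
  right; omega

theorem ne_zero_of_valAt_ne_zero (x : Place K F) {φ : F} (h : valAt x φ ≠ 0) : φ ≠ 0 := by
  rintro rfl
  exact h (valAt_zero x)

/-- the value of an inverse -/
theorem valAt_inv (x : Place K F) (hx : x.deg = 1) {φ : F} (hφ : φ ∈ x.toValuationSubring)
    (h : valAt x φ ≠ 0) : φ⁻¹ ∈ x.toValuationSubring ∧ valAt x φ⁻¹ = (valAt x φ)⁻¹ := by
  have h0 := ne_zero_of_valAt_ne_zero x h
  have hord := ord_eq_zero_of_valAt_ne_zero x hx hφ h
  have hinv : φ⁻¹ ∈ x.toValuationSubring := by
    apply FF.mem_of_ord_nonneg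
    rw [x.ord_inv, hord]; simp
  refine ⟨hinv, ?_⟩
  have := valAt_mul x hx hφ hinv
  rw [mul_inv_cancel₀ h0, valAt_one] at this
  exact eq_inv_of_mul_eq_one_right this.symm

/-- membership of the valuation ring from a Riemann–Roch space whose divisor vanishes at `x` -/
theorem mem_of_mem_rr {E : Divisor K F} {x : Place K F} (hE : E x ≤ 0) {φ : F}
    (hφ : φ ∈ riemannRochSpace E) : φ ∈ x.toValuationSubring := by
  rw [mem_rr_iff] at hφ
  rcases hφ x with rfl | h
  · exact zero_mem _
  · exact FF.mem_of_ord_nonneg x (by omega)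

end Fermat.Agent.LSb.Core
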