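/-
LSb / Core / NodalRR (helper6).
Riemann–Roch spaces of a NODAL curve with two smooth components `C₁`, `C₂` (function fields
`F₁`, `F₂` over `k`) glued along `s` pairs of points `(x₁ c, x₂ c)`, with a TWIST `lam c ∈ k`:

  `nodalSpace x₁ x₂ lam E₁ E₂ = {(φ₁, φ₂) ∈ L(E₁) × L(E₂) : φ₂(x₂ c) = lam c · φ₁(x₁ c) ∀ c}`

(`E_i` divisors on `C_i` not containing the node points).  Dimension formula in the stable range,
intersections, and the linear algebra lemma producing the twist (`exists_twist`).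
-/
import Fermat.Agent.LSb.Core.ValAt

set_option autoImplicit false

noncomputable section

namespace Fermat.Agent.LSb.Core

open AlgebraicCurve Fermat.Agent.ProgramR Fermat.Agent.S18lib Fermat.Agent.S18lib.Cech Module

/-! ### evaluation at finitely many points of one curve -/

section OneCurve

variable {K F : Type*} [Field K] [Field F] [Algebra K F]

/-- the divisor `Σ_c (x c)` -/
def sumPts {s : ℕ} (x : Fin s → Place K F) : Divisor K F := ∑ c, Finsupp.single (x c) 1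

theorem sumPts_apply_self {s : ℕ} {x : Fin s → Place K F} (hx : Function.Injective x) (c : Fin s) :
    sumPts x (x c) = 1 := by
  classical
  rw [sumPts, Finsupp.finsetSum_apply, Finset.sum_eq_single c]
  · rw [Finsupp.single_apply, if_pos rfl]
  · intro c' _ hc'
    rw [Finsupp.single_apply, if_neg]
    exact fun h => hc' (hx h)
  · intro h; exact absurd (Finset.mem_univ c) h

theorem sumPts_apply_of_forall_ne {s : ℕ} {x : Fin s → Place K F} {v : Place K F}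
    (hv : ∀ c, x c ≠ v) : sumPts x v = 0 := by
  classical
  rw [sumPts, Finsupp.finsetSum_apply]
  refine Finset.sum_eq_zero fun c _ => ?_
  rw [Finsupp.single_apply, if_neg (hv c)]

theorem sumPts_nonneg {s : ℕ} (x : Fin s → Place K F) (v : Place K F) : 0 ≤ sumPts x v := by
  classical
  rw [sumPts, Finsupp.finsetSum_apply]
  refine Finset.sum_nonneg fun c _ => ?_
  rw [Finsupp.single_apply]
  split_ifs <;> norm_num

theorem degree_sumPts {s : ℕ} (x : Fin s → Place K F) (hdeg : ∀ v : Place K F, v.deg = 1) :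
    Divisor.degree (sumPts x) = s := by
  rw [sumPts, map_sum]
  simp [Divisor.degree_single, hdeg]

variable {g : ℕ}

/-- evaluation of the sections of `L(E)` at the points `x c` (which are not in the support of `E`) -/
def evPts {s : ℕ} (x : Fin s → Place K F) (hdeg : ∀ v : Place K F, v.deg = 1)
    (E : Divisor K F) (hE : ∀ c, E (x c) = 0) :
    riemannRochSpace E →ₗ[K] (Fin s → K) where
  toFun φ := fun c => valAt (x c) (φ : F)
  map_add' φ ψ := by
    funext c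
    exact valAt_add (x c) (hdeg _) (mem_of_mem_rr (le_of_eq (hE c)) φ.2)
      (mem_of_mem_rr (le_of_eq (hE c)) ψ.2)
  map_smul' a φ := by
    funext c
    exact valAt_smul (x c) (hdeg _) a (mem_of_mem_rr (le_of_eq (hE c)) φ.2)

@[simp] theorem evPts_apply {s : ℕ} (x : Fin s → Place K F) (hdeg : ∀ v : Place K F, v.deg = 1)
    (E : Divisor K F) (hE : ∀ c, E (x c) = 0) (φ : riemannRochSpace E) (c : Fin s) :
    evPts x hdeg E hE φ c = valAt (x c) (φ : F) := rfl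

/-- the kernel of the evaluation is `L(E - Σ x_c)` -/
theorem mem_ker_evPts_iff {s : ℕ} {x : Fin s → Place K F} (hx : Function.Injective x)
    (hdeg : ∀ v : Place K F, v.deg = 1) (E : Divisor K F) (hE : ∀ c, E (x c) = 0)
    (φ : riemannRochSpace E) :
    φ ∈ LinearMap.ker (evPts x hdeg E hE) ↔ (φ : F) ∈ riemannRochSpace (E - sumPts x) := by
  rw [LinearMap.mem_ker]
  constructor
  · intro h
    rw [mem_rr_iff]
    intro v
    by_cases hφ0 : (φ : F) = 0
    · exact Or.inl hφ0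
    right
    by_cases hv : ∃ c, x c = v
    · obtain ⟨c, rfl⟩ := hv
      have h1 : valAt (x c) (φ : F) = 0 := congrFun h c
      rw [valAt_eq_zero_iff (x c) (hdeg _) (mem_of_mem_rr (le_of_eq (hE c)) φ.2),
        vanishAt_iff] at h1
      rw [Finsupp.sub_apply, hE c, sumPts_apply_self hx c]
      rcases h1 with h1 | h1
      · exact absurd h1 hφ0
      · omega
    · push Not at hv
      have h2 := (mem_rr_of_ne hφ0).1 φ.2 v
      rw [Finsupp.sub_apply, sumPts_apply_of_forall_ne hv]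
      omega
  · intro h
    funext c
    rw [evPts_apply, Pi.zero_apply,
      valAt_eq_zero_iff (x c) (hdeg _) (mem_of_mem_rr (le_of_eq (hE c)) φ.2), vanishAt_iff]
    rw [mem_rr_iff] at h
    rcases h (x c) with h | h
    · exact Or.inl h
    · right
      rw [Finsupp.sub_apply, hE c, sumPts_apply_self hx c] at h
      omega

/-- in large degree the evaluation at `s` distinct points is onto -/
theorem evPts_surjective (hF : IsCurveOfGenus K F g) {s : ℕ} {x : Fin s → Place K F}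
    (hx : Function.Injective x) (E : Divisor K F) (hE : ∀ c, E (x c) = 0)
    (hdegE : 2 * (g : ℤ) - 2 + s < Divisor.degree E) :
    Function.Surjective (evPts x hF.deg_eq_one E hE) := by
  classical
  have := hF.finiteDimensional E
  have := hF.finiteDimensional (E - sumPts x)
  set ev := evPts x hF.deg_eq_one E hE with hev
  rw [← LinearMap.range_eq_top]
  apply Submodule.eq_top_of_finrank_eq
  rw [Module.finrank_fintype_fun_eq_card, Fintype.card_fin]
  -- the kernel is `L(E - Σ x_c)`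
  have hker : finrank K (LinearMap.ker ev) = finrank K (riemannRochSpace (E - sumPts x)) := by
    have hle : riemannRochSpace (E - sumPts x) ≤ riemannRochSpace E :=
      rr_mono fun v => by
        rw [Finsupp.sub_apply]
        have := sumPts_nonneg x v
        omega
    have e : LinearMap.ker ev = (riemannRochSpace (E - sumPts x)).comap
        (riemannRochSpace E).subtype := by
      ext φ
      rw [mem_ker_evPts_iff hx hF.deg_eq_one E hE φ, Submodule.mem_comap]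
      rfl
    rw [e]
    exact (Submodule.comapSubtypeEquivOfLe hle).finrank_eq
  have h1 := hF.riemann_eq E (by linarith)
  have h2 := hF.riemann_eq (E - sumPts x) (by
    rw [map_sub, degree_sumPts x hF.deg_eq_one]; linarith)
  rw [map_sub, degree_sumPts x hF.deg_eq_one] at h2
  have h3 := LinearMap.finrank_range_add_finrank_ker ev
  rw [hker] at h3
  have : (finrank K (LinearMap.range ev) : ℤ) = s := by
    have h3' : (finrank K (LinearMap.range ev) : ℤ) +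
        finrank K (riemannRochSpace (E - sumPts x)) = finrank K (riemannRochSpace E) := by
      exact_mod_cast h3
    linarith
  exact_mod_cast this

end OneCurve

/-! ### the twisted nodal space -/

section Nodal

variable {k F₁ F₂ : Type*} [Field k] [Field F₁] [Field F₂] [Algebra k F₁] [Algebra k F₂]
variable {s : ℕ} (x₁ : Fin s → Place k F₁) (x₂ : Fin s → Place k F₂)

/-- the gluing condition at the node `c` with twist `l`: `φ₁(x₁ c) = α`, `φ₂(x₂ c) = l α` -/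
def GluedAt (c : Fin s) (l : k) (φ : F₁ × F₂) : Prop :=
  ∃ α : k, VanishAt (x₁ c) (φ.1 - algebraMap k F₁ α) ∧
    VanishAt (x₂ c) (φ.2 - algebraMap k F₂ (l * α))

variable {x₁ x₂}

theorem GluedAt.zero (c : Fin s) (l : k) : GluedAt x₁ x₂ c l 0 :=
  ⟨0, by simpa using vanishAt_zero _, by simpa using vanishAt_zero _⟩

theorem GluedAt.add {c : Fin s} {l : k} {φ ψ : F₁ × F₂} (h : GluedAt x₁ x₂ c l φ)
    (h' : GluedAt x₁ x₂ c l ψ) : GluedAt x₁ x₂ c l (φ + ψ) := by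
  obtain ⟨α, h1, h2⟩ := h
  obtain ⟨α', h1', h2'⟩ := h'
  refine ⟨α + α', ?_, ?_⟩
  · have := h1.add h1'
    have e : φ.1 - algebraMap k F₁ α + (ψ.1 - algebraMap k F₁ α') =
        (φ + ψ).1 - algebraMap k F₁ (α + α') := by rw [map_add, Prod.fst_add]; ring
    rwa [e] at this
  · have := h2.add h2'
    have e : φ.2 - algebraMap k F₂ (l * α) + (ψ.2 - algebraMap k F₂ (l * α')) =
        (φ + ψ).2 - algebraMap k F₂ (l * (α + α')) := by
      rw [mul_add, map_add, Prod.snd_add]; ring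
    rwa [e] at this

theorem GluedAt.smul {c : Fin s} {l : k} {φ : F₁ × F₂} (a : k) (h : GluedAt x₁ x₂ c l φ) :
    GluedAt x₁ x₂ c l (a • φ) := by
  obtain ⟨α, h1, h2⟩ := h
  refine ⟨a * α, ?_, ?_⟩
  · have := h1.mul_left ((x₁ c).algebraMap_mem' a)
    have e : algebraMap k F₁ a * (φ.1 - algebraMap k F₁ α) =
        (a • φ).1 - algebraMap k F₁ (a * α) := by
      rw [map_mul, Prod.smul_fst, Algebra.smul_def]; ring
    rwa [e] at this
  · have := h2.mul_left ((x₂ c).algebraMap_mem' a)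
    have e : algebraMap k F₂ a * (φ.2 - algebraMap k F₂ (l * α)) =
        (a • φ).2 - algebraMap k F₂ (l * (a * α)) := by
      rw [Prod.smul_snd, Algebra.smul_def]
      simp only [map_mul]; ring
    rwa [e] at this

/-- the gluing condition in terms of values -/
theorem gluedAt_iff (hd₁ : ∀ v : Place k F₁, v.deg = 1) (hd₂ : ∀ v : Place k F₂, v.deg = 1)
    (c : Fin s) (l : k) (φ : F₁ × F₂) :
    GluedAt x₁ x₂ c l φ ↔ φ.1 ∈ (x₁ c).toValuationSubring ∧ φ.2 ∈ (x₂ c).toValuationSubring ∧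
      valAt (x₂ c) φ.2 = l * valAt (x₁ c) φ.1 := by
  constructor
  · rintro ⟨α, h1, h2⟩
    have m1 : φ.1 ∈ (x₁ c).toValuationSubring := by
      have := add_mem h1.mem ((x₁ c).algebraMap_mem' α)
      rwa [sub_add_cancel] at this
    have m2 : φ.2 ∈ (x₂ c).toValuationSubring := by
      have := add_mem h2.mem ((x₂ c).algebraMap_mem' (l * α))
      rwa [sub_add_cancel] at this
    refine ⟨m1, m2, ?_⟩
    rw [valAt_eq_of_vanishAt h1, valAt_eq_of_vanishAt h2]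
  · rintro ⟨m1, m2, h⟩
    refine ⟨valAt (x₁ c) φ.1, vanishAt_sub_valAt _ (hd₁ _) m1, ?_⟩
    rw [← h]
    exact vanishAt_sub_valAt _ (hd₂ _) m2

variable (x₁ x₂)

/-- the twisted nodal Riemann–Roch space -/
def nodalSpace (lam : Fin s → k) (E₁ : Divisor k F₁) (E₂ : Divisor k F₂) :
    Submodule k (F₁ × F₂) where
  carrier := {φ | φ.1 ∈ riemannRochSpace E₁ ∧ φ.2 ∈ riemannRochSpace E₂ ∧
    ∀ c, GluedAt x₁ x₂ c (lam c) φ}
  zero_mem' := ⟨Submodule.zero_mem _, Submodule.zero_mem _, fun c => GluedAt.zero c _⟩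
  add_mem' := by
    rintro φ ψ ⟨h1, h2, h3⟩ ⟨h1', h2', h3'⟩
    exact ⟨Submodule.add_mem _ h1 h1', Submodule.add_mem _ h2 h2', fun c => (h3 c).add (h3' c)⟩
  smul_mem' := by
    rintro a φ ⟨h1, h2, h3⟩
    exact ⟨Submodule.smul_mem _ a h1, Submodule.smul_mem _ a h2, fun c => (h3 c).smul a⟩

variable {x₁ x₂}

theorem mem_nodalSpace {lam : Fin s → k} {E₁ : Divisor k F₁} {E₂ : Divisor k F₂} {φ : F₁ × F₂} :
    φ ∈ nodalSpace x₁ x₂ lam E₁ E₂ ↔ φ.1 ∈ riemannRochSpace E₁ ∧ φ.2 ∈ riemannRochSpace E₂ ∧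
      ∀ c, GluedAt x₁ x₂ c (lam c) φ := Iff.rfl

/-- monotonicity -/
theorem nodalSpace_mono {lam : Fin s → k} {E₁ E₁' : Divisor k F₁} {E₂ E₂' : Divisor k F₂}
    (h₁ : ∀ v, E₁ v ≤ E₁' v) (h₂ : ∀ v, E₂ v ≤ E₂' v) :
    nodalSpace x₁ x₂ lam E₁ E₂ ≤ nodalSpace x₁ x₂ lam E₁' E₂' :=
  fun _ hφ => ⟨rr_mono h₁ hφ.1, rr_mono h₂ hφ.2.1, hφ.2.2⟩

/-- intersections: pointwise minimum -/
theorem mem_nodalSpace_of_mem_of_mem {lam : Fin s → k} {E₁ E₁' E₁'' : Divisor k F₁}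
    {E₂ E₂' E₂'' : Divisor k F₂} {φ : F₁ × F₂}
    (h : φ ∈ nodalSpace x₁ x₂ lam E₁ E₂) (h' : φ ∈ nodalSpace x₁ x₂ lam E₁' E₂')
    (hm₁ : ∀ v, E₁ v ≤ E₁'' v ∨ E₁' v ≤ E₁'' v) (hm₂ : ∀ v, E₂ v ≤ E₂'' v ∨ E₂' v ≤ E₂'' v) :
    φ ∈ nodalSpace x₁ x₂ lam E₁'' E₂'' :=
  ⟨mem_rr_of_mem_of_mem h.1 h'.1 hm₁, mem_rr_of_mem_of_mem h.2.1 h'.2.1 hm₂, h.2.2⟩

variable {g₁ g₂ : ℕ}

/-- **dimension of the twisted nodal space in the stable range** -/
theorem finrank_nodalSpace (hF₁ : IsCurveOfGenus k F₁ g₁) (hF₂ : IsCurveOfGenus k F₂ g₂)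
    (hx₂ : Function.Injective x₂) (lam : Fin s → k)
    (E₁ : Divisor k F₁) (E₂ : Divisor k F₂) (hE₁ : ∀ c, E₁ (x₁ c) = 0) (hE₂ : ∀ c, E₂ (x₂ c) = 0)
    (hd₁ : 2 * (g₁ : ℤ) - 2 < Divisor.degree E₁)
    (hd₂ : 2 * (g₂ : ℤ) - 2 + s < Divisor.degree E₂) :
    (finrank k (nodalSpace x₁ x₂ lam E₁ E₂) : ℤ) =
      Divisor.degree E₁ + Divisor.degree E₂ + 2 - g₁ - g₂ - s := by
  classical
  have := hF₁.finiteDimensional E₁
  have := hF₂.finiteDimensional E₂
  set ev₁ := evPts x₁ hF₁.deg_eq_one E₁ hE₁ with hev₁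
  set ev₂ := evPts x₂ hF₂.deg_eq_one E₂ hE₂ with hev₂
  -- the defining map on the product
  set Ψ : (riemannRochSpace E₁ × riemannRochSpace E₂) →ₗ[k] (Fin s → k) :=
    ev₂.comp (LinearMap.snd k _ _) -
      (LinearMap.pi fun c => lam c • LinearMap.proj c).comp (ev₁.comp (LinearMap.fst k _ _))
    with hΨ
  have hΨapp : ∀ (t : riemannRochSpace E₁ × riemannRochSpace E₂) (c : Fin s),
      Ψ t c = valAt (x₂ c) (t.2 : F₂) - lam c * valAt (x₁ c) (t.1 : F₁) := by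
    intro t c
    simp [hΨ, hev₁, hev₂]
  have hΨsurj : Function.Surjective Ψ := by
    intro w
    obtain ⟨ψ, hψ⟩ := evPts_surjective hF₂ hx₂ E₂ hE₂ hd₂ w
    refine ⟨(0, ψ), ?_⟩
    funext c
    rw [hΨapp]
    have : valAt (x₂ c) (ψ : F₂) = w c := congrFun hψ c
    simp [this]
  -- the inclusion of the product into `F₁ × F₂`
  set ι : (riemannRochSpace E₁ × riemannRochSpace E₂) →ₗ[k] (F₁ × F₂) :=
    LinearMap.prodMap (riemannRochSpace E₁).subtype (riemannRochSpace E₂).subtype with hι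
  have hιinj : Function.Injective ι := by
    intro a b hab
    have h1 := congrArg Prod.fst hab
    have h2 := congrArg Prod.snd hab
    simp only [hι, LinearMap.prodMap_apply, Submodule.subtype_apply] at h1 h2
    exact Prod.ext (Subtype.ext h1) (Subtype.ext h2)
  have hmap : (LinearMap.ker Ψ).map ι = nodalSpace x₁ x₂ lam E₁ E₂ := by
    ext φ
    rw [Submodule.mem_map, mem_nodalSpace]
    constructor
    · rintro ⟨t, ht, rfl⟩
      rw [LinearMap.mem_ker] at ht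
      refine ⟨t.1.2, t.2.2, fun c => ?_⟩
      rw [gluedAt_iff hF₁.deg_eq_one hF₂.deg_eq_one]
      refine ⟨mem_of_mem_rr (le_of_eq (hE₁ c)) t.1.2, mem_of_mem_rr (le_of_eq (hE₂ c)) t.2.2, ?_⟩
      have := congrFun ht c
      rw [hΨapp, Pi.zero_apply, sub_eq_zero] at this
      exact this
    · rintro ⟨h1, h2, h3⟩
      refine ⟨(⟨φ.1, h1⟩, ⟨φ.2, h2⟩), ?_, rfl⟩
      rw [LinearMap.mem_ker]
      funext c
      rw [hΨapp, Pi.zero_apply, sub_eq_zero]
      exact ((gluedAt_iff hF₁.deg_eq_one hF₂.deg_eq_one c _ φ).1 (h3 c)).2.2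
  have hrank : finrank k (nodalSpace x₁ x₂ lam E₁ E₂) = finrank k (LinearMap.ker Ψ) := by
    rw [← hmap]
    exact (Submodule.equivMapOfInjective ι hιinj _).finrank_eq.symm
  have h3 := LinearMap.finrank_range_add_finrank_ker Ψ
  rw [LinearMap.range_eq_top.2 hΨsurj, finrank_top, Module.finrank_fintype_fun_eq_card,
    Fintype.card_fin, Module.finrank_prod] at h3
  have r1 := hF₁.riemann_eq E₁ hd₁
  have r2 := hF₂.riemann_eq E₂ (by linarith)
  rw [hrank]
  have h3' : (s : ℤ) + finrank k (LinearMap.ker Ψ) =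
      finrank k (riemannRochSpace E₁) + finrank k (riemannRochSpace E₂) := by exact_mod_cast h3
  linarith

/-- in the stable range there are sections with prescribed values at the nodes -/
theorem exists_mem_nodalSpace_valAt (hF₁ : IsCurveOfGenus k F₁ g₁) (hF₂ : IsCurveOfGenus k F₂ g₂)
    (hx₁ : Function.Injective x₁) (hx₂ : Function.Injective x₂) (lam : Fin s → k)
    (E₁ : Divisor k F₁) (E₂ : Divisor k F₂) (hE₁ : ∀ c, E₁ (x₁ c) = 0) (hE₂ : ∀ c, E₂ (x₂ c) = 0)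
    (hd₁ : 2 * (g₁ : ℤ) - 2 + s < Divisor.degree E₁)
    (hd₂ : 2 * (g₂ : ℤ) - 2 + s < Divisor.degree E₂) (w : Fin s → k) :
    ∃ φ ∈ nodalSpace x₁ x₂ lam E₁ E₂, ∀ c, valAt (x₁ c) φ.1 = w c ∧
      valAt (x₂ c) φ.2 = lam c * w c := by
  obtain ⟨φ₁, h1⟩ := evPts_surjective hF₁ hx₁ E₁ hE₁ hd₁ w
  obtain ⟨φ₂, h2⟩ := evPts_surjective hF₂ hx₂ E₂ hE₂ hd₂ (fun c => lam c * w c)
  have e1 : ∀ c, valAt (x₁ c) (φ₁ : F₁) = w c := fun c => congrFun h1 c
  have e2 : ∀ c, valAt (x₂ c) (φ₂ : F₂) = lam c * w c := fun c => congrFun h2 c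
  refine ⟨((φ₁ : F₁), (φ₂ : F₂)), ⟨φ₁.2, φ₂.2, fun c => ?_⟩, fun c => ⟨e1 c, e2 c⟩⟩
  rw [gluedAt_iff hF₁.deg_eq_one hF₂.deg_eq_one]
  exact ⟨mem_of_mem_rr (le_of_eq (hE₁ c)) φ₁.2, mem_of_mem_rr (le_of_eq (hE₂ c)) φ₂.2, by
    rw [e1, e2]⟩

/-- the nodal space is finite dimensional -/
theorem finiteDimensional_nodalSpace (hF₁ : IsCurveOfGenus k F₁ g₁) (hF₂ : IsCurveOfGenus k F₂ g₂)
    (lam : Fin s → k) (E₁ : Divisor k F₁) (E₂ : Divisor k F₂) :
    FiniteDimensional k (nodalSpace x₁ x₂ lam E₁ E₂) := by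
  have := hF₁.finiteDimensional E₁
  have := hF₂.finiteDimensional E₂
  let f : nodalSpace x₁ x₂ lam E₁ E₂ →ₗ[k] (riemannRochSpace E₁ × riemannRochSpace E₂) :=
    { toFun := fun φ => (⟨φ.1.1, φ.2.1⟩, ⟨φ.1.2, φ.2.2.1⟩)
      map_add' := fun φ ψ => rfl
      map_smul' := fun a φ => rfl }
  refine Module.Finite.of_injective f ?_
  intro φ ψ h
  have h1 := congrArg (fun t : riemannRochSpace E₁ × riemannRochSpace E₂ => (t.1 : F₁)) h
  have h2 := congrArg (fun t : riemannRochSpace E₁ × riemannRochSpace E₂ => (t.2 : F₂)) h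
  exact Subtype.ext (Prod.ext h1 h2)

/-- **the twist lemma.**  A subspace `W` of `L(E₁) × L(E₂)` of dimension at least that of a nodal
space, all of whose members satisfy `β₁ φ₁(x₁ c)ⁿ = β₂ φ₂(x₂ c)ⁿ`, IS a twisted nodal space. -/
theorem exists_twist (hF₁ : IsCurveOfGenus k F₁ g₁) (hF₂ : IsCurveOfGenus k F₂ g₂)
    (hx₂ : Function.Injective x₂)
    (E₁ : Divisor k F₁) (E₂ : Divisor k F₂) (hE₁ : ∀ c, E₁ (x₁ c) = 0) (hE₂ : ∀ c, E₂ (x₂ c) = 0)
    (hd₁ : 2 * (g₁ : ℤ) - 2 < Divisor.degree E₁)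
    (hd₂ : 2 * (g₂ : ℤ) - 2 + s < Divisor.degree E₂)
    (W : Submodule k (F₁ × F₂)) (hW₁ : ∀ φ ∈ W, φ.1 ∈ riemannRochSpace E₁)
    (hW₂ : ∀ φ ∈ W, φ.2 ∈ riemannRochSpace E₂) (n : ℕ) (hn : n ≠ 0) (β₁ β₂ : k) (hβ₁ : β₁ ≠ 0)
    (hβ₂ : β₂ ≠ 0)
    (hW : ∀ φ ∈ W, ∀ c, β₁ * valAt (x₁ c) φ.1 ^ n = β₂ * valAt (x₂ c) φ.2 ^ n)
    [FiniteDimensional k W]
    (hdim : Divisor.degree E₁ + Divisor.degree E₂ + 2 - g₁ - g₂ - s ≤ (finrank k W : ℤ)) :
    ∃ lam : Fin s → k, (∀ c, lam c ≠ 0) ∧ W = nodalSpace x₁ x₂ lam E₁ E₂ := by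
  classical
  have reg₁ : ∀ φ ∈ W, ∀ c, φ.1 ∈ (x₁ c).toValuationSubring := fun φ hφ c =>
    mem_of_mem_rr (le_of_eq (hE₁ c)) (hW₁ φ hφ)
  have reg₂ : ∀ φ ∈ W, ∀ c, φ.2 ∈ (x₂ c).toValuationSubring := fun φ hφ c =>
    mem_of_mem_rr (le_of_eq (hE₂ c)) (hW₂ φ hφ)
  -- if `φ₁(x₁ c) = 0` then `φ₂(x₂ c) = 0`
  have hzero : ∀ φ ∈ W, ∀ c, valAt (x₁ c) φ.1 = 0 → valAt (x₂ c) φ.2 = 0 := by
    intro φ hφ c h
    have := hW φ hφ c
    rw [h, zero_pow hn, mul_zero] at this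
    have h2 := (mul_eq_zero.1 this.symm).resolve_left hβ₂
    exact pow_eq_zero_iff hn |>.1 h2
  -- the twist at `c`
  have key : ∀ c, ∃ l : k, l ≠ 0 ∧ ∀ φ ∈ W, valAt (x₂ c) φ.2 = l * valAt (x₁ c) φ.1 := by
    intro c
    by_cases hex : ∃ φ₀ ∈ W, valAt (x₁ c) φ₀.1 ≠ 0
    · obtain ⟨φ₀, hφ₀, h0⟩ := hex
      have h0' : valAt (x₂ c) φ₀.2 ≠ 0 := by
        intro h
        have := hW φ₀ hφ₀ c
        rw [h, zero_pow hn, mul_zero] at this
        exact h0 (pow_eq_zero_iff hn |>.1 ((mul_eq_zero.1 this).resolve_left hβ₁))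
      refine ⟨valAt (x₂ c) φ₀.2 / valAt (x₁ c) φ₀.1, div_ne_zero h0' h0, fun φ hφ => ?_⟩
      set t := valAt (x₁ c) φ₀.1 • φ - valAt (x₁ c) φ.1 • φ₀ with ht
      have htW : t ∈ W := W.sub_mem (W.smul_mem _ hφ) (W.smul_mem _ hφ₀)
      have ht1 : valAt (x₁ c) t.1 = 0 := by
        rw [ht, Prod.fst_sub, Prod.smul_fst, Prod.smul_fst,
          valAt_smul_sub_smul _ (hF₁.deg_eq_one _) _ _ (reg₁ φ hφ c) (reg₁ φ₀ hφ₀ c)]
        ring
      have ht2 := hzero t htW c ht1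
      rw [ht, Prod.snd_sub, Prod.smul_snd, Prod.smul_snd,
        valAt_smul_sub_smul _ (hF₂.deg_eq_one _) _ _ (reg₂ φ hφ c) (reg₂ φ₀ hφ₀ c)] at ht2
      field_simp
      linear_combination ht2
    · push Not at hex
      exact ⟨1, one_ne_zero, fun φ hφ => by rw [hex φ hφ, hzero φ hφ c (hex φ hφ), mul_zero]⟩
  choose lam hlam0 hlam using key
  refine ⟨lam, hlam0, ?_⟩
  have hle : W ≤ nodalSpace x₁ x₂ lam E₁ E₂ := by
    intro φ hφ
    refine ⟨hW₁ φ hφ, hW₂ φ hφ, fun c => ?_⟩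
    rw [gluedAt_iff hF₁.deg_eq_one hF₂.deg_eq_one]
    exact ⟨reg₁ φ hφ c, reg₂ φ hφ c, hlam c φ hφ⟩
  have := finiteDimensional_nodalSpace (x₁ := x₁) (x₂ := x₂) hF₁ hF₂ lam E₁ E₂
  refine Submodule.eq_of_le_of_finrank_le hle ?_
  have h1 := finrank_nodalSpace (x₁ := x₁) hF₁ hF₂ hx₂ lam E₁ E₂ hE₁ hE₂ hd₁ hd₂
  have : (finrank k (nodalSpace x₁ x₂ lam E₁ E₂) : ℤ) ≤ finrank k W := by rw [h1]; exact hdim
  exact_mod_cast this

end Nodal

end Fermat.Agent.LSb.Core
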