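/-
LSb / Core / Structure  (helper1)

(β1) THE STRUCTURE LEMMA.  For a Kummer unit `u` (a sup-norm unit reducing to nonzero constants on
both components, with `n ∣ div u`) the reductions of the twisted chart lattices
`KLat n u a b = L(div(u)/n + a P₁ + b P₂) ∩ O` are TWISTED NODAL SPACES:
there is ONE twist `lam : Fin s → kˣ` with

* `red (KLat n u a b) ⊆ nodalSpace lam (a Q₁₁ + b Q₂₁) (a Q₁₂ + b Q₂₂)` for all `a b : ℕ`,
* equality in the stable range.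

Inputs: (N1), (CHART), (GLUE), (COUNT), Riemann on `F, F₁, F₂`; the linear algebra is helper6's
`Core.exists_twist`.
-/
import Fermat.Agent.LSb.Core.Chart
import Fermat.Agent.LSb.Core.RedSub
import Fermat.Agent.LSb.Core.NodalRR

set_option autoImplicit false

noncomputable section

namespace Fermat.Agent.LSb

open AlgebraicCurve Module

variable {L : Type*} [Field L] {A : ValuationSubring L}
variable {F : Type*} [Field F] [Algebra L F]
variable {F₁ F₂ : Type*} [Field F₁] [Field F₂]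
variable [Algebra (IsLocalRing.ResidueField A) F₁] [Algebra (IsLocalRing.ResidueField A) F₂]

local notation "k" => IsLocalRing.ResidueField A

/-! ### Kummer units -/

namespace IsKummerUnit

variable {D : NodalDatum A F F₁ F₂} {n : ℕ} {u : F}

theorem mem₁ (hu : IsKummerUnit D n u) : u ∈ D.V₁.O := by
  obtain ⟨b, hb, h⟩ := hu.red₁
  exact D.V₁.mem_of_redF_ne_zero (by rw [h]; exact (map_ne_zero _).2 hb)

theorem mem₂ (hu : IsKummerUnit D n u) : u ∈ D.V₂.O := by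
  obtain ⟨b, hb, h⟩ := hu.red₂
  exact D.V₂.mem_of_redF_ne_zero (by rw [h]; exact (map_ne_zero _).2 hb)

theorem mem_O (hu : IsKummerUnit D n u) : u ∈ D.O := NodalDatum.mem_O.2 ⟨hu.mem₁, hu.mem₂⟩

theorem inv (hu : IsKummerUnit D n u) : IsKummerUnit D n u⁻¹ where
  ne_zero := inv_ne_zero hu.ne_zero
  dvd_ord P := by rw [P.ord_inv]; exact (dvd_neg).2 (hu.dvd_ord P)
  red₁ := by
    obtain ⟨b, hb, h⟩ := hu.red₁
    refine ⟨b⁻¹, inv_ne_zero hb, ?_⟩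
    rw [D.V₁.redF_inv (by rw [h]; exact (map_ne_zero _).2 hb), h, map_inv₀]
  red₂ := by
    obtain ⟨b, hb, h⟩ := hu.red₂
    refine ⟨b⁻¹, inv_ne_zero hb, ?_⟩
    rw [D.V₂.redF_inv (by rw [h]; exact (map_ne_zero _).2 hb), h, map_inv₀]

theorem one (D : NodalDatum A F F₁ F₂) (n : ℕ) : IsKummerUnit D n 1 where
  ne_zero := one_ne_zero
  dvd_ord P := by simp
  red₁ := ⟨1, one_ne_zero, by simp⟩
  red₂ := ⟨1, one_ne_zero, by simp⟩

end IsKummerUnit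

/-! ### monotonicity -/

namespace NodalCtx

variable {D : NodalDatum A F F₁ F₂} {g g₁ g₂ : ℕ} (C : NodalCtx D g g₁ g₂)

include C

theorem chartDiv_mono {a b a' b' : ℤ} (ha : a ≤ a') (hb : b ≤ b') (P : Place L F) :
    D.chartDiv a b P ≤ D.chartDiv a' b' P := by
  rw [D.chartDiv_apply, D.chartDiv_apply]
  have h1 : 0 ≤ D.P₁ P := C.P₁_nonneg P
  have h2 : 0 ≤ D.P₂ P := C.P₂_nonneg P
  nlinarith [mul_le_mul_of_nonneg_right ha h1, mul_le_mul_of_nonneg_right hb h2]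

theorem chartDiv₁_mono {a b a' b' : ℤ} (ha : a ≤ a') (hb : b ≤ b') (Q : Place k F₁) :
    D.chartDiv₁ a b Q ≤ D.chartDiv₁ a' b' Q := by
  rw [D.chartDiv₁_apply, D.chartDiv₁_apply]
  have h1 : 0 ≤ D.Q₁₁ Q := C.Q₁₁_nonneg Q
  have h2 : 0 ≤ D.Q₂₁ Q := C.Q₂₁_nonneg Q
  nlinarith [mul_le_mul_of_nonneg_right ha h1, mul_le_mul_of_nonneg_right hb h2]

theorem chartDiv₂_mono {a b a' b' : ℤ} (ha : a ≤ a') (hb : b ≤ b') (Q : Place k F₂) :
    D.chartDiv₂ a b Q ≤ D.chartDiv₂ a' b' Q := by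
  rw [D.chartDiv₂_apply, D.chartDiv₂_apply]
  have h1 : 0 ≤ D.Q₁₂ Q := C.Q₁₂_nonneg Q
  have h2 : 0 ≤ D.Q₂₂ Q := C.Q₂₂_nonneg Q
  nlinarith [mul_le_mul_of_nonneg_right ha h1, mul_le_mul_of_nonneg_right hb h2]

theorem KLat_mono (n : ℕ) (u : F) {a b a' b' : ℤ} (ha : a ≤ a') (hb : b ≤ b') :
    D.KLat n u a b ⊆ D.KLat n u a' b' := by
  rintro h ⟨hO, hmem⟩
  refine ⟨hO, S18lib.Cech.rr_mono (fun P => ?_) hmem⟩
  rw [Finsupp.smul_apply, Finsupp.smul_apply, smul_eq_mul, smul_eq_mul]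
  exact mul_le_mul_of_nonneg_left (C.chartDiv_mono ha hb P) (Int.natCast_nonneg n)

theorem stable_mono {a b a' b' : ℤ} (ha : a ≤ a') (hb : b ≤ b') (h : D.Stable g₁ g₂ a b) :
    D.Stable g₁ g₂ a' b' := by
  obtain ⟨h1, h2⟩ := h
  rw [D.degree_chartDiv₁] at h1
  rw [D.degree_chartDiv₂] at h2
  refine ⟨?_, ?_⟩
  · rw [D.degree_chartDiv₁]
    nlinarith [mul_le_mul_of_nonneg_right ha C.deg_Q₁₁_pos.le,
      mul_le_mul_of_nonneg_right hb C.deg_Q₂₁_pos.le]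
  · rw [D.degree_chartDiv₂]
    nlinarith [mul_le_mul_of_nonneg_right ha C.deg_Q₁₂_pos.le,
      mul_le_mul_of_nonneg_right hb C.deg_Q₂₂_pos.le]

/-- large multiples of the first chart are stable -/
theorem stable_of_le_fst {a b : ℤ} (ha : 2 * (g₁ : ℤ) + 2 * g₂ + D.s ≤ a) (hb : 0 ≤ b) :
    D.Stable g₁ g₂ a b := by
  refine ⟨?_, ?_⟩
  · rw [D.degree_chartDiv₁]
    have h1 : a ≤ a * Divisor.degree D.Q₁₁ := by
      have := C.deg_Q₁₁_pos
      nlinarith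
    have h2 : 0 ≤ b * Divisor.degree D.Q₂₁ := mul_nonneg hb C.deg_Q₂₁_pos.le
    linarith
  · rw [D.degree_chartDiv₂]
    have h1 : a ≤ a * Divisor.degree D.Q₁₂ := by
      have := C.deg_Q₁₂_pos
      nlinarith
    have h2 : 0 ≤ b * Divisor.degree D.Q₂₂ := mul_nonneg hb C.deg_Q₂₂_pos.le
    linarith

/-- large multiples of the second chart are stable -/
theorem stable_of_le_snd {a b : ℤ} (ha : 0 ≤ a) (hb : 2 * (g₁ : ℤ) + 2 * g₂ + D.s ≤ b) :
    D.Stable g₁ g₂ a b := by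
  refine ⟨?_, ?_⟩
  · rw [D.degree_chartDiv₁]
    have h1 : b ≤ b * Divisor.degree D.Q₂₁ := by
      have := C.deg_Q₂₁_pos
      nlinarith
    have h2 : 0 ≤ a * Divisor.degree D.Q₁₁ := mul_nonneg ha C.deg_Q₁₁_pos.le
    linarith
  · rw [D.degree_chartDiv₂]
    have h1 : b ≤ b * Divisor.degree D.Q₂₂ := by
      have := C.deg_Q₂₂_pos
      nlinarith
    have h2 : 0 ≤ a * Divisor.degree D.Q₁₂ := mul_nonneg ha C.deg_Q₁₂_pos.le
    linarith

/-! ### reductions of the twisted chart lattices -/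

variable {n : ℕ} {u : F}

omit C in
/-- `y = hⁿ u` lies in the ball and in the chart space `L(n a P₁ + n b P₂)` -/
theorem pow_mul_mem (hu : IsKummerUnit D n u) {a b : ℕ} {h : F}
    (hh : h ∈ D.KLat n u a b) :
    h ^ n * u ∈ riemannRochSpace (D.chartDiv ((n * a : ℕ) : ℤ) ((n * b : ℕ) : ℤ)) ∧
      h ^ n * u ∈ D.V₁.O ∧ h ^ n * u ∈ D.V₂.O := by
  obtain ⟨hO, hmem⟩ := hh
  rw [NodalDatum.mem_O] at hO
  refine ⟨?_, D.V₁.O.mul_mem _ _ (D.V₁.O.pow_mem hO.1 n) hu.mem₁,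
    D.V₂.O.mul_mem _ _ (D.V₂.O.pow_mem hO.2 n) hu.mem₂⟩
  rw [D.zsmul_chartDiv] at hmem
  push_cast
  exact hmem

omit C in
theorem redF₁_pow_mul (hu : IsKummerUnit D n u) {b₁ : k}
    (hb₁ : D.V₁.redF u = algebraMap k F₁ b₁) {h : F} (hh : h ∈ D.O) :
    D.V₁.redF (h ^ n * u) = D.V₁.redF h ^ n * algebraMap k F₁ b₁ := by
  rw [NodalDatum.mem_O] at hh
  rw [D.V₁.redF_mul (D.V₁.O.pow_mem hh.1 n) hu.mem₁, D.V₁.redF_pow hh.1, hb₁]

omit C in
theorem redF₂_pow_mul (hu : IsKummerUnit D n u) {b₂ : k}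
    (hb₂ : D.V₂.redF u = algebraMap k F₂ b₂) {h : F} (hh : h ∈ D.O) :
    D.V₂.redF (h ^ n * u) = D.V₂.redF h ^ n * algebraMap k F₂ b₂ := by
  rw [NodalDatum.mem_O] at hh
  rw [D.V₂.redF_mul (D.V₂.O.pow_mem hh.2 n) hu.mem₂, D.V₂.redF_pow hh.2, hb₂]

/-- (CHART for Kummer lattices), first component -/
theorem redF₁_mem (hn : 0 < n) (hu : IsKummerUnit D n u) {a b : ℕ} {h : F}
    (hh : h ∈ D.KLat n u a b) : D.V₁.redF h ∈ riemannRochSpace (D.chartDiv₁ a b) := by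
  obtain ⟨b₁, hb₁0, hb₁⟩ := hu.red₁
  obtain ⟨hy, hy₁, hy₂⟩ := pow_mul_mem hu hh
  have h1 := C.chart₁ (n * a) (n * b) _ hy hy₁ hy₂
  rw [redF₁_pow_mul hu hb₁ hh.1] at h1
  have e : D.chartDiv₁ ((n * a : ℕ) : ℤ) ((n * b : ℕ) : ℤ) = (n : ℤ) • D.chartDiv₁ a b := by
    rw [D.zsmul_chartDiv₁]; push_cast; rfl
  rw [e, pow_mul_mem_rr_iff hn ((map_ne_zero _).2 hb₁0) (E := 0)
    (fun P => by rw [S18lib.Cech.ord_const]; simp), zero_add] at h1
  exact h1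

/-- (CHART for Kummer lattices), second component -/
theorem redF₂_mem (hn : 0 < n) (hu : IsKummerUnit D n u) {a b : ℕ} {h : F}
    (hh : h ∈ D.KLat n u a b) : D.V₂.redF h ∈ riemannRochSpace (D.chartDiv₂ a b) := by
  obtain ⟨b₂, hb₂0, hb₂⟩ := hu.red₂
  obtain ⟨hy, hy₁, hy₂⟩ := pow_mul_mem hu hh
  have h1 := C.chart₂ (n * a) (n * b) _ hy hy₁ hy₂
  rw [redF₂_pow_mul hu hb₂ hh.1] at h1
  have e : D.chartDiv₂ ((n * a : ℕ) : ℤ) ((n * b : ℕ) : ℤ) = (n : ℤ) • D.chartDiv₂ a b := by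
    rw [D.zsmul_chartDiv₂]; push_cast; rfl
  rw [e, pow_mul_mem_rr_iff hn ((map_ne_zero _).2 hb₂0) (E := 0)
    (fun P => by rw [S18lib.Cech.ord_const]; simp), zero_add] at h1
  exact h1

theorem redF₁_regular (hn : 0 < n) (hu : IsKummerUnit D n u) {a b : ℕ} {h : F}
    (hh : h ∈ D.KLat n u a b) (c : Fin D.s) : D.V₁.redF h ∈ (D.x₁ c).toValuationSubring :=
  Core.mem_of_mem_rr (C.chartDiv₁_x₁ a b c).le (C.redF₁_mem hn hu hh)

theorem redF₂_regular (hn : 0 < n) (hu : IsKummerUnit D n u) {a b : ℕ} {h : F}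
    (hh : h ∈ D.KLat n u a b) (c : Fin D.s) : D.V₂.redF h ∈ (D.x₂ c).toValuationSubring :=
  Core.mem_of_mem_rr (C.chartDiv₂_x₂ a b c).le (C.redF₂_mem hn hu hh)

/-- (GLUE for Kummer lattices): `b₁ h₁(x₁ c)ⁿ = b₂ h₂(x₂ c)ⁿ` -/
theorem glue_valAt (hn : 0 < n) (hu : IsKummerUnit D n u) {b₁ b₂ : k}
    (hb₁ : D.V₁.redF u = algebraMap k F₁ b₁) (hb₂ : D.V₂.redF u = algebraMap k F₂ b₂)
    {a b : ℕ} {h : F} (hh : h ∈ D.KLat n u a b) (c : Fin D.s) :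
    b₁ * Core.valAt (D.x₁ c) (D.V₁.redF h) ^ n = b₂ * Core.valAt (D.x₂ c) (D.V₂.redF h) ^ n := by
  obtain ⟨hy, hy₁, hy₂⟩ := pow_mul_mem hu hh
  obtain ⟨α, h1, h2⟩ := C.glue (n * a) (n * b) _ hy hy₁ hy₂ c
  have e1 : Core.valAt (D.x₁ c) (D.V₁.redF (h ^ n * u)) = α :=
    Core.valAt_eq_of_vanishAt (show Core.VanishAt _ _ from h1)
  have e2 : Core.valAt (D.x₂ c) (D.V₂.redF (h ^ n * u)) = α :=
    Core.valAt_eq_of_vanishAt (show Core.VanishAt _ _ from h2)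
  have r1 := C.redF₁_regular hn hu hh c
  have r2 := C.redF₂_regular hn hu hh c
  rw [redF₁_pow_mul hu hb₁ hh.1, Core.valAt_mul _ (C.hF₁.deg_eq_one _) (pow_mem r1 n)
    ((D.x₁ c).algebraMap_mem' b₁), Core.valAt_pow _ (C.hF₁.deg_eq_one _) r1,
    Core.valAt_algebraMap] at e1
  rw [redF₂_pow_mul hu hb₂ hh.1, Core.valAt_mul _ (C.hF₂.deg_eq_one _) (pow_mem r2 n)
    ((D.x₂ c).algebraMap_mem' b₂), Core.valAt_pow _ (C.hF₂.deg_eq_one _) r2,
    Core.valAt_algebraMap] at e2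
  rw [mul_comm b₁, mul_comm b₂, e1, e2]

/-! ### the twist in the stable range -/

/-- the structure lemma at ONE stable pair `(a, b)` -/
theorem exists_twist_stable (hn : 0 < n) (hu : IsKummerUnit D n u) {E : Divisor L F}
    (hE : ∀ P, (n : ℤ) * E P = P.ord u) (hdeg : Divisor.degree E = 0) {a b : ℕ}
    (hst : D.Stable g₁ g₂ a b) :
    ∃ lam : Fin D.s → k, (∀ c, lam c ≠ 0) ∧
      D.redSub (riemannRochSpace (E + D.chartDiv a b)) =
        Core.nodalSpace D.x₁ D.x₂ lam (D.chartDiv₁ a b) (D.chartDiv₂ a b) := by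
  obtain ⟨b₁, hb₁0, hb₁⟩ := hu.red₁
  obtain ⟨b₂, hb₂0, hb₂⟩ := hu.red₂
  have := C.hF.finiteDimensional (E + D.chartDiv a b)
  have := NodalDatum.finiteDimensional_redSub C.hD (riemannRochSpace (E + D.chartDiv a b))
  have hK : ∀ φ ∈ D.redSub (riemannRochSpace (E + D.chartDiv a b)),
      ∃ h ∈ D.KLat n u a b, D.redF h = φ := by
    rintro φ ⟨h, hW, hO, rfl⟩
    exact ⟨h, (NodalDatum.mem_KLat_iff hn hu.ne_zero hE a b h).2 ⟨hW, hO⟩, rfl⟩
  refine Core.exists_twist C.hF₁ C.hF₂ C.x₂_injective (D.chartDiv₁ a b) (D.chartDiv₂ a b)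
    (C.chartDiv₁_x₁ a b) (C.chartDiv₂_x₂ a b) ?_ hst.2 _ ?_ ?_ n hn.ne' b₁ b₂ hb₁0 hb₂0 ?_ ?_
  · have := hst.1
    have hs : (0 : ℤ) ≤ D.s := Int.natCast_nonneg _
    linarith
  · intro φ hφ
    obtain ⟨h, hh, rfl⟩ := hK φ hφ
    exact C.redF₁_mem hn hu hh
  · intro φ hφ
    obtain ⟨h, hh, rfl⟩ := hK φ hφ
    exact C.redF₂_mem hn hu hh
  · intro φ hφ c
    obtain ⟨h, hh, rfl⟩ := hK φ hφ
    exact C.glue_valAt hn hu hb₁ hb₂ hh c
  · rw [NodalDatum.finrank_redSub C.hD]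
    have h1 := C.hF.riemann_le (E + D.chartDiv a b)
    rw [map_add, hdeg, zero_add, D.degree_chartDiv] at h1
    rw [D.degree_chartDiv₁, D.degree_chartDiv₂]
    have ha : (0 : ℤ) ≤ a := Int.natCast_nonneg a
    have hb : (0 : ℤ) ≤ b := Int.natCast_nonneg b
    have h2 := mul_le_mul_of_nonneg_left C.deg_Q₁_le ha
    have h3 := mul_le_mul_of_nonneg_left C.deg_Q₂_le hb
    have h4 : ((g : ℤ) + 1) ≤ g₁ + g₂ + D.s := by exact_mod_cast C.count
    linarith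

/-- two stable pairs `(a,b) ≤ (a',b')` have the same twist -/
theorem twist_unique {E : Divisor L F}
    {a b a' b' : ℕ} (ha : a ≤ a') (hb : b ≤ b')
    (hst : D.Stable g₁ g₂ a b) {lam lam' : Fin D.s → k}
    (h : D.redSub (riemannRochSpace (E + D.chartDiv a b)) =
        Core.nodalSpace D.x₁ D.x₂ lam (D.chartDiv₁ a b) (D.chartDiv₂ a b))
    (h' : D.redSub (riemannRochSpace (E + D.chartDiv a' b')) =
        Core.nodalSpace D.x₁ D.x₂ lam' (D.chartDiv₁ a' b') (D.chartDiv₂ a' b')) :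
    lam = lam' := by
  funext c
  obtain ⟨φ, hφ, hval⟩ := Core.exists_mem_nodalSpace_valAt C.hF₁ C.hF₂ C.x₁_injective
    C.x₂_injective lam (D.chartDiv₁ a b) (D.chartDiv₂ a b) (C.chartDiv₁_x₁ a b)
    (C.chartDiv₂_x₂ a b) hst.1 hst.2 (fun _ => 1)
  have ha' : (a : ℤ) ≤ a' := by exact_mod_cast ha
  have hb' : (b : ℤ) ≤ b' := by exact_mod_cast hb
  have hle : D.redSub (riemannRochSpace (E + D.chartDiv a b)) ≤
      D.redSub (riemannRochSpace (E + D.chartDiv a' b')) := by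
    refine NodalDatum.redSub_mono (S18lib.Cech.rr_mono fun P => ?_)
    rw [Finsupp.add_apply, Finsupp.add_apply]
    exact add_le_add_right (C.chartDiv_mono ha' hb' P) _
  have hφ' : φ ∈ Core.nodalSpace D.x₁ D.x₂ lam' (D.chartDiv₁ a' b') (D.chartDiv₂ a' b') := by
    rw [← h']; apply hle; rw [h]; exact hφ
  have h3 := ((Core.gluedAt_iff C.hF₁.deg_eq_one C.hF₂.deg_eq_one c _ φ).1 (hφ'.2.2 c)).2.2
  rw [(hval c).1, (hval c).2] at h3
  simpa using h3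

/-- **(β1) The structure lemma.** -/
theorem exists_twist_all (hn : 0 < n) (hu : IsKummerUnit D n u) :
    ∃ lam : Fin D.s → k, (∀ c, lam c ≠ 0) ∧
      (∀ a b : ℕ, ∀ h ∈ D.KLat n u a b,
        D.redF h ∈ Core.nodalSpace D.x₁ D.x₂ lam (D.chartDiv₁ a b) (D.chartDiv₂ a b)) ∧
      (∀ a b : ℕ, D.Stable g₁ g₂ a b →
        ∀ φ ∈ Core.nodalSpace D.x₁ D.x₂ lam (D.chartDiv₁ a b) (D.chartDiv₂ a b),
          ∃ h ∈ D.KLat n u a b, D.redF h = φ) := by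
  have := C.hF.hasPrincipalDivisors
  obtain ⟨E, hE, hdeg⟩ := exists_kummerDiv (K := L) hn hu.ne_zero hu.dvd_ord
  set N : ℕ := 2 * g₁ + 2 * g₂ + D.s with hN
  have hNst : ∀ a b : ℕ, N ≤ a → D.Stable g₁ g₂ a b := fun a b ha =>
    C.stable_of_le_fst (by rw [hN] at ha; exact_mod_cast ha) (Int.natCast_nonneg b)
  obtain ⟨lam, hlam0, hlam⟩ := C.exists_twist_stable hn hu hE hdeg (hNst N N le_rfl)
  -- every stable pair has the twist `lam`
  have hall : ∀ a b : ℕ, D.Stable g₁ g₂ a b →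
      D.redSub (riemannRochSpace (E + D.chartDiv a b)) =
        Core.nodalSpace D.x₁ D.x₂ lam (D.chartDiv₁ a b) (D.chartDiv₂ a b) := by
    intro a b hst
    obtain ⟨lam₁, -, h₁⟩ := C.exists_twist_stable hn hu hE hdeg hst
    obtain ⟨lam₂, -, h₂⟩ := C.exists_twist_stable hn hu hE hdeg
      (hNst (max a N) (max b N) (le_max_right a N))
    have e1 : lam₁ = lam₂ :=
      C.twist_unique (le_max_left a N) (le_max_left b N) hst h₁ h₂
    have e2 : lam = lam₂ :=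
      C.twist_unique (le_max_right a N) (le_max_right b N) (hNst N N le_rfl) hlam h₂
    rw [h₁, e1, ← e2]
  refine ⟨lam, hlam0, fun a b h hh => ?_, fun a b hst φ hφ => ?_⟩
  · -- inclusion: go up to a stable pair
    have hst := hNst (max a N) (max b N) (le_max_right a N)
    have hh' : h ∈ D.KLat n u ((max a N : ℕ) : ℤ) ((max b N : ℕ) : ℤ) :=
      C.KLat_mono n u (by exact_mod_cast le_max_left a N) (by exact_mod_cast le_max_left b N) hh
    have hmem : D.redF h ∈ D.redSub (riemannRochSpace (E + D.chartDiv (max a N : ℕ)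
        (max b N : ℕ))) := by
      have := (NodalDatum.mem_KLat_iff hn hu.ne_zero hE _ _ h).1 hh'
      exact ⟨h, this.1, this.2, rfl⟩
    rw [hall _ _ hst] at hmem
    exact ⟨C.redF₁_mem hn hu hh, C.redF₂_mem hn hu hh, hmem.2.2⟩
  · rw [← hall a b hst] at hφ
    obtain ⟨h, hW, hO, rfl⟩ := hφ
    exact ⟨h, (NodalDatum.mem_KLat_iff hn hu.ne_zero hE a b h).2 ⟨hW, hO⟩, rfl⟩

end NodalCtx

end Fermat.Agent.LSb
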