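/-
LSb / Core / CechChart (helper6).
Bookkeeping for the nodal Čech argument over a `NodalDatum`/`NodalCtx`:
chart divisors `a P₁ + b P₂` and their reductions, the untwisted/twisted nodal chart spaces
`D.nodal lam a b`, the stable range `D.Stable` (helper1's Datum), and **H(1)**: `red Lat(a P₁ + b P₂) ⊆ nodal 1 a b`
with equality in the stable range.
-/
import Fermat.Agent.LSb.Core.Lattice
import Fermat.Agent.LSb.Core.Structure

set_option autoImplicit false

noncomputable section

namespace Fermat.Agent.LSb.Core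

open AlgebraicCurve Fermat.Agent.S18lib Fermat.Agent.S18lib.Cech Fermat.Agent.LSb
open Fermat.Agent.LSb.Frame Module

/-! ### linear combinations of two disjoint effective divisors -/

section TwoDiv

variable {K F : Type*} [Field K] [Field F] [Algebra K F]

/-- `a X + b Y` -/
def lin2 (X Y : Divisor K F) (a b : ℤ) : Divisor K F := a • X + b • Y

theorem lin2_apply (X Y : Divisor K F) (a b : ℤ) (v : Place K F) :
    lin2 X Y a b v = a * X v + b * Y v := by
  simp [lin2]

theorem degree_lin2 (X Y : Divisor K F) (a b : ℤ) :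
    Divisor.degree (lin2 X Y a b) = a * Divisor.degree X + b * Divisor.degree Y := by
  simp [lin2]

theorem lin2_zero_zero (X Y : Divisor K F) : lin2 X Y 0 0 = 0 := by simp [lin2]

variable {X Y : Divisor K F}

theorem lin2_mono (hX : 0 ≤ X) (hY : 0 ≤ Y) {a b a' b' : ℤ} (ha : a ≤ a') (hb : b ≤ b')
    (v : Place K F) : lin2 X Y a b v ≤ lin2 X Y a' b' v := by
  rw [lin2_apply, lin2_apply]
  have h1 : 0 ≤ X v := by simpa using Finsupp.le_def.1 hX v
  have h2 : 0 ≤ Y v := by simpa using Finsupp.le_def.1 hY v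
  nlinarith

theorem lin2_nonneg (hX : 0 ≤ X) (hY : 0 ≤ Y) {a b : ℤ} (ha : 0 ≤ a) (hb : 0 ≤ b)
    (v : Place K F) : 0 ≤ lin2 X Y a b v := by
  have := lin2_mono hX hY ha hb v
  rwa [lin2_zero_zero, Finsupp.zero_apply] at this

theorem eq_zero_or_eq_zero_of_disjoint (hd : Disjoint X.support Y.support) (v : Place K F) :
    X v = 0 ∨ Y v = 0 := by
  by_contra h
  push Not at h
  exact Finset.disjoint_left.1 hd (Finsupp.mem_support_iff.2 h.1) (Finsupp.mem_support_iff.2 h.2)

/-- pointwise minimum of two combinations -/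
theorem lin2_min (hd : Disjoint X.support Y.support)
    (a b a' b' : ℤ) (v : Place K F) :
    lin2 X Y a b v ≤ lin2 X Y (min a a') (min b b') v ∨
      lin2 X Y a' b' v ≤ lin2 X Y (min a a') (min b b') v := by
  rw [lin2_apply, lin2_apply, lin2_apply]
  rcases eq_zero_or_eq_zero_of_disjoint hd v with h | h
  · rw [h]
    simp only [mul_zero, zero_add]
    rcases le_total b b' with hb | hb
    · left; rw [min_eq_left hb]
    · right; rw [min_eq_right hb]
  · rw [h]
    simp only [mul_zero, add_zero]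
    rcases le_total a a' with ha | ha
    · left; rw [min_eq_left ha]
    · right; rw [min_eq_right ha]

theorem lin2_apply_of_not_mem {v : Place K F} (hX : v ∉ X.support) (hY : v ∉ Y.support)
    (a b : ℤ) : lin2 X Y a b v = 0 := by
  rw [lin2_apply, Finsupp.notMem_support_iff.1 hX, Finsupp.notMem_support_iff.1 hY]
  simp

end TwoDiv

end Fermat.Agent.LSb.Core

namespace Fermat.Agent.LSb

open AlgebraicCurve Fermat.Agent.S18lib Fermat.Agent.S18lib.Cech Fermat.Agent.LSb
open Fermat.Agent.LSb.Frame Fermat.Agent.LSb.Core Module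

variable {L : Type*} [Field L] {A : ValuationSubring L}
variable {F : Type*} [Field F] [Algebra L F]
variable {F₁ F₂ : Type*} [Field F₁] [Field F₂]
variable [Algebra (IsLocalRing.ResidueField A) F₁] [Algebra (IsLocalRing.ResidueField A) F₂]

local notation "k" => IsLocalRing.ResidueField A

namespace NodalDatum

variable (D : NodalDatum A F F₁ F₂)

theorem chartDiv_eq (a b : ℤ) : D.chartDiv a b = lin2 D.P₁ D.P₂ a b := rfl

theorem chartDiv₁_eq (a b : ℤ) : D.chartDiv₁ a b = lin2 D.Q₁₁ D.Q₂₁ a b := rfl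

theorem chartDiv₂_eq (a b : ℤ) : D.chartDiv₂ a b = lin2 D.Q₁₂ D.Q₂₂ a b := rfl

/-- the (twisted) nodal chart space `𝓛^lam(a,b)` -/
def nodal (lam : Fin D.s → k) (a b : ℤ) : Submodule k (F₁ × F₂) :=
  nodalSpace D.x₁ D.x₂ lam (D.chartDiv₁ a b) (D.chartDiv₂ a b)

end NodalDatum

open NodalDatum

variable {D : NodalDatum A F F₁ F₂} {g g₁ g₂ : ℕ}

namespace NodalCtx

variable (C : NodalCtx D g g₁ g₂)
include C

/-- there are stable indices on each chart -/
theorem exists_stable : ∃ m : ℕ, D.Stable g₁ g₂ m 0 ∧ D.Stable g₁ g₂ 0 m := by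
  have e1 := C.deg_Q₁₁_pos
  have e2 := C.deg_Q₂₁_pos
  have e3 := C.deg_Q₁₂_pos
  have e4 := C.deg_Q₂₂_pos
  refine ⟨2 * g₁ + 2 * g₂ + D.s + 1, ⟨?_, ?_⟩, ⟨?_, ?_⟩⟩
  all_goals
    first
      | (rw [chartDiv₁_eq, degree_lin2]; push_cast; nlinarith)
      | (rw [chartDiv₂_eq, degree_lin2]; push_cast; nlinarith)

/-- `finrank` of the nodal chart space in the stable range -/
theorem finrank_nodal (lam : Fin D.s → k) {a b : ℤ} (h : D.Stable g₁ g₂ a b) :
    (finrank k (D.nodal lam a b) : ℤ) =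
      a * (Divisor.degree D.Q₁₁ + Divisor.degree D.Q₁₂) +
        b * (Divisor.degree D.Q₂₁ + Divisor.degree D.Q₂₂) + 2 - g₁ - g₂ - D.s := by
  rw [nodal, finrank_nodalSpace C.hF₁ C.hF₂ C.x₂_injective lam _ _ (C.chartDiv₁_x₁ a b)
    (C.chartDiv₂_x₂ a b) (by have := h.1; linarith) h.2, chartDiv₁_eq, chartDiv₂_eq,
    degree_lin2, degree_lin2]
  ring

theorem finiteDimensional_nodal (lam : Fin D.s → k) (a b : ℤ) :
    FiniteDimensional k (D.nodal lam a b) :=
  finiteDimensional_nodalSpace C.hF₁ C.hF₂ lam _ _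

/-- intersections of nodal chart spaces -/
theorem mem_nodal_min {lam : Fin D.s → k} {a b a' b' : ℤ} {φ : F₁ × F₂}
    (h : φ ∈ D.nodal lam a b) (h' : φ ∈ D.nodal lam a' b') :
    φ ∈ D.nodal lam (min a a') (min b b') :=
  mem_nodalSpace_of_mem_of_mem h h'
    (fun v => lin2_min C.Q₁_disjoint a b a' b' v)
    (fun v => lin2_min C.Q₂_disjoint a b a' b' v)

theorem nodal_mono {lam : Fin D.s → k} {a b a' b' : ℤ} (ha : a ≤ a') (hb : b ≤ b') :
    D.nodal lam a b ≤ D.nodal lam a' b' :=
  nodalSpace_mono (fun v => lin2_mono C.Q₁₁_nonneg C.Q₂₁_nonneg ha hb v)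
    (fun v => lin2_mono C.Q₁₂_nonneg C.Q₂₂_nonneg ha hb v)

/-- sums of nodal chart spaces in the stable range -/
theorem nodal_sup_eq (lam : Fin D.s → k) {a b a' b' : ℤ}
    (h : D.Stable g₁ g₂ (min a a') (min b b')) :
    D.nodal lam a b ⊔ D.nodal lam a' b' = D.nodal lam (max a a') (max b b') := by
  have f1 := C.finiteDimensional_nodal lam a b
  have f2 := C.finiteDimensional_nodal lam a' b'
  have f3 := C.finiteDimensional_nodal lam (max a a') (max b b')
  have hle : D.nodal lam a b ⊔ D.nodal lam a' b' ≤ D.nodal lam (max a a') (max b b') :=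
    sup_le (C.nodal_mono (le_max_left _ _) (le_max_left _ _))
      (C.nodal_mono (le_max_right _ _) (le_max_right _ _))
  refine Submodule.eq_of_le_of_finrank_le hle ?_
  have hinf : D.nodal lam a b ⊓ D.nodal lam a' b' ≤ D.nodal lam (min a a') (min b b') :=
    fun φ hφ => C.mem_nodal_min hφ.1 hφ.2
  have f4 := C.finiteDimensional_nodal lam (min a a') (min b b')
  have h1 := Submodule.finrank_sup_add_finrank_inf_eq (D.nodal lam a b) (D.nodal lam a' b')
  have h2 := Submodule.finrank_mono hinf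
  have s1 : D.Stable g₁ g₂ a b := C.stable_mono (min_le_left _ _) (min_le_left _ _) h
  have s2 : D.Stable g₁ g₂ a' b' := C.stable_mono (min_le_right _ _) (min_le_right _ _) h
  have s3 : D.Stable g₁ g₂ (max a a') (max b b') :=
    C.stable_mono (le_max_left _ _) (le_max_left _ _) s1
  have r1 := C.finrank_nodal lam s1
  have r2 := C.finrank_nodal lam s2
  have r3 := C.finrank_nodal lam s3
  have r4 := C.finrank_nodal lam h
  have ea : min a a' + max a a' = a + a' := min_add_max a a'
  have eb : min b b' + max b b' = b + b' := min_add_max b b'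
  have h1' : (finrank k ↥(D.nodal lam a b ⊔ D.nodal lam a' b') : ℤ) +
      finrank k ↥(D.nodal lam a b ⊓ D.nodal lam a' b') =
      finrank k (D.nodal lam a b) + finrank k (D.nodal lam a' b') := by exact_mod_cast h1
  have h2' : (finrank k ↥(D.nodal lam a b ⊓ D.nodal lam a' b') : ℤ) ≤
      finrank k (D.nodal lam (min a a') (min b b')) := by exact_mod_cast h2
  have : (finrank k (D.nodal lam (max a a') (max b b')) : ℤ) ≤
      finrank k ↥(D.nodal lam a b ⊔ D.nodal lam a' b') := by
    have e1 : max a a' = a + a' - min a a' := by linarith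
    have e2 : max b b' = b + b' - min b b' := by linarith
    rw [r3, e1, e2]
    rw [r1, r2] at h1'
    rw [r4] at h2'
    nlinarith
  exact_mod_cast this

/-- the only global sections of the structure sheaf of the special fibre are the constants -/
theorem nodal_zero_zero {φ : F₁ × F₂} (h : φ ∈ D.nodal 1 0 0) :
    ∃ α : k, φ = (algebraMap k F₁ α, algebraMap k F₂ α) := by
  obtain ⟨h1, h2, h3⟩ := h
  have e1 : D.chartDiv₁ 0 0 = 0 := by rw [chartDiv₁_eq, lin2_zero_zero]
  have e2 : D.chartDiv₂ 0 0 = 0 := by rw [chartDiv₂_eq, lin2_zero_zero]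
  rw [e1, C.hF₁.riemannRochSpace_zero] at h1
  rw [e2, C.hF₂.riemannRochSpace_zero] at h2
  obtain ⟨α₁, hα₁⟩ := Algebra.mem_bot.mp h1
  obtain ⟨α₂, hα₂⟩ := Algebra.mem_bot.mp h2
  have c : Fin D.s := ⟨0, C.s_pos⟩
  have h4 := ((gluedAt_iff C.hF₁.deg_eq_one C.hF₂.deg_eq_one c _ φ).1 (h3 c)).2.2
  rw [← hα₁, ← hα₂, valAt_algebraMap, valAt_algebraMap, Pi.one_apply, one_mul] at h4
  exact ⟨α₁, Prod.ext hα₁.symm (by rw [← h4]; exact hα₂.symm)⟩

/-- intersections of chart Riemann–Roch spaces on the generic fibre -/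
theorem mem_rr_chart_min {E : Divisor L F} {a b a' b' : ℤ} {f : F}
    (h : f ∈ riemannRochSpace (E + D.chartDiv a b))
    (h' : f ∈ riemannRochSpace (E + D.chartDiv a' b')) :
    f ∈ riemannRochSpace (E + D.chartDiv (min a a') (min b b')) := by
  refine mem_rr_of_mem_of_mem h h' fun v => ?_
  simp only [Finsupp.add_apply]
  rcases lin2_min C.P_disjoint a b a' b' v with h1 | h1
  · left; rw [chartDiv_eq, chartDiv_eq]; linarith
  · right; rw [chartDiv_eq, chartDiv_eq]; linarith

theorem rr_chart_mono {E : Divisor L F} {a b a' b' : ℤ} (ha : a ≤ a') (hb : b ≤ b') :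
    riemannRochSpace (E + D.chartDiv a b) ≤ riemannRochSpace (E + D.chartDiv a' b') :=
  rr_mono fun v => by
    simp only [Finsupp.add_apply]
    have := C.chartDiv_mono ha hb v
    linarith

/-- stable on the special fibre implies stable on the generic fibre -/
theorem degree_chartDiv_gt {a b : ℕ} (h : D.Stable g₁ g₂ a b) :
    2 * (g : ℤ) - 2 < Divisor.degree (D.chartDiv a b) := by
  obtain ⟨h1, h2⟩ := h
  rw [chartDiv₁_eq, degree_lin2] at h1
  rw [chartDiv₂_eq, degree_lin2] at h2
  rw [D.degree_chartDiv]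
  have e1 := C.deg_Q₁_le
  have e2 := C.deg_Q₂_le
  have e3 : (g : ℤ) + 1 ≤ g₁ + g₂ + D.s := by exact_mod_cast C.count
  have ha : (0 : ℤ) ≤ a := Int.natCast_nonneg a
  have hb : (0 : ℤ) ≤ b := Int.natCast_nonneg b
  nlinarith

/-! ### H(1): the chart lattices of the structure sheaf -/

/-- **H(1), inclusion**: `red Lat(a P₁ + b P₂) ⊆ 𝓛¹(a,b)` (= CHART + GLUE) -/
theorem redF_mem_nodal_one (a b : ℕ) {f : F} (hf : f ∈ D.Lat (D.chartDiv a b)) :
    D.redF f ∈ D.nodal 1 a b := by
  obtain ⟨h1, h2⟩ := NodalDatum.mem_O.1 hf.2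
  refine ⟨C.chart₁ a b f hf.1 h1 h2, C.chart₂ a b f hf.1 h1 h2, fun c => ?_⟩
  obtain ⟨α, hα₁, hα₂⟩ := C.glue a b f hf.1 h1 h2 c
  exact ⟨α, hα₁, by rw [Pi.one_apply, one_mul]; exact hα₂⟩

end NodalCtx

end Fermat.Agent.LSb
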