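/-
LSb / Core / CechH1 (helper6).
The lattice statements of the nodal Čech argument, all obtained from
"reductions agree (dimension count on the nodal special fibre) + the sum principle":

* `CechInput D g g₁ g₂ E` : a degree zero divisor `E` all of whose chart lattices
  `Lat(E + a P₁ + b P₂)` reduce into the UNTWISTED nodal spaces `𝓛¹(a,b)`;
  then `red Lat(E + a P₁ + b P₂) = 𝓛¹(a,b)` in the stable range (`CechInput.redSub_eq`);
* `NodalCtx.cechInput_zero` : **H(1)**, the input for `E = 0`;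
* `NodalCtx.h1_torsionFree` : `(L(a P₁) + L(b P₂)) ∩ O = M(a P₁) + M(b P₂)`;
* `CechInput.stabilize` : `M(E + M(P₁+P₂)) = M(E + M P₁) + M(E + M P₂) + M(E + m(P₁+P₂))`.
-/
import Fermat.Agent.LSb.Core.CechChart

set_option autoImplicit false

noncomputable section

namespace Fermat.Agent.LSb

open AlgebraicCurve Fermat.Agent.S18lib Fermat.Agent.S18lib.Cech Fermat.Agent.LSb
open Fermat.Agent.LSb.Frame Fermat.Agent.LSb.Core Module NodalDatum

variable {L : Type*} [Field L] {A : ValuationSubring L}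
variable {F : Type*} [Field F] [Algebra L F]
variable {F₁ F₂ : Type*} [Field F₁] [Field F₂]
variable [Algebra (IsLocalRing.ResidueField A) F₁] [Algebra (IsLocalRing.ResidueField A) F₂]

local notation "k" => IsLocalRing.ResidueField A

variable {D : NodalDatum A F F₁ F₂} {g g₁ g₂ : ℕ}

/-- The input of the Čech argument for a degree zero divisor `E`: its chart lattices reduce into
the untwisted nodal spaces. -/
structure CechInput (D : NodalDatum A F F₁ F₂) (g g₁ g₂ : ℕ) (E : Divisor L F) : Prop where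
  C : NodalCtx D g g₁ g₂
  degE : Divisor.degree E = 0
  sub : ∀ (a b : ℕ) (h : F), h ∈ D.Lat (E + D.chartDiv a b) → D.redF h ∈ D.nodal 1 a b

namespace CechInput

variable {E : Divisor L F} (I : CechInput D g g₁ g₂ E)
include I

theorem redSub_le (a b : ℕ) :
    D.redSub (riemannRochSpace (E + D.chartDiv a b)) ≤ D.nodal 1 a b := by
  rintro φ ⟨y, hy, hyO, rfl⟩
  exact I.sub a b y ⟨hy, hyO⟩

/-- **equality in the stable range** (dimension count) -/
theorem redSub_eq {a b : ℕ} (h : D.Stable g₁ g₂ a b) :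
    D.redSub (riemannRochSpace (E + D.chartDiv a b)) = D.nodal 1 a b := by
  have C := I.C
  have := C.hF.finiteDimensional (E + D.chartDiv a b)
  have := C.finiteDimensional_nodal (1 : Fin D.s → k) a b
  refine Submodule.eq_of_le_of_finrank_le (I.redSub_le a b) ?_
  rw [finrank_redSub C.hD]
  have h1 := C.hF.riemann_eq (E + D.chartDiv a b) (by
    rw [map_add, I.degE, zero_add]; exact C.degree_chartDiv_gt h)
  rw [map_add, I.degE, zero_add, NodalDatum.degree_chartDiv] at h1
  have h2 := C.finrank_nodal (1 : Fin D.s → k) h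
  have e1 := C.deg_Q₁_le
  have e2 := C.deg_Q₂_le
  have e3 : (g : ℤ) + 1 ≤ g₁ + g₂ + D.s := by exact_mod_cast C.count
  have ha : (0 : ℤ) ≤ a := Int.natCast_nonneg a
  have hb : (0 : ℤ) ≤ b := Int.natCast_nonneg b
  have : (finrank k (D.nodal 1 a b) : ℤ) ≤
      finrank L (riemannRochSpace (E + D.chartDiv a b)) := by
    rw [h1, h2]; nlinarith
  exact_mod_cast this

/-- lifting in the stable range -/
theorem exists_lift {a b : ℕ} (h : D.Stable g₁ g₂ a b) {φ : F₁ × F₂} (hφ : φ ∈ D.nodal 1 a b) :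
    ∃ y ∈ D.Lat (E + D.chartDiv a b), D.redF y = φ := by
  rw [← I.redSub_eq h] at hφ
  obtain ⟨y, hy, hyO, rfl⟩ := hφ
  exact ⟨y, ⟨hy, hyO⟩, rfl⟩

/-- a generic two-term splitting of chart lattices -/
theorem split {a b a' b' : ℕ} (h : D.Stable g₁ g₂ (min a a' : ℕ) (min b b' : ℕ)) {y : F}
    (hy : y ∈ D.Lat (E + D.chartDiv (max a a' : ℕ) (max b b' : ℕ))) :
    ∃ y' ∈ D.Lat (E + D.chartDiv a b), ∃ y'' ∈ D.Lat (E + D.chartDiv a' b'), y = y' + y'' := by
  have C := I.C
  have := C.hF.finiteDimensional (E + D.chartDiv (max a a' : ℕ) (max b b' : ℕ))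
  have hmin1 : ((min a a' : ℕ) : ℤ) = min (a : ℤ) a' := by push_cast; rfl
  have hmin2 : ((min b b' : ℕ) : ℤ) = min (b : ℤ) b' := by push_cast; rfl
  have hmax1 : ((max a a' : ℕ) : ℤ) = max (a : ℤ) a' := by push_cast; rfl
  have hmax2 : ((max b b' : ℕ) : ℤ) = max (b : ℤ) b' := by push_cast; rfl
  have s1 : D.Stable g₁ g₂ a b := C.stable_mono (by exact_mod_cast min_le_left a a')
    (by exact_mod_cast min_le_left b b') h
  have s2 : D.Stable g₁ g₂ a' b' := C.stable_mono (by exact_mod_cast min_le_right a a')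
    (by exact_mod_cast min_le_right b b') h
  have s3 : D.Stable g₁ g₂ (max a a' : ℕ) (max b b' : ℕ) :=
    C.stable_mono (by exact_mod_cast le_max_left a a') (by exact_mod_cast le_max_left b b') s1
  have hle1 : riemannRochSpace (E + D.chartDiv a b) ≤
      riemannRochSpace (E + D.chartDiv (max a a' : ℕ) (max b b' : ℕ)) :=
    C.rr_chart_mono (by exact_mod_cast le_max_left a a') (by exact_mod_cast le_max_left b b')
  have hle2 : riemannRochSpace (E + D.chartDiv a' b') ≤
      riemannRochSpace (E + D.chartDiv (max a a' : ℕ) (max b b' : ℕ)) :=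
    C.rr_chart_mono (by exact_mod_cast le_max_right a a') (by exact_mod_cast le_max_right b b')
  have hred : D.redSub (riemannRochSpace (E + D.chartDiv (max a a' : ℕ) (max b b' : ℕ))) ≤
      D.redSub (riemannRochSpace (E + D.chartDiv a b)) ⊔
        D.redSub (riemannRochSpace (E + D.chartDiv a' b')) := by
    rw [I.redSub_eq s1, I.redSub_eq s2, I.redSub_eq s3, hmax1, hmax2,
      C.nodal_sup_eq 1 (by rw [← hmin1, ← hmin2]; exact h)]
  obtain ⟨y', hy', hyO', y'', hy'', hyO'', hsum⟩ :=
    exists_add_of_redSub_le C.hD hle1 hle2 hred hy.1 hy.2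
  exact ⟨y', ⟨hy', hyO'⟩, y'', ⟨hy'', hyO''⟩, hsum⟩

/-- **stabilisation**:
`M(E + M(P₁+P₂)) = M(E + M P₁) + M(E + M P₂) + M(E + m(P₁+P₂))` for `M ≥ m`, `m` stable on both
charts. -/
theorem stabilize {m M : ℕ} (hm₁ : D.Stable g₁ g₂ m 0) (hm₂ : D.Stable g₁ g₂ 0 m) (hmM : m ≤ M)
    {x : F} (hx : x ∈ D.Lat (E + D.chartDiv M M)) :
    ∃ y₁ ∈ D.Lat (E + D.chartDiv M 0), ∃ y₂ ∈ D.Lat (E + D.chartDiv 0 M),
      ∃ x' ∈ D.Lat (E + D.chartDiv m m), x = y₁ + y₂ + x' := by
  -- first split off the second chart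
  have e1 : max M 0 = M := max_eq_left (Nat.zero_le M)
  have e2 : max m M = M := max_eq_right hmM
  have e3 : min M 0 = 0 := min_eq_right (Nat.zero_le M)
  have e4 : min m M = m := min_eq_left hmM
  obtain ⟨y', hy', y₂, hy₂, hsum⟩ := I.split (a := M) (b := m) (a' := 0) (b' := M)
    (by rw [e3, e4]; exact_mod_cast hm₂) (by rw [e1, e2]; exact hx)
  -- then the first chart
  have e5 : max M m = M := max_eq_left hmM
  have e6 : max 0 m = m := max_eq_right (Nat.zero_le m)
  have e7 : min M m = m := min_eq_right hmM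
  have e8 : min 0 m = 0 := min_eq_left (Nat.zero_le m)
  obtain ⟨y₁, hy₁, x', hx', hsum'⟩ := I.split (a := M) (b := 0) (a' := m) (b' := m)
    (by rw [e7, e8]; exact_mod_cast hm₁) (by rw [e5, e6]; exact hy')
  refine ⟨y₁, by exact_mod_cast hy₁, y₂, by exact_mod_cast hy₂, x', hx', ?_⟩
  rw [hsum, hsum']; ring

end CechInput

namespace NodalCtx

variable (C : NodalCtx D g g₁ g₂)
include C

/-- **H(1)**: the structure sheaf is a Čech input -/
theorem cechInput_zero : CechInput D g g₁ g₂ (0 : Divisor L F) where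
  C := C
  degE := map_zero _
  sub a b h hh := by
    rw [zero_add] at hh
    exact C.redF_mem_nodal_one a b hh

/-- **`H¹(O)` is torsion free**: `(L(a P₁) + L(b P₂)) ∩ O = M(a P₁) + M(b P₂)` -/
theorem h1_torsionFree (a b : ℕ) {x u₁ u₂ : F} (hx : x ∈ D.O)
    (hu₁ : u₁ ∈ riemannRochSpace (D.chartDiv a 0)) (hu₂ : u₂ ∈ riemannRochSpace (D.chartDiv 0 b))
    (hxu : x = u₁ - u₂) :
    ∃ m₁ ∈ D.Lat (D.chartDiv a 0), ∃ m₂ ∈ D.Lat (D.chartDiv 0 b), x = m₁ - m₂ := by
  classical
  set W' := riemannRochSpace (D.chartDiv a 0) with hW'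
  set W'' := riemannRochSpace (D.chartDiv 0 b) with hW''
  have : FiniteDimensional L W' := C.hF.finiteDimensional _
  have : FiniteDimensional L W'' := C.hF.finiteDimensional _
  set W : Submodule L F := W' ⊔ W'' with hW
  have : FiniteDimensional L W := Submodule.finiteDimensional_sup W' W''
  have hxW : x ∈ W := by
    rw [hxu]
    exact Submodule.sub_mem _ (Submodule.mem_sup_left hu₁) (Submodule.mem_sup_right hu₂)
  have I0 := C.cechInput_zero
  -- reductions
  set R' := D.redSub W' with hR'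
  set R'' := D.redSub W'' with hR''
  have : FiniteDimensional k R' := finiteDimensional_redSub C.hD W'
  have : FiniteDimensional k R'' := finiteDimensional_redSub C.hD W''
  have : FiniteDimensional k (D.redSub W) := finiteDimensional_redSub C.hD W
  have hle : R' ⊔ R'' ≤ D.redSub W := sup_le (redSub_mono le_sup_left) (redSub_mono le_sup_right)
  -- `R' ⊓ R''` is at most one dimensional
  have hinf : finrank k ↥(R' ⊓ R'') ≤ 1 := by
    have h1 : R' ⊓ R'' ≤ Submodule.span k {((1 : F₁), (1 : F₂))} := by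
      intro φ hφ
      have m1 : φ ∈ D.nodal 1 a 0 := by
        have := I0.redSub_le a 0
        rw [zero_add] at this
        exact_mod_cast this hφ.1
      have m2 : φ ∈ D.nodal 1 0 b := by
        have := I0.redSub_le 0 b
        rw [zero_add] at this
        exact_mod_cast this hφ.2
      have m3 := C.mem_nodal_min m1 m2
      have e1 : min (a : ℤ) 0 = 0 := min_eq_right (Int.natCast_nonneg a)
      have e2 : min (0 : ℤ) b = 0 := min_eq_left (Int.natCast_nonneg b)
      rw [e1, e2] at m3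
      obtain ⟨α, rfl⟩ := C.nodal_zero_zero m3
      rw [Submodule.mem_span_singleton]
      exact ⟨α, by ext <;> simp [Algebra.smul_def]⟩
    calc finrank k ↥(R' ⊓ R'') ≤ finrank k (Submodule.span k {((1 : F₁), (1 : F₂))}) :=
          Submodule.finrank_mono h1
      _ ≤ 1 := by
          have := finrank_span_le_card (R := k) ({((1 : F₁), (1 : F₂))} : Set (F₁ × F₂))
          simpa using this
  -- `W' ⊓ W''` contains the constants
  have hinfW : 1 ≤ finrank L ↥(W' ⊓ W'') := by
    have h1 : (1 : F) ∈ W' ⊓ W'' := by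
      refine ⟨one_mem_rr fun v => ?_, one_mem_rr fun v => ?_⟩
      · rw [chartDiv_eq]
        exact lin2_nonneg C.P₁_nonneg C.P₂_nonneg (Int.natCast_nonneg a) le_rfl v
      · rw [chartDiv_eq]
        exact lin2_nonneg C.P₁_nonneg C.P₂_nonneg le_rfl (Int.natCast_nonneg b) v
    have : 0 < finrank L ↥(W' ⊓ W'') := by
      rw [finrank_pos_iff_exists_ne_zero]
      exact ⟨⟨1, h1⟩, fun h => one_ne_zero (congrArg Subtype.val h)⟩
    omega
  have hred : D.redSub W ≤ R' ⊔ R'' := by
    have heq : R' ⊔ R'' = D.redSub W := by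
      refine Submodule.eq_of_le_of_finrank_le hle ?_
      have h1 := Submodule.finrank_sup_add_finrank_inf_eq R' R''
      have h2 : finrank L W + finrank L ↥(W' ⊓ W'') = finrank L W' + finrank L W'' :=
        Submodule.finrank_sup_add_finrank_inf_eq W' W''
      have e1 : finrank k R' = finrank L W' := finrank_redSub C.hD W'
      have e2 : finrank k R'' = finrank L W'' := finrank_redSub C.hD W''
      rw [finrank_redSub C.hD W]
      omega
    rw [heq]
  obtain ⟨y', hy', hyO', y'', hy'', hyO'', hsum⟩ :=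
    exists_add_of_redSub_le C.hD le_sup_left le_sup_right hred hxW hx
  exact ⟨y', ⟨hy', hyO'⟩, -y'', Lat.neg ⟨hy'', hyO''⟩, by rw [hsum]; ring⟩

end NodalCtx

end Fermat.Agent.LSb
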