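/-
LSb / Core / CechTorsion (helper6).
Bounded torsion of `H¹(O(E))` for the two chart cover (pure lattice argument with sup-norm
orthonormal bases; port of `S18lib.Cech.Ctx.exists_torsion_bound`).
-/
import Fermat.Agent.LSb.Core.CechH1

set_option autoImplicit false

noncomputable section

namespace Fermat.Agent.LSb

open AlgebraicCurve Fermat.Agent.S18lib Fermat.Agent.S18lib.Cech Fermat.Agent.LSb
open Fermat.Agent.LSb.Frame Fermat.Agent.LSb.Core Module NodalDatum

variable {L : Type*} [Field L] {A : ValuationSubring L}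
variable {F : Type*} [Field F] [Algebra L F]
variable {F₁ F₂ : Type*} [Field F₁] [Field F₂]
variable [Algebra (IsLocalRing.ResidueField A) F₁] [Algebra (IsLocalRing.ResidueField A) F₂]

local notation "k" => IsLocalRing.ResidueField A

variable {D : NodalDatum A F F₁ F₂} {g g₁ g₂ : ℕ}

/-- every function becomes sup-norm integral after multiplication by a nonzero element of `A` -/
theorem exists_smul_mem_O (D : NodalDatum A F F₁ F₂) (u : F) :
    ∃ c : A, c ≠ 0 ∧ algebraMap L F (c : L) * u ∈ D.O := by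
  obtain ⟨c₁, hc₁, h₁⟩ := Frame.exists_smul_mem D.V₁ u
  obtain ⟨c₂, hc₂, h₂⟩ := Frame.exists_smul_mem D.V₂ u
  refine ⟨c₁ * c₂, mul_ne_zero hc₁ hc₂, NodalDatum.mem_O.2 ⟨?_, ?_⟩⟩
  · have := D.V₁.smul_mem c₂ h₁
    have e : algebraMap L F ((c₁ * c₂ : A) : L) * u =
        algebraMap L F (c₂ : L) * (algebraMap L F (c₁ : L) * u) := by
      rw [MulMemClass.coe_mul, map_mul]; ring
    rw [e]; exact this
  · have := D.V₂.smul_mem c₁ h₂
    have e : algebraMap L F ((c₁ * c₂ : A) : L) * u =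
        algebraMap L F (c₁ : L) * (algebraMap L F (c₂ : L) * u) := by
      rw [MulMemClass.coe_mul, map_mul]; ring
    rw [e]; exact this

/-- a common denominator for a finite family -/
theorem exists_common_smul_mem_O (D : NodalDatum A F F₁ F₂) {ι : Type*} [Fintype ι] (u : ι → F) :
    ∃ c : A, c ≠ 0 ∧ ∀ i, algebraMap L F (c : L) * u i ∈ D.O := by
  classical
  choose c hc0 hc using fun i => exists_smul_mem_O D (u i)
  refine ⟨∏ i, c i, Finset.prod_ne_zero_iff.mpr fun i _ => hc0 i, fun i => ?_⟩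
  rw [← Finset.mul_prod_erase Finset.univ c (Finset.mem_univ i)]
  have : algebraMap L F ((c i * ∏ x ∈ Finset.univ.erase i, c x : A) : L) * u i =
      algebraMap L F ((∏ x ∈ Finset.univ.erase i, c x : A) : L) * (algebraMap L F (c i : L) * u i) := by
    rw [MulMemClass.coe_mul, map_mul]
    ring
  rw [this]
  exact smul_mem_supO _ (hc i)

namespace NodalCtx

variable (C : NodalCtx D g g₁ g₂)
include C

/-- **bounded torsion of `H¹(O(E))`** -/
theorem exists_torsion_bound (E₁ E₂ : Divisor L F) :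
    ∃ c₀ : A, c₀ ≠ 0 ∧ ∀ x ∈ D.O, ∀ u₁ ∈ riemannRochSpace E₁, ∀ u₂ ∈ riemannRochSpace E₂,
      x = u₁ - u₂ →
        ∃ m₁ ∈ D.Lat E₁, ∃ m₂ ∈ D.Lat E₂, algebraMap L F (c₀ : L) * x = m₁ - m₂ := by
  classical
  set V₁ := riemannRochSpace E₁ with hV₁
  set V₂ := riemannRochSpace E₂ with hV₂
  have : FiniteDimensional L V₁ := C.hF.finiteDimensional _
  have : FiniteDimensional L V₂ := C.hF.finiteDimensional _
  set W : Submodule L F := V₁ ⊔ V₂ with hW
  have : FiniteDimensional L W := Submodule.finiteDimensional_sup V₁ V₂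
  obtain ⟨ε, hεW, hεo⟩ := C.hD W inferInstance
  -- decompose the basis
  have hdec : ∀ l, ∃ p ∈ V₁, ∃ q ∈ V₂, p + q = ε l := fun l => Submodule.mem_sup.mp (hεW l)
  choose p hp q hq hpq using hdec
  obtain ⟨c₀, hc₀, hc₀O⟩ := exists_common_smul_mem_O D (Sum.elim p q)
  refine ⟨c₀, hc₀, ?_⟩
  intro x hxO u₁ hu₁ u₂ hu₂ hxu
  have hxW : x ∈ W := by
    rw [hxu]
    exact Submodule.sub_mem _ (Submodule.mem_sup_left hu₁) (Submodule.mem_sup_right hu₂)
  obtain ⟨α, hα⟩ := exists_coeff_of_orthonormal hεW hεo hxW hxO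
  have hpL : ∀ l, algebraMap L F (c₀ : L) * p l ∈ D.Lat E₁ := fun l => by
    refine ⟨?_, hc₀O (Sum.inl l)⟩
    have := Submodule.smul_mem V₁ (c₀ : L) (hp l)
    rwa [Algebra.smul_def] at this
  have hqL : ∀ l, algebraMap L F (c₀ : L) * q l ∈ D.Lat E₂ := fun l => by
    refine ⟨?_, hc₀O (Sum.inr l)⟩
    have := Submodule.smul_mem V₂ (c₀ : L) (hq l)
    rwa [Algebra.smul_def] at this
  refine ⟨∑ l, algebraMap L F (α l : L) * (algebraMap L F (c₀ : L) * p l),
    Lat.sum _ _ fun l _ => Lat.smul (α l) (hpL l),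
    -∑ l, algebraMap L F (α l : L) * (algebraMap L F (c₀ : L) * q l),
    Lat.neg (Lat.sum _ _ fun l _ => Lat.smul (α l) (hqL l)), ?_⟩
  rw [hα, sub_neg_eq_add, ← Finset.sum_add_distrib, Finset.mul_sum]
  refine Finset.sum_congr rfl fun l _ => ?_
  rw [← hpq l]
  ring

end NodalCtx

end Fermat.Agent.LSb
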