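/-
LSb / Core / CechDoubling (helper6).
The doubling step of the nodal Čech argument (port of `S18lib.Cech.Ctx.doubling`):
two chart `n`-th roots `t₁ t₂` of `z⁻¹` (`div z = n E`, `red z = (1,1)`) with `red tᵢ = (1,1)`
that agree modulo `c ∈ 𝔪_A` can be corrected to agree modulo `c²` (`n` invertible in `k`).
-/
import Fermat.Agent.LSb.Core.CechTorsion
import Fermat.Agent.S18lib.Cech.Doubling

set_option autoImplicit false

noncomputable section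

namespace Fermat.Agent.LSb

open AlgebraicCurve Fermat.Agent.S18lib Fermat.Agent.LSb
open Fermat.Agent.LSb.Frame Fermat.Agent.LSb.Core Module NodalDatum
open Fermat.Agent.S18lib.Cech (rr_mono mul_mem_rr pow_mem_rr one_mem_rr mem_rr_neg_of_div
  mem_rr_of_ne one_sub_pow_expand newton_identity)

variable {L : Type*} [Field L] {A : ValuationSubring L}
variable {F : Type*} [Field F] [Algebra L F]
variable {F₁ F₂ : Type*} [Field F₁] [Field F₂]
variable [Algebra (IsLocalRing.ResidueField A) F₁] [Algebra (IsLocalRing.ResidueField A) F₂]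

local notation "k" => IsLocalRing.ResidueField A

variable {D : NodalDatum A F F₁ F₂} {g g₁ g₂ : ℕ}

/-! ### small facts on the sup-norm ball -/

theorem algebraMap_mem_O (D : NodalDatum A F F₁ F₂) (a : A) : algebraMap L F (a : L) ∈ D.O :=
  NodalDatum.mem_O.2 ⟨D.V₁.algebraMap_mem a, D.V₂.algebraMap_mem a⟩

theorem natCast_mem_O (D : NodalDatum A F F₁ F₂) (n : ℕ) : (n : F) ∈ D.O :=
  natCast_mem D.O n

/-- reduction of the geometric sum -/
theorem redF_geom_sum₂ {t₁ t₂ : F} (h₁ : t₁ ∈ D.O) (h₂ : t₂ ∈ D.O)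
    (hr₁ : D.redF t₁ = 1) (hr₂ : D.redF t₂ = 1) (s : ℕ) :
    D.redF (∑ i ∈ Finset.range (s + 1), t₁ ^ i * t₂ ^ (s - i)) = ((s + 1 : ℕ) : F₁ × F₂) := by
  rw [show D.redF (∑ i ∈ Finset.range (s + 1), t₁ ^ i * t₂ ^ (s - i)) =
    ∑ i ∈ Finset.range (s + 1), D.redF (t₁ ^ i * t₂ ^ (s - i)) from
    redS_sum _ _ fun i _ => mul_mem (pow_mem h₁ i) (pow_mem h₂ _)]
  have : ∀ i ∈ Finset.range (s + 1), D.redF (t₁ ^ i * t₂ ^ (s - i)) = 1 := by
    intro i _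
    rw [show D.redF (t₁ ^ i * t₂ ^ (s - i)) = D.redF (t₁ ^ i) * D.redF (t₂ ^ (s - i)) from
      redS_mul (pow_mem h₁ i) (pow_mem h₂ _),
      show D.redF (t₁ ^ i) = D.redF t₁ ^ i from redS_pow h₁ i,
      show D.redF (t₂ ^ (s - i)) = D.redF t₂ ^ (s - i) from redS_pow h₂ _, hr₁, hr₂]
    simp
  rw [Finset.sum_congr rfl this, Finset.sum_const, Finset.card_range, nsmul_eq_mul, mul_one]

/-- Newton step on one chart -/
theorem newton_chart (D : NodalDatum A F F₁ F₂) (s : ℕ) {f t w : F} (hw : w ∈ D.O)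
    (c a₀ dinv : A) (hd : (s : L) * (a₀ : L) * (dinv : L) = 1)
    (hβ : f * t ^ s = algebraMap L F (a₀ : L) + algebraMap L F (c : L) * w) :
    ∃ ρ ∈ D.O, f * (t * (1 - algebraMap L F (c : L) * (algebraMap L F (dinv : L) * w))) ^ s =
      algebraMap L F (a₀ : L) + algebraMap L F (c : L) ^ 2 * ρ := by
  set cF := algebraMap L F (c : L) with hcF
  set z₀ := algebraMap L F (dinv : L) * w with hz₀
  have hz₀O : z₀ ∈ D.O := smul_mem_supO dinv hw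
  have hczO : cF * z₀ ∈ D.O := smul_mem_supO c hz₀O
  obtain ⟨p, hp⟩ := one_sub_pow_expand s (⟨cF * z₀, hczO⟩ : D.O)
  have hp' : (1 - cF * z₀) ^ s = 1 - (s : F) * (cF * z₀) + (cF * z₀) ^ 2 * (p : F) := by
    have := congrArg (D.O.subtype) hp
    simpa using this
  have hsa : (s : F) * algebraMap L F (a₀ : L) * z₀ = w := by
    rw [hz₀, ← mul_assoc, ← map_natCast (algebraMap L F) s, ← map_mul, ← map_mul, hd, map_one,
      one_mul]
  refine ⟨-((s : F) * w * z₀) + (algebraMap L F (a₀ : L) + cF * w) * z₀ ^ 2 * (p : F), ?_, ?_⟩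
  · refine add_mem (neg_mem (mul_mem (mul_mem (natCast_mem_O D s) hw) hz₀O)) ?_
    exact mul_mem (mul_mem (add_mem (algebraMap_mem_O D a₀) (smul_mem_supO c hw))
      (pow_mem hz₀O 2)) p.2
  · rw [mul_pow, ← mul_assoc, hβ, hp']
    exact newton_identity _ _ _ _ _ _ hsa

/-- `z tⁿ ∈ L(n a P₁ + n b P₂)` if `div z = n E` and `t ∈ L(E + a P₁ + b P₂)` -/
theorem mul_pow_mem_rr_chart {E : Divisor L F} (n : ℕ) {z : F} (hz0 : z ≠ 0)
    (hzdiv : ∀ v, (n • E) v = v.ord z) (a b : ℕ) {t : F}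
    (ht : t ∈ riemannRochSpace (E + D.chartDiv a b)) :
    z * t ^ n ∈ riemannRochSpace (D.chartDiv ((n * a : ℕ) : ℤ) ((n * b : ℕ) : ℤ)) := by
  classical
  have h1 := mul_mem_rr (mem_rr_neg_of_div hz0 hzdiv) (pow_mem_rr ht n)
  refine rr_mono (fun v => le_of_eq ?_) h1
  simp only [Finsupp.add_apply, Finsupp.neg_apply, Finsupp.smul_apply, chartDiv_eq, lin2_apply,
    nsmul_eq_mul]
  push_cast
  ring

/-- the data of the doubling argument: the property `Good c` -/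
def Good (D : NodalDatum A F F₁ F₂) (E : Divisor L F) (m : ℕ) (c : A) : Prop :=
  ∃ t₁ ∈ D.Lat (E + D.chartDiv m 0), ∃ t₂ ∈ D.Lat (E + D.chartDiv 0 m),
    D.redF t₁ = 1 ∧ D.redF t₂ = 1 ∧ ∃ x ∈ D.O, t₁ - t₂ = algebraMap L F (c : L) * x

namespace CechInput

variable {E : Divisor L F} (I : CechInput D g g₁ g₂ E)
include I

/-- **The doubling step.** -/
theorem doubling {m : ℕ} (hm₁ : D.Stable g₁ g₂ m 0) (hm₂ : D.Stable g₁ g₂ 0 m) (n : ℕ)
    (hn : (n : k) ≠ 0) {z : F} (hzO : z ∈ D.O) (hz0 : z ≠ 0)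
    (hzdiv : ∀ v, (n • E) v = v.ord z) (hzred : D.redF z = 1) {c : A}
    (hc : c ∈ IsLocalRing.maximalIdeal A) (hG : Good D E m c) :
    Good D E m (c ^ 2) := by
  classical
  have C := I.C
  rcases eq_or_ne c 0 with rfl | hc0
  · simpa using hG
  obtain ⟨t₁, ht₁, t₂, ht₂, hr₁, hr₂, x, hxO, hx⟩ := hG
  have hcL : (c : L) ≠ 0 := fun h => hc0 (Subtype.ext h)
  set cF := algebraMap L F (c : L) with hcF
  have hcF0 : cF ≠ 0 := (map_ne_zero _).2 hcL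
  obtain ⟨s', rfl⟩ : ∃ s', n = s' + 1 := by
    rcases n with _ | s'
    · exact absurd (by simp) hn
    · exact ⟨s', rfl⟩
  set j : ℕ := (s' + 1) * m with hj
  -- the functions `β_i = z t_i^n`
  set β₁ := z * t₁ ^ (s' + 1) with hβ₁
  set β₂ := z * t₂ ^ (s' + 1) with hβ₂
  have hβ₁mem : β₁ ∈ riemannRochSpace (D.chartDiv (j : ℕ) (0 : ℕ)) := by
    have := mul_pow_mem_rr_chart (D := D) (s' + 1) hz0 hzdiv m 0 ht₁.1
    simpa [hj] using this
  have hβ₂mem : β₂ ∈ riemannRochSpace (D.chartDiv (0 : ℕ) (j : ℕ)) := by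
    have := mul_pow_mem_rr_chart (D := D) (s' + 1) hz0 hzdiv 0 m ht₂.1
    simpa [hj] using this
  have hβ₁O : β₁ ∈ D.O := mul_mem hzO (pow_mem ht₁.2 _)
  have hβ₂O : β₂ ∈ D.O := mul_mem hzO (pow_mem ht₂.2 _)
  have hβ₁red : D.redF β₁ = 1 := by
    rw [hβ₁, show D.redF (z * t₁ ^ (s' + 1)) = D.redF z * D.redF (t₁ ^ (s' + 1)) from
      redS_mul hzO (pow_mem ht₁.2 _),
      show D.redF (t₁ ^ (s' + 1)) = D.redF t₁ ^ (s' + 1) from redS_pow ht₁.2 _, hzred, hr₁]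
    simp
  have hβ₂red : D.redF β₂ = 1 := by
    rw [hβ₂, show D.redF (z * t₂ ^ (s' + 1)) = D.redF z * D.redF (t₂ ^ (s' + 1)) from
      redS_mul hzO (pow_mem ht₂.2 _),
      show D.redF (t₂ ^ (s' + 1)) = D.redF t₂ ^ (s' + 1) from redS_pow ht₂.2 _, hzred, hr₂]
    simp
  -- `β₁ - β₂ = c w`
  set σ₀ := ∑ i ∈ Finset.range (s' + 1), t₁ ^ i * t₂ ^ (s' - i) with hσ₀
  have hσ₀O : σ₀ ∈ D.O :=
    D.O.sum_mem fun i _ => mul_mem (pow_mem ht₁.2 i) (pow_mem ht₂.2 _)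
  have hgeom : σ₀ * (t₁ - t₂) = t₁ ^ (s' + 1) - t₂ ^ (s' + 1) := by
    have := (Commute.all t₁ t₂).geom_sum₂_mul (s' + 1)
    simpa using this
  set w := x * z * σ₀ with hw
  have hwO : w ∈ D.O := mul_mem (mul_mem hxO hzO) hσ₀O
  have hcw : cF * w = β₁ - β₂ := by
    rw [hβ₁, hβ₂, ← mul_sub, ← hgeom, hx, hw]
    ring
  -- `w = w₁ - w₂`
  have hu₁ : cF⁻¹ * β₁ ∈ riemannRochSpace (D.chartDiv (j : ℕ) (0 : ℕ)) := by
    have := Submodule.smul_mem _ ((c : L)⁻¹) hβ₁mem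
    rwa [Algebra.smul_def, map_inv₀] at this
  have hu₂ : cF⁻¹ * β₂ ∈ riemannRochSpace (D.chartDiv (0 : ℕ) (j : ℕ)) := by
    have := Submodule.smul_mem _ ((c : L)⁻¹) hβ₂mem
    rwa [Algebra.smul_def, map_inv₀] at this
  have hu : w = cF⁻¹ * β₁ - cF⁻¹ * β₂ := by
    rw [← mul_sub, ← hcw, ← mul_assoc, inv_mul_cancel₀ hcF0, one_mul]
  obtain ⟨w₁, hw₁, w₂, hw₂, hww⟩ := C.h1_torsionFree j j hwO hu₁ hu₂ hu
  -- the constant `a`
  set a := β₁ - cF * w₁ with ha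
  have ha' : a = β₂ - cF * w₂ := by
    have : cF * w₁ - cF * w₂ = β₁ - β₂ := by rw [← mul_sub, ← hww, hcw]
    rw [ha]
    linear_combination -this
  have haO : a ∈ D.O := sub_mem hβ₁O (smul_mem_supO c hw₁.2)
  have hamem : a ∈ riemannRochSpace (0 : Divisor L F) := by
    have h1 : a ∈ riemannRochSpace (0 + D.chartDiv (j : ℕ) (0 : ℕ)) := by
      rw [zero_add, ha]
      refine Submodule.sub_mem _ hβ₁mem ?_
      have := Submodule.smul_mem _ (c : L) hw₁.1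
      rwa [Algebra.smul_def] at this
    have h2 : a ∈ riemannRochSpace (0 + D.chartDiv (0 : ℕ) (j : ℕ)) := by
      rw [zero_add, ha']
      refine Submodule.sub_mem _ hβ₂mem ?_
      have := Submodule.smul_mem _ (c : L) hw₂.1
      rwa [Algebra.smul_def] at this
    have := C.mem_rr_chart_min h1 h2
    have e1 : min ((j : ℕ) : ℤ) ((0 : ℕ) : ℤ) = 0 := by
      rw [Nat.cast_zero]; exact min_eq_right (Int.natCast_nonneg j)
    have e2 : min ((0 : ℕ) : ℤ) ((j : ℕ) : ℤ) = 0 := by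
      rw [Nat.cast_zero]; exact min_eq_left (Int.natCast_nonneg j)
    rw [e1, e2, zero_add, chartDiv_eq, lin2_zero_zero] at this
    exact this
  rw [C.hF.riemannRochSpace_zero] at hamem
  obtain ⟨a₀, ha₀⟩ : ∃ a₀ : L, algebraMap L F a₀ = a := Algebra.mem_bot.mp hamem
  have ha₀A : a₀ ∈ A := (D.V₁.algebraMap_mem_iff a₀).mp (by
    rw [ha₀]; exact (NodalDatum.mem_O.1 haO).1)
  have hared : D.redF a = 1 := by
    rw [ha, NodalDatum.redF_sub_smul hc hβ₁O hw₁.2, hβ₁red]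
  have ha₀unit : IsUnit (⟨a₀, ha₀A⟩ : A) := by
    apply Fermat.Agent.S18lib.Cech.Ctx.isUnit_of_residue_ne_zero
    intro h0
    have := D.V₁.redF_algebraMap ⟨a₀, ha₀A⟩
    rw [h0, map_zero] at this
    have h1 : D.V₁.redF a = 0 := by rw [← ha₀]; exact this
    have h2 : D.V₁.redF a = 1 := congrArg Prod.fst hared
    rw [h2] at h1
    exact one_ne_zero h1
  have hsunit : IsUnit (((s' + 1 : ℕ) : A)) := by
    apply Fermat.Agent.S18lib.Cech.Ctx.isUnit_of_residue_ne_zero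
    rw [map_natCast]
    exact hn
  obtain ⟨d, hd⟩ := hsunit.mul ha₀unit
  set dinv : A := ((d⁻¹ : Aˣ) : A) with hdinv
  have hdd : ((s' + 1 : ℕ) : L) * a₀ * (dinv : L) = 1 := by
    have h1 : (d : A) * dinv = 1 := by rw [hdinv]; simp
    have h2 := congrArg (fun z : A => (z : L)) h1
    simp only [MulMemClass.coe_mul, OneMemClass.coe_one] at h2
    rw [← h2, hd]
    simp
  -- Newton step on both charts
  have hβ₁eq : z * t₁ ^ (s' + 1) = algebraMap L F ((⟨a₀, ha₀A⟩ : A) : L) + cF * w₁ := by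
    show β₁ = algebraMap L F a₀ + cF * w₁
    rw [ha₀, ha]; ring
  have hβ₂eq : z * t₂ ^ (s' + 1) = algebraMap L F ((⟨a₀, ha₀A⟩ : A) : L) + cF * w₂ := by
    show β₂ = algebraMap L F a₀ + cF * w₂
    rw [ha₀, ha']; ring
  obtain ⟨ρ₁, hρ₁O, hρ₁⟩ := newton_chart D (s' + 1) hw₁.2 c ⟨a₀, ha₀A⟩ dinv hdd hβ₁eq
  obtain ⟨ρ₂, hρ₂O, hρ₂⟩ := newton_chart D (s' + 1) hw₂.2 c ⟨a₀, ha₀A⟩ dinv hdd hβ₂eq
  set z₁ := algebraMap L F (dinv : L) * w₁ with hz₁
  set z₂ := algebraMap L F (dinv : L) * w₂ with hz₂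
  have hz₁L : z₁ ∈ D.Lat (D.chartDiv (j : ℕ) (0 : ℕ)) := Lat.smul dinv hw₁
  have hz₂L : z₂ ∈ D.Lat (D.chartDiv (0 : ℕ) (j : ℕ)) := Lat.smul dinv hw₂
  set t₁' := t₁ * (1 - cF * z₁) with ht₁'
  set t₂' := t₂ * (1 - cF * z₂) with ht₂'
  -- memberships of `t_i'`
  have hone₁ : (1 - cF * z₁) ∈ D.Lat (D.chartDiv (j : ℕ) (0 : ℕ)) := by
    refine Lat.sub ⟨one_mem_rr fun v => ?_, D.O.one_mem⟩ (Lat.smul c hz₁L)
    rw [chartDiv_eq]
    exact lin2_nonneg C.P₁_nonneg C.P₂_nonneg (Int.natCast_nonneg j) (by simp) v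
  have hone₂ : (1 - cF * z₂) ∈ D.Lat (D.chartDiv (0 : ℕ) (j : ℕ)) := by
    refine Lat.sub ⟨one_mem_rr fun v => ?_, D.O.one_mem⟩ (Lat.smul c hz₂L)
    rw [chartDiv_eq]
    exact lin2_nonneg C.P₁_nonneg C.P₂_nonneg (by simp) (Int.natCast_nonneg j) v
  have ht₁'L : t₁' ∈ D.Lat (E + D.chartDiv ((m + j : ℕ) : ℤ) (0 : ℕ)) := by
    refine ⟨rr_mono (fun v => le_of_eq ?_) (mul_mem_rr ht₁.1 hone₁.1), mul_mem ht₁.2 hone₁.2⟩
    simp only [Finsupp.add_apply, chartDiv_eq, lin2_apply]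
    push_cast; ring
  have ht₂'L : t₂' ∈ D.Lat (E + D.chartDiv (0 : ℕ) ((m + j : ℕ) : ℤ)) := by
    refine ⟨rr_mono (fun v => le_of_eq ?_) (mul_mem_rr ht₂.1 hone₂.1), mul_mem ht₂.2 hone₂.2⟩
    simp only [Finsupp.add_apply, chartDiv_eq, lin2_apply]
    push_cast; ring
  have hredone₁ : D.redF (1 - cF * z₁) = 1 := by
    rw [NodalDatum.redF_sub_smul hc D.O.one_mem hz₁L.2, NodalDatum.redF_one']
  have hredone₂ : D.redF (1 - cF * z₂) = 1 := by
    rw [NodalDatum.redF_sub_smul hc D.O.one_mem hz₂L.2, NodalDatum.redF_one']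
  have hred₁' : D.redF t₁' = 1 := by
    rw [ht₁', show D.redF (t₁ * (1 - cF * z₁)) = D.redF t₁ * D.redF (1 - cF * z₁) from
      redS_mul ht₁.2 hone₁.2, hr₁, hredone₁, mul_one]
  have hred₂' : D.redF t₂' = 1 := by
    rw [ht₂', show D.redF (t₂ * (1 - cF * z₂)) = D.redF t₂ * D.redF (1 - cF * z₂) from
      redS_mul ht₂.2 hone₂.2, hr₂, hredone₂, mul_one]
  -- `t₁' - t₂' = c² x'`
  set σ := ∑ i ∈ Finset.range (s' + 1), t₁' ^ i * t₂' ^ (s' - i) with hσ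
  have hσO : σ ∈ D.O :=
    D.O.sum_mem fun i _ => mul_mem (pow_mem ht₁'L.2 i) (pow_mem ht₂'L.2 _)
  have hgeom' : σ * (t₁' - t₂') = t₁' ^ (s' + 1) - t₂' ^ (s' + 1) := by
    have := (Commute.all t₁' t₂').geom_sum₂_mul (s' + 1)
    simpa using this
  have hσred : D.redF (z * σ) = ((s' + 1 : ℕ) : F₁ × F₂) := by
    rw [show D.redF (z * σ) = D.redF z * D.redF σ from redS_mul hzO hσO, hzred,
      redF_geom_sum₂ ht₁'L.2 ht₂'L.2 hred₁' hred₂' s', one_mul]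
  have hne₁ : D.V₁.redF (z * σ) ≠ 0 := by
    have : D.V₁.redF (z * σ) = ((s' + 1 : ℕ) : F₁) := by
      have := congrArg Prod.fst hσred
      simpa using this
    rw [this]
    have : ((s' + 1 : ℕ) : F₁) = algebraMap k F₁ ((s' + 1 : ℕ) : k) := by simp
    rw [this]
    exact (map_ne_zero _).2 hn
  have hne₂ : D.V₂.redF (z * σ) ≠ 0 := by
    have : D.V₂.redF (z * σ) = ((s' + 1 : ℕ) : F₂) := by
      have := congrArg Prod.snd hσred
      simpa using this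
    rw [this]
    have : ((s' + 1 : ℕ) : F₂) = algebraMap k F₂ ((s' + 1 : ℕ) : k) := by simp
    rw [this]
    exact (map_ne_zero _).2 hn
  have hzσinv : (z * σ)⁻¹ ∈ D.O := inv_mem_O hne₁ hne₂
  have hzσ0 : z * σ ≠ 0 := by
    intro h
    rw [h, D.V₁.redF_zero] at hne₁
    exact hne₁ rfl
  set x' := (ρ₁ - ρ₂) * (z * σ)⁻¹ with hx'
  have hx'O : x' ∈ D.O := mul_mem (sub_mem hρ₁O hρ₂O) hzσinv
  have hdiff' : t₁' - t₂' = cF ^ 2 * x' := by
    have h1 : (z * σ) * (t₁' - t₂') = cF ^ 2 * (ρ₁ - ρ₂) := by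
      rw [mul_assoc, hgeom', mul_sub, hρ₁, hρ₂]
      ring
    rw [hx', ← mul_assoc, ← h1, mul_comm (z * σ) (t₁' - t₂'), mul_assoc,
      mul_inv_cancel₀ hzσ0, mul_one]
  -- pole orders of `x'`
  have hcF2 : cF ^ 2 = algebraMap L F (((c ^ 2 : A) : A) : L) := by
    rw [hcF]; simp
  have hx'mem : x' ∈ D.Lat (E + D.chartDiv ((m + j : ℕ) : ℤ) ((m + j : ℕ) : ℤ)) := by
    refine ⟨?_, hx'O⟩
    have h1 : t₁' - t₂' ∈ riemannRochSpace (E + D.chartDiv ((m + j : ℕ) : ℤ) ((m + j : ℕ) : ℤ)) :=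
      Submodule.sub_mem _ (C.rr_chart_mono le_rfl (by positivity) ht₁'L.1)
        (C.rr_chart_mono (by positivity) le_rfl ht₂'L.1)
    have h2 := Submodule.smul_mem _ (((c : L) ^ 2)⁻¹) h1
    have h3 : ((c : L) ^ 2)⁻¹ • (t₁' - t₂') = x' := by
      rw [hdiff', Algebra.smul_def, map_inv₀, map_pow, ← mul_assoc,
        inv_mul_cancel₀ (pow_ne_zero 2 hcF0), one_mul]
    rwa [h3] at h2
  obtain ⟨y₁, hy₁, y₂, hy₂, x'', hx'', hxsum⟩ :=
    I.stabilize hm₁ hm₂ (Nat.le_add_right m j) hx'mem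
  -- the corrected functions
  set t₁'' := t₁' - cF ^ 2 * y₁ with ht₁''
  set t₂'' := t₂' + cF ^ 2 * y₂ with ht₂''
  have hc2max : c ^ 2 ∈ IsLocalRing.maximalIdeal A := Ideal.pow_mem_of_mem _ hc 2 (by norm_num)
  have hdiff'' : t₁'' - t₂'' = cF ^ 2 * x'' := by
    rw [ht₁'', ht₂'']
    have : x'' = x' - y₁ - y₂ := by rw [hxsum]; ring
    rw [this]
    linear_combination hdiff'
  have hsm₁ : cF ^ 2 * y₁ ∈ D.Lat (E + D.chartDiv ((m + j : ℕ) : ℤ) (0 : ℕ)) := by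
    rw [hcF2]; exact Lat.smul (c ^ 2) hy₁
  have hsm₂ : cF ^ 2 * y₂ ∈ D.Lat (E + D.chartDiv (0 : ℕ) ((m + j : ℕ) : ℤ)) := by
    rw [hcF2]; exact Lat.smul (c ^ 2) hy₂
  have hsm : cF ^ 2 * x'' ∈ D.Lat (E + D.chartDiv m m) := by
    rw [hcF2]; exact Lat.smul (c ^ 2) hx''
  have ht₁''big : t₁'' ∈ D.Lat (E + D.chartDiv ((m + j : ℕ) : ℤ) (0 : ℕ)) := Lat.sub ht₁'L hsm₁
  have ht₂''big : t₂'' ∈ D.Lat (E + D.chartDiv (0 : ℕ) ((m + j : ℕ) : ℤ)) := Lat.add ht₂'L hsm₂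
  have emin1 : min (((m + j : ℕ) : ℤ)) (m : ℤ) = m := by
    apply min_eq_right; push_cast; have := Int.natCast_nonneg j; linarith
  have emin2 : min (((0 : ℕ) : ℤ)) (((m + j : ℕ) : ℤ)) = 0 := by
    rw [Nat.cast_zero]; exact min_eq_left (Int.natCast_nonneg _)
  have emin3 : min (m : ℤ) (((m + j : ℕ) : ℤ)) = m := by
    apply min_eq_left; push_cast; have := Int.natCast_nonneg j; linarith
  have emin4 : min (((m + j : ℕ) : ℤ)) (((0 : ℕ) : ℤ)) = 0 := by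
    rw [Nat.cast_zero]; exact min_eq_right (Int.natCast_nonneg _)
  have ht₁''L : t₁'' ∈ D.Lat (E + D.chartDiv m 0) := by
    refine ⟨?_, ht₁''big.2⟩
    have h1 : t₁'' = t₂'' + cF ^ 2 * x'' := by rw [← hdiff'']; ring
    have h2 : t₁'' ∈ riemannRochSpace (E + D.chartDiv (m : ℤ) ((m + j : ℕ) : ℤ)) := by
      rw [h1]
      exact Submodule.add_mem _ (C.rr_chart_mono (by simp) le_rfl ht₂''big.1)
        (C.rr_chart_mono le_rfl (by simp) hsm.1)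
    have := C.mem_rr_chart_min ht₁''big.1 h2
    rw [emin1, emin2] at this
    exact this
  have ht₂''L : t₂'' ∈ D.Lat (E + D.chartDiv 0 m) := by
    refine ⟨?_, ht₂''big.2⟩
    have h1 : t₂'' = t₁'' - cF ^ 2 * x'' := by rw [← hdiff'']; ring
    have h2 : t₂'' ∈ riemannRochSpace (E + D.chartDiv ((m + j : ℕ) : ℤ) (m : ℤ)) := by
      rw [h1]
      exact Submodule.sub_mem _ (C.rr_chart_mono le_rfl (by simp) ht₁''big.1)
        (C.rr_chart_mono (by simp) le_rfl hsm.1)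
    have := C.mem_rr_chart_min ht₂''big.1 h2
    rw [emin2, emin1] at this
    simpa using this
  refine ⟨t₁'', ht₁''L, t₂'', ht₂''L, ?_, ?_, x'', hx''.2, ?_⟩
  · rw [ht₁'', hcF2, NodalDatum.redF_sub_smul hc2max ht₁'L.2 hy₁.2, hred₁']
  · rw [ht₂'', hcF2, NodalDatum.redF_add_smul hc2max ht₂'L.2 hy₂.2, hred₂']
  · rw [hdiff'', hcF2]

end CechInput

end Fermat.Agent.LSb
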