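/-
LSb / Core / CechMain (helper6).
**The nodal Čech core (β3).**  Over a nodal datum: a Kummer unit `z` (`n ∣ div z`, `n` invertible in
`k`) with `red z = (1,1)` whose twisted chart lattices `KLat n z a b` reduce into the UNTWISTED nodal
spaces `𝓛¹(a,b)` is `c · hⁿ`.
-/
import Fermat.Agent.LSb.Core.CechDoubling

set_option autoImplicit false

noncomputable section

namespace Fermat.Agent.LSb

open AlgebraicCurve Fermat.Agent.S18lib Fermat.Agent.LSb
open Fermat.Agent.LSb.Frame Fermat.Agent.LSb.Core Module NodalDatum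
open Fermat.Agent.S18lib.Cech (rr_mono mul_mem_rr pow_mem_rr one_mem_rr mem_rr_neg_of_div
  mem_rr_of_ne mem_principal_of_mem_rr ord_pow ord_const)

variable {L : Type*} [Field L] {A : ValuationSubring L}
variable {F : Type*} [Field F] [Algebra L F]
variable {F₁ F₂ : Type*} [Field F₁] [Field F₂]
variable [Algebra (IsLocalRing.ResidueField A) F₁] [Algebra (IsLocalRing.ResidueField A) F₂]

local notation "k" => IsLocalRing.ResidueField A

variable {D : NodalDatum A F F₁ F₂} {g g₁ g₂ : ℕ}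

namespace CechInput

variable {E : Divisor L F} (I : CechInput D g g₁ g₂ E)
include I

/-- **The Čech doubling theorem**: `E` is principal. -/
theorem mem_principal (n : ℕ) (hn : (n : k) ≠ 0) {z : F} (hzO : z ∈ D.O) (hz0 : z ≠ 0)
    (hzdiv : ∀ v, (n • E) v = v.ord z) (hzred : D.redF z = 1) :
    E ∈ Divisor.principal (K := L) (F := F) := by
  classical
  have C := I.C
  obtain ⟨m, hm₁, hm₂⟩ := C.exists_stable
  -- `(1,1)` is a section of `𝓛¹(a,b)` for `a, b ≥ 0`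
  have hone : ∀ a b : ℕ, (1 : F₁ × F₂) ∈ D.nodal 1 a b := by
    intro a b
    refine ⟨one_mem_rr fun v => ?_, one_mem_rr fun v => ?_, fun c => ⟨1, ?_, ?_⟩⟩
    · rw [chartDiv₁_eq]
      exact lin2_nonneg C.Q₁₁_nonneg C.Q₂₁_nonneg (Int.natCast_nonneg a) (Int.natCast_nonneg b) v
    · rw [chartDiv₂_eq]
      exact lin2_nonneg C.Q₁₂_nonneg C.Q₂₂_nonneg (Int.natCast_nonneg a) (Int.natCast_nonneg b) v
    · simpa using vanishAt_zero (D.x₁ c)
    · simpa using vanishAt_zero (D.x₂ c)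
  -- the starting lifts
  obtain ⟨t₁, ht₁, hr₁⟩ := I.exists_lift (a := m) (b := 0) (by exact_mod_cast hm₁) (hone m 0)
  obtain ⟨t₂, ht₂, hr₂⟩ := I.exists_lift (a := 0) (b := m) (by exact_mod_cast hm₂) (hone 0 m)
  have ht₁' : t₁ ∈ D.Lat (E + D.chartDiv m 0) := by exact_mod_cast ht₁
  have ht₂' : t₂ ∈ D.Lat (E + D.chartDiv 0 m) := by exact_mod_cast ht₂
  -- conclusion from a common element
  have hfinish : ∀ t : F, t ∈ riemannRochSpace (E + D.chartDiv m 0) →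
      t ∈ riemannRochSpace (E + D.chartDiv 0 m) → D.redF t = 1 →
      E ∈ Divisor.principal (K := L) (F := F) := by
    intro t h1 h2 h3
    have ht0 : t ≠ 0 := by
      rintro rfl
      rw [NodalDatum.redF_zero'] at h3
      exact zero_ne_one h3
    have := C.mem_rr_chart_min h1 h2
    have e1 : min (m : ℤ) 0 = 0 := min_eq_right (Int.natCast_nonneg m)
    have e2 : min (0 : ℤ) (m : ℤ) = 0 := min_eq_left (Int.natCast_nonneg m)
    rw [e1, e2, chartDiv_eq, lin2_zero_zero, add_zero] at this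
    exact mem_principal_of_mem_rr C.hF I.degE this ht0
  -- the starting `Good c`
  obtain ⟨c, hc, hG⟩ : ∃ c : A, c ∈ IsLocalRing.maximalIdeal A ∧ Good D E m c := by
    have hdO : t₁ - t₂ ∈ D.O := sub_mem ht₁'.2 ht₂'.2
    have hdred : D.redF (t₁ - t₂) = 0 := by
      rw [NodalDatum.redF_sub ht₁'.2 ht₂'.2, hr₁, hr₂, sub_self]
    obtain ⟨a, ha, y, hy, hay⟩ := exists_eq_smul_of_redF_eq_zero hdO
      (congrArg Prod.fst hdred) (congrArg Prod.snd hdred)
    exact ⟨a, ha, t₁, ht₁', t₂, ht₂', hr₁, hr₂, y, hy, hay⟩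
  -- iterate the doubling
  have hiter : ∀ K : ℕ, Good D E m (c ^ (2 ^ K)) := by
    intro K
    induction K with
    | zero => simpa using hG
    | succ K ih =>
      have hmem : c ^ (2 ^ K) ∈ IsLocalRing.maximalIdeal A :=
        Ideal.pow_mem_of_mem _ hc _ (Nat.pos_of_ne_zero (by positivity))
      have := I.doubling hm₁ hm₂ n hn hzO hz0 hzdiv hzred hmem ih
      rwa [← pow_mul, ← pow_succ] at this
  -- the torsion bound
  obtain ⟨c₀, hc₀, hbound⟩ := C.exists_torsion_bound (E + D.chartDiv m 0) (E + D.chartDiv 0 m)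
  obtain ⟨N, hN⟩ := C.rankOne c hc c₀ hc₀
  set cK := c ^ (2 ^ N) with hcK
  have hnd : ¬ cK ∣ c₀ := fun h =>
    hN (dvd_trans (pow_dvd_pow c (Nat.lt_two_pow_self (n := N)).le) h)
  obtain ⟨c', hc'⟩ : c₀ ∣ cK := (ValuationRing.dvd_total cK c₀).resolve_left hnd
  have hc'max : c' ∈ IsLocalRing.maximalIdeal A := by
    rw [IsLocalRing.mem_maximalIdeal, mem_nonunits_iff]
    rintro ⟨u, hu⟩
    apply hnd
    refine ⟨((u⁻¹ : Aˣ) : A), ?_⟩
    rw [hc', ← hu, mul_assoc]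
    simp
  obtain ⟨τ₁, hτ₁, τ₂, hτ₂, hρ₁, hρ₂, x, hxO, hx⟩ := hiter N
  by_cases hcK0 : cK = 0
  · -- `τ₁ = τ₂`
    have heq : τ₁ = τ₂ := by
      rw [← hcK, hcK0] at hx
      simpa [sub_eq_zero] using hx
    exact hfinish τ₁ hτ₁.1 (heq ▸ hτ₂.1) hρ₁
  · have hcKL : (cK : L) ≠ 0 := fun h => hcK0 (Subtype.ext h)
    have hcKF : algebraMap L F (cK : L) ≠ 0 := (map_ne_zero _).2 hcKL
    have hxu : x = (algebraMap L F (cK : L))⁻¹ * τ₁ - (algebraMap L F (cK : L))⁻¹ * τ₂ := by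
      rw [← mul_sub, hx, ← hcK, ← mul_assoc, inv_mul_cancel₀ hcKF, one_mul]
    have hu₁ : (algebraMap L F (cK : L))⁻¹ * τ₁ ∈ riemannRochSpace (E + D.chartDiv m 0) := by
      have := Submodule.smul_mem _ ((cK : L)⁻¹) hτ₁.1
      rwa [Algebra.smul_def, map_inv₀] at this
    have hu₂ : (algebraMap L F (cK : L))⁻¹ * τ₂ ∈ riemannRochSpace (E + D.chartDiv 0 m) := by
      have := Submodule.smul_mem _ ((cK : L)⁻¹) hτ₂.1
      rwa [Algebra.smul_def, map_inv₀] at this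
    obtain ⟨m₁, hm₁', m₂, hm₂', hm⟩ := hbound x hxO _ hu₁ _ hu₂ hxu
    -- `τ₁ - c' m₁ = τ₂ - c' m₂`
    have hkey : τ₁ - algebraMap L F (c' : L) * m₁ = τ₂ - algebraMap L F (c' : L) * m₂ := by
      have h1 : τ₁ - τ₂ = algebraMap L F (c' : L) * (m₁ - m₂) := by
        rw [hx, ← hcK, hc', ← hm, MulMemClass.coe_mul, map_mul]
        ring
      linear_combination h1
    have hmem₁ : τ₁ - algebraMap L F (c' : L) * m₁ ∈ D.Lat (E + D.chartDiv m 0) :=
      Lat.sub hτ₁ (Lat.smul c' hm₁')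
    have hmem₂ : τ₂ - algebraMap L F (c' : L) * m₂ ∈ D.Lat (E + D.chartDiv 0 m) :=
      Lat.sub hτ₂ (Lat.smul c' hm₂')
    refine hfinish _ hmem₁.1 (hkey ▸ hmem₂.1) ?_
    rw [NodalDatum.redF_sub_smul hc'max hτ₁.2 hm₁'.2, hρ₁]

end CechInput

/-! ### the contract form -/

/-- the divisor `div(z)/n` -/
theorem exists_div_divisor (hF : IsCurveOfGenus L F g) (n : ℕ) (hn : n ≠ 0) {z : F} (hz0 : z ≠ 0)
    (hdvd : ∀ P : Place L F, (n : ℤ) ∣ P.ord z) :
    ∃ E : Divisor L F, (∀ v, (n • E) v = v.ord z) ∧ Divisor.degree E = 0 := by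
  classical
  obtain ⟨Dz, hDz, hdeg⟩ := hF.hasPrincipalDivisors.exists_divisor z hz0
  have hnz : (n : ℤ) ≠ 0 := by exact_mod_cast hn
  refine ⟨Dz.mapRange (fun a => a / (n : ℤ)) (by simp), fun v => ?_, ?_⟩
  · rw [Finsupp.smul_apply, Finsupp.mapRange_apply, nsmul_eq_mul, hDz v]
    exact Int.mul_ediv_cancel' (hdvd v)
  · have h1 : n • Dz.mapRange (fun a => a / (n : ℤ)) (by simp) = Dz := by
      ext v
      rw [Finsupp.smul_apply, Finsupp.mapRange_apply, nsmul_eq_mul, hDz v]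
      exact Int.mul_ediv_cancel' (hdvd v)
    have h2 := congrArg Divisor.degree h1
    rw [map_nsmul, hdeg, nsmul_eq_mul] at h2
    exact (mul_eq_zero.1 h2).resolve_left hnz

/-- `Lat(E + a P₁ + b P₂) ⊆ KLat n z a b` when `n E = div z` -/
theorem mem_KLat_of_mem_Lat {E : Divisor L F} (n : ℕ) {z : F} (hz0 : z ≠ 0)
    (hzdiv : ∀ v, (n • E) v = v.ord z) (a b : ℕ) {h : F}
    (hh : h ∈ D.Lat (E + D.chartDiv a b)) : h ∈ D.KLat n z a b := by
  refine ⟨hh.2, ?_⟩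
  have h1 := mul_pow_mem_rr_chart (D := D) n hz0 hzdiv a b hh.1
  rw [mul_comm]
  refine rr_mono (fun v => le_of_eq ?_) h1
  simp only [Finsupp.smul_apply, chartDiv_eq, lin2_apply, smul_eq_mul]
  push_cast
  ring

/-- **The nodal Čech core, contract form (β3).** -/
theorem cech_core (C : NodalCtx D g g₁ g₂) (n : ℕ) (hn : (n : k) ≠ 0) (z : F)
    (hz : IsKummerUnit D n z) (hz₁ : D.V₁.redF z = 1) (hz₂ : D.V₂.redF z = 1)
    (Hsub : ∀ (a b : ℕ) (h : F), h ∈ D.KLat n z a b → D.redF h ∈ D.nodal 1 a b) :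
    ∃ (h : F) (c : L), h ≠ 0 ∧ c ≠ 0 ∧ z = algebraMap L F c * h ^ n := by
  classical
  have hn0 : n ≠ 0 := by
    rintro rfl
    exact hn (by simp)
  obtain ⟨E, hE, hdegE⟩ := exists_div_divisor C.hF n hn0 hz.ne_zero hz.dvd_ord
  have I : CechInput D g g₁ g₂ E :=
    ⟨C, hdegE, fun a b h hh => Hsub a b h (mem_KLat_of_mem_Lat n hz.ne_zero hE a b hh)⟩
  have hzO : z ∈ D.O := NodalDatum.mem_O.2
    ⟨D.V₁.mem_of_redF_ne_zero (by rw [hz₁]; exact one_ne_zero),
      D.V₂.mem_of_redF_ne_zero (by rw [hz₂]; exact one_ne_zero)⟩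
  have hzred : D.redF z = 1 := Prod.ext hz₁ hz₂
  obtain ⟨f, hf0, hfdiv⟩ := I.mem_principal n hn hzO hz.ne_zero hE hzred
  -- `z / fⁿ` has trivial divisor, hence is a constant
  have hq0 : z * (f ^ n)⁻¹ ≠ 0 := mul_ne_zero hz.ne_zero (inv_ne_zero (pow_ne_zero n hf0))
  have hqmem : z * (f ^ n)⁻¹ ∈ riemannRochSpace (0 : Divisor L F) := by
    rw [mem_rr_of_ne hq0]
    intro v
    rw [v.ord_mul hz.ne_zero (inv_ne_zero (pow_ne_zero n hf0)), v.ord_inv, ord_pow, ← hE v,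
      Finsupp.smul_apply, nsmul_eq_mul, hfdiv v]
    simp
  rw [C.hF.riemannRochSpace_zero] at hqmem
  obtain ⟨c, hc⟩ : ∃ c : L, algebraMap L F c = z * (f ^ n)⁻¹ := Algebra.mem_bot.mp hqmem
  refine ⟨f, c, hf0, ?_, ?_⟩
  · rintro rfl
    rw [map_zero] at hc
    exact hq0 hc.symm
  · rw [hc, mul_assoc, inv_mul_cancel₀ (pow_ne_zero n hf0), mul_one]

end Fermat.Agent.LSb
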