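/-
LSb / Core / Kummer1  (helper1)

(Step 1) For an inertial automorphism `σ` and any `f ≠ 0`, the function `σ f / f` reduces to a
nonzero CONSTANT on both components: `f = c⁻¹ w` with `w ∈ Oᵢˣ`, so
`σ f / f = (c / σ c) · (σ w / w)`, `red (σ w / w) = 1` and `c / σ c ∈ Aˣ`.
Pure `GaussDatum` algebra.
-/
import Fermat.Agent.LSb.Core.Datum

set_option autoImplicit false

noncomputable section

namespace Fermat.Agent.LSb

open AlgebraicCurve

variable {L : Type*} [Field L] {A : ValuationSubring L}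
variable {F : Type*} [Field F] [Algebra L F]

local notation "k" => IsLocalRing.ResidueField A

/-- Step 1 for one Gauss datum -/
theorem redF_smul_div_const {Fk : Type*} [Field Fk] [Algebra k Fk] (V : S18lib.GaussDatum A F Fk)
    (σ : SemilinearAut L F) (hmem : ∀ y : F, σ • y ∈ V.O ↔ y ∈ V.O)
    (hred : ∀ y : F, y ∈ V.O → V.redF (σ • y) = V.redF y)
    (hbase : ∀ c : L, c ≠ 0 → SemilinearAut.baseAut σ c / c ∈ A) {f : F} (hf : f ≠ 0) :
    ∃ b : k, b ≠ 0 ∧ V.redF (σ • f * f⁻¹) = algebraMap k Fk b := by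
  obtain ⟨c, hc, w, hw⟩ := V.exists_const_mul_isUnit f hf
  set wF : F := ((w : V.O) : F) with hwF
  have hwO : wF ∈ V.O := (w : V.O).2
  have hwne : V.redF wF ≠ 0 := V.redF_ne_zero_iff.2 ⟨w, rfl⟩
  have hw0 : wF ≠ 0 := by
    intro h0
    rw [h0, V.redF_zero] at hwne
    exact hwne rfl
  set c' : L := SemilinearAut.baseAut σ c with hc'
  have hc'0 : c' ≠ 0 := (map_ne_zero _).2 hc
  have hcF : algebraMap L F c ≠ 0 := (map_ne_zero _).2 hc
  have hc'F : algebraMap L F c' ≠ 0 := (map_ne_zero _).2 hc'0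
  -- `d = c / σ c` is a unit of `A`
  have hd : c / c' ∈ A := by
    have := hbase c⁻¹ (inv_ne_zero hc)
    rwa [map_inv₀, ← hc', inv_div_inv] at this
  have hd' : c' / c ∈ A := hbase c hc
  have hres : IsLocalRing.residue A ⟨c / c', hd⟩ ≠ 0 := by
    intro h0
    have h1 : (⟨c / c', hd⟩ : A) * ⟨c' / c, hd'⟩ = 1 := by
      apply Subtype.ext
      show c / c' * (c' / c) = 1
      field_simp
    have h2 := congrArg (IsLocalRing.residue A) h1
    rw [map_mul, h0, zero_mul, map_one] at h2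
    exact zero_ne_one h2
  -- the identity `σ f / f = (c / σ c) (σ w / w)`
  have hσc : σ • algebraMap L F c = algebraMap L F c' := SemilinearAut.smul_algebraMap σ c
  have hf' : f = (algebraMap L F c)⁻¹ * wF := by
    rw [← hw, ← mul_assoc, inv_mul_cancel₀ hcF, one_mul]
  have hσf : σ • f = (algebraMap L F c')⁻¹ * σ • wF := by
    rw [hf', smul_mul', smul_inv'', hσc]
  have hσw0 : σ • wF ≠ 0 := by
    rw [SemilinearAut.smul_def]
    exact (map_ne_zero _).2 hw0
  have hid : σ • f * f⁻¹ = algebraMap L F (((⟨c / c', hd⟩ : A) : L)) * (σ • wF * wF⁻¹) := by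
    rw [hσf]
    conv_lhs => rw [hf']
    show _ = algebraMap L F (c / c') * _
    rw [map_div₀]
    field_simp
  have hσwO : σ • wF ∈ V.O := (hmem wF).2 hwO
  have hwinv : wF⁻¹ ∈ V.O := V.inv_mem_of_redF_ne_zero hwne
  have hone : V.redF (σ • wF * wF⁻¹) = 1 := by
    rw [V.redF_mul hσwO hwinv, hred wF hwO, V.redF_inv hwne, mul_inv_cancel₀ hwne]
  refine ⟨IsLocalRing.residue A ⟨c / c', hd⟩, hres, ?_⟩
  rw [hid, V.redF_smul _ (V.O.mul_mem _ _ hσwO hwinv), hone, Algebra.smul_def, mul_one]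

variable {F₁ F₂ : Type*} [Field F₁] [Field F₂]
variable [Algebra (IsLocalRing.ResidueField A) F₁] [Algebra (IsLocalRing.ResidueField A) F₂]

/-- **Step 1**, abstract form. -/
theorem kummerStatement (D : NodalDatum A F F₁ F₂) : KummerStatement D := by
  intro σ hσ f hf
  exact ⟨redF_smul_div_const D.V₁ σ hσ.mem₁ hσ.red₁ hσ.base_div_mem hf,
    redF_smul_div_const D.V₂ σ hσ.mem₂ hσ.red₂ hσ.base_div_mem hf⟩

end Fermat.Agent.LSb
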