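/-
LSb / Core / Kummer2  (helper1)

(β2) For an inertial automorphism `σ` and a Kummer unit `u`, the function `z = σ u / u` is a
Kummer unit with `red z = (1,1)` whose twist (structure lemma) is TRIVIAL:
the reductions of the chart lattices `KLat n z a b` are the UNTWISTED nodal spaces.

Proof: take `h ∈ KLat n u m 0`, `h' ∈ KLat n u⁻¹ m 0` with reductions non-vanishing at the nodes;
`h h' ∈ L(2m P₁) ∩ O` is glued untwisted (GLUE) and `t = σ(h) h' ∈ KLat n z (2m) 0` has the same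
reduction as `h h'` because `σ` acts trivially on both reductions.
-/
import Fermat.Agent.LSb.Core.Structure
import Fermat.Agent.S37lib.B3.Equivariant

set_option autoImplicit false

noncomputable section

namespace Fermat.Agent.LSb

open AlgebraicCurve Module

variable {L : Type*} [Field L] {A : ValuationSubring L}
variable {F : Type*} [Field F] [Algebra L F]
variable {F₁ F₂ : Type*} [Field F₁] [Field F₂]
variable [Algebra (IsLocalRing.ResidueField A) F₁] [Algebra (IsLocalRing.ResidueField A) F₂]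

local notation "k" => IsLocalRing.ResidueField A

namespace NodalDatum.IsInertial

variable {D : NodalDatum A F F₁ F₂} {σ : SemilinearAut L F} (hσ : D.IsInertial σ)

include hσ

theorem mem_O_iff (y : F) : σ • y ∈ D.O ↔ y ∈ D.O := by
  rw [NodalDatum.mem_O, NodalDatum.mem_O, hσ.mem₁, hσ.mem₂]

theorem smul_chartDiv (a b : ℤ) : σ • D.chartDiv a b = D.chartDiv a b := by
  rw [NodalDatum.chartDiv, smul_add, S37lib.B3.smul_zsmul_divisor, S37lib.B3.smul_zsmul_divisor,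
    hσ.smul_P₁, hσ.smul_P₂]

/-- `σ` preserves the chart spaces -/
theorem smul_mem_rr {n : ℤ} {a b : ℤ} {f : F}
    (hf : f ∈ riemannRochSpace (n • D.chartDiv a b)) :
    σ • f ∈ riemannRochSpace (n • D.chartDiv a b) := by
  have := S37lib.B3.smul_mem_riemannRochSpace σ hf
  rwa [S37lib.B3.smul_zsmul_divisor, hσ.smul_chartDiv] at this

omit hσ in
theorem ord_smul_eq (σ : SemilinearAut L F) (P : Place L F) (f : F) :
    P.ord (σ • f) = (σ⁻¹ • P).ord f := by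
  have h := SemilinearAut.ord_smul σ (σ⁻¹ • P) f
  rwa [smul_inv_smul] at h

/-- `σ u / u` is a Kummer unit reducing to `(1, 1)` -/
theorem isKummerUnit_div {n : ℕ} {u : F} (hu : IsKummerUnit D n u) :
    IsKummerUnit D n (σ • u * u⁻¹) ∧ D.V₁.redF (σ • u * u⁻¹) = 1 ∧
      D.V₂.redF (σ • u * u⁻¹) = 1 := by
  have hσu0 : σ • u ≠ 0 := by
    rw [SemilinearAut.smul_def]
    exact (map_ne_zero _).2 hu.ne_zero
  obtain ⟨b₁, hb₁0, hb₁⟩ := hu.red₁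
  obtain ⟨b₂, hb₂0, hb₂⟩ := hu.red₂
  have hne₁ : D.V₁.redF u ≠ 0 := by rw [hb₁]; exact (map_ne_zero _).2 hb₁0
  have hne₂ : D.V₂.redF u ≠ 0 := by rw [hb₂]; exact (map_ne_zero _).2 hb₂0
  have h1 : D.V₁.redF (σ • u * u⁻¹) = 1 := by
    rw [D.V₁.redF_mul ((hσ.mem₁ u).2 hu.mem₁) (D.V₁.inv_mem_of_redF_ne_zero hne₁),
      hσ.red₁ u hu.mem₁, D.V₁.redF_inv hne₁, mul_inv_cancel₀ hne₁]
  have h2 : D.V₂.redF (σ • u * u⁻¹) = 1 := by
    rw [D.V₂.redF_mul ((hσ.mem₂ u).2 hu.mem₂) (D.V₂.inv_mem_of_redF_ne_zero hne₂),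
      hσ.red₂ u hu.mem₂, D.V₂.redF_inv hne₂, mul_inv_cancel₀ hne₂]
  refine ⟨⟨mul_ne_zero hσu0 (inv_ne_zero hu.ne_zero), fun P => ?_, ⟨1, one_ne_zero, ?_⟩,
    ⟨1, one_ne_zero, ?_⟩⟩, h1, h2⟩
  · rw [P.ord_mul hσu0 (inv_ne_zero hu.ne_zero), P.ord_inv, ord_smul_eq]
    exact dvd_sub (hu.dvd_ord _) (hu.dvd_ord _)
  · rw [h1, map_one]
  · rw [h2, map_one]

end NodalDatum.IsInertial

namespace NodalCtx

variable {D : NodalDatum A F F₁ F₂} {g g₁ g₂ : ℕ} (C : NodalCtx D g g₁ g₂)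

include C

/-- **(β2)** the twist of `z = σ u / u` is trivial. -/
theorem twist_eq_one {σ : SemilinearAut L F} (hσ : D.IsInertial σ) {n : ℕ} (hn : 0 < n) {u : F}
    (hu : IsKummerUnit D n u) :
    (∀ a b : ℕ, ∀ h ∈ D.KLat n (σ • u * u⁻¹) a b,
      D.redF h ∈ Core.nodalSpace D.x₁ D.x₂ 1 (D.chartDiv₁ a b) (D.chartDiv₂ a b)) ∧
    (∀ a b : ℕ, D.Stable g₁ g₂ a b →
      ∀ φ ∈ Core.nodalSpace D.x₁ D.x₂ 1 (D.chartDiv₁ a b) (D.chartDiv₂ a b),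
        ∃ h ∈ D.KLat n (σ • u * u⁻¹) a b, D.redF h = φ) := by
  obtain ⟨hz, -, -⟩ := hσ.isKummerUnit_div hu
  obtain ⟨lamu, -, -, Hequ⟩ := C.exists_twist_all hn hu
  obtain ⟨lamv, -, -, Heqv⟩ := C.exists_twist_all hn hu.inv
  obtain ⟨lamz, -, Hsubz, Heqz⟩ := C.exists_twist_all hn hz
  suffices hlam : lamz = 1 by
    rw [hlam] at Hsubz Heqz
    exact ⟨Hsubz, Heqz⟩
  funext c
  set m : ℕ := 2 * g₁ + 2 * g₂ + D.s with hm
  have hst : D.Stable g₁ g₂ (m : ℕ) (0 : ℕ) :=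
    C.stable_of_le_fst (by rw [hm]; push_cast; exact le_rfl) (by simp)
  -- the two generic sections
  obtain ⟨φ, hφ, hφval⟩ := Core.exists_mem_nodalSpace_valAt C.hF₁ C.hF₂ C.x₁_injective
    C.x₂_injective lamu (D.chartDiv₁ m (0 : ℕ)) (D.chartDiv₂ m (0 : ℕ)) (C.chartDiv₁_x₁ _ _)
    (C.chartDiv₂_x₂ _ _) hst.1 hst.2 (fun _ => 1)
  obtain ⟨φ', hφ', hφ'val⟩ := Core.exists_mem_nodalSpace_valAt C.hF₁ C.hF₂ C.x₁_injective
    C.x₂_injective lamv (D.chartDiv₁ m (0 : ℕ)) (D.chartDiv₂ m (0 : ℕ)) (C.chartDiv₁_x₁ _ _)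
    (C.chartDiv₂_x₂ _ _) hst.1 hst.2 (fun _ => 1)
  obtain ⟨h, hh, hhφ⟩ := Hequ m 0 hst φ hφ
  obtain ⟨h', hh', hh'φ⟩ := Heqv m 0 hst φ' hφ'
  -- regularity at the node `c`
  have r1 : φ.1 ∈ (D.x₁ c).toValuationSubring :=
    Core.mem_of_mem_rr (C.chartDiv₁_x₁ _ _ c).le hφ.1
  have r2 : φ.2 ∈ (D.x₂ c).toValuationSubring :=
    Core.mem_of_mem_rr (C.chartDiv₂_x₂ _ _ c).le hφ.2.1
  have r1' : φ'.1 ∈ (D.x₁ c).toValuationSubring :=
    Core.mem_of_mem_rr (C.chartDiv₁_x₁ _ _ c).le hφ'.1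
  have r2' : φ'.2 ∈ (D.x₂ c).toValuationSubring :=
    Core.mem_of_mem_rr (C.chartDiv₂_x₂ _ _ c).le hφ'.2.1
  have hO := NodalDatum.mem_O.1 hh.1
  have hO' := NodalDatum.mem_O.1 hh'.1
  have e1 : D.V₁.redF h = φ.1 := congrArg Prod.fst hhφ
  have e2 : D.V₂.redF h = φ.2 := congrArg Prod.snd hhφ
  have e1' : D.V₁.redF h' = φ'.1 := congrArg Prod.fst hh'φ
  have e2' : D.V₂.redF h' = φ'.2 := congrArg Prod.snd hh'φ
  -- the chart divisor `2m P₁`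
  have hadd : (n : ℤ) • D.chartDiv (m : ℕ) (0 : ℕ) + (n : ℤ) • D.chartDiv (m : ℕ) (0 : ℕ) =
      (n : ℤ) • D.chartDiv ((2 * m : ℕ) : ℕ) (0 : ℕ) := by
    rw [← smul_add]
    congr 1
    ext P
    rw [Finsupp.add_apply, D.chartDiv_apply, D.chartDiv_apply]
    push_cast
    ring
  -- `h h'` is glued untwisted
  have hp : (h * h') ∈ riemannRochSpace (D.chartDiv ((2 * m : ℕ) : ℕ) (0 : ℕ)) := by
    have h1 := S18lib.Cech.mul_mem_rr hh.2 hh'.2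
    rw [hadd] at h1
    have e : h ^ n * u * (h' ^ n * u⁻¹) = (h * h') ^ n * 1 := by
      rw [mul_pow]
      field_simp [hu.ne_zero]
    rw [e, pow_mul_mem_rr_iff hn one_ne_zero (E := 0) (fun P => by simp), zero_add] at h1
    exact h1
  obtain ⟨α, hα1, hα2⟩ := C.glue (2 * m) 0 (h * h') hp (D.V₁.O.mul_mem _ _ hO.1 hO'.1)
    (D.V₂.O.mul_mem _ _ hO.2 hO'.2) c
  have v1 : Core.valAt (D.x₁ c) (D.V₁.redF (h * h')) = α :=
    Core.valAt_eq_of_vanishAt (show Core.VanishAt _ _ from hα1)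
  have v2 : Core.valAt (D.x₂ c) (D.V₂.redF (h * h')) = α :=
    Core.valAt_eq_of_vanishAt (show Core.VanishAt _ _ from hα2)
  rw [D.V₁.redF_mul hO.1 hO'.1, e1, e1', Core.valAt_mul _ (C.hF₁.deg_eq_one _) r1 r1',
    (hφval c).1, (hφ'val c).1, one_mul] at v1
  rw [D.V₂.redF_mul hO.2 hO'.2, e2, e2', ← v1] at v2
  -- the element `t = σ(h) h'` of `KLat n z (2m) 0`
  have hσO₁ : σ • h ∈ D.V₁.O := (hσ.mem₁ h).2 hO.1
  have hσO₂ : σ • h ∈ D.V₂.O := (hσ.mem₂ h).2 hO.2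
  have ht : σ • h * h' ∈ D.KLat n (σ • u * u⁻¹) ((2 * m : ℕ) : ℕ) (0 : ℕ) := by
    refine ⟨NodalDatum.mem_O.2 ⟨D.V₁.O.mul_mem _ _ hσO₁ hO'.1, D.V₂.O.mul_mem _ _ hσO₂ hO'.2⟩, ?_⟩
    have h1 := S18lib.Cech.mul_mem_rr (hσ.smul_mem_rr hh.2) hh'.2
    rw [hadd] at h1
    have e : σ • (h ^ n * u) * (h' ^ n * u⁻¹) = (σ • h * h') ^ n * (σ • u * u⁻¹) := by
      rw [smul_mul', smul_pow', mul_pow]
      ring
    rwa [e] at h1
  have hred := Hsubz (2 * m) 0 _ ht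
  have h3 := ((Core.gluedAt_iff C.hF₁.deg_eq_one C.hF₂.deg_eq_one c _ _).1 (hred.2.2 c)).2.2
  have f1 : (D.redF (σ • h * h')).1 = φ.1 * φ'.1 := by
    show D.V₁.redF (σ • h * h') = _
    rw [D.V₁.redF_mul hσO₁ hO'.1, hσ.red₁ h hO.1, e1, e1']
  have f2 : (D.redF (σ • h * h')).2 = φ.2 * φ'.2 := by
    show D.V₂.redF (σ • h * h') = _
    rw [D.V₂.redF_mul hσO₂ hO'.2, hσ.red₂ h hO.2, e2, e2']
  rw [f1, f2, v2, Core.valAt_mul _ (C.hF₁.deg_eq_one _) r1 r1', (hφval c).1, (hφ'val c).1] at h3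
  simpa using h3.symm

end NodalCtx

end Fermat.Agent.LSb
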