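/-
LSb / Core / Unipotent  (helper1)

(U), abstract form: for a nodal datum satisfying `NodalCtx`, an inertial automorphism `σ`
satisfies `(σ - 1)² = 0` on the `n`-torsion of `Pic⁰(F)`, `n` invertible in `k`.

Assembly of (Step 1) `Kummer1`, (β1) `Structure`, (β2) `Kummer2` and helper6's Čech core (β3),
which enters as the hypothesis `CechCoreStatement`.
-/
import Fermat.Agent.LSb.Core.Kummer1
import Fermat.Agent.LSb.Core.Kummer2

set_option autoImplicit false

noncomputable section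

namespace Fermat.Agent.LSb

open AlgebraicCurve Module

variable {L : Type*} [Field L] {A : ValuationSubring L}
variable {F : Type*} [Field F] [Algebra L F]
variable {F₁ F₂ : Type*} [Field F₁] [Field F₂]
variable [Algebra (IsLocalRing.ResidueField A) F₁] [Algebra (IsLocalRing.ResidueField A) F₂]

local notation "k" => IsLocalRing.ResidueField A

/-- **(β3) the nodal Čech core** (helper6, LSb/Core/Cech*), as a contract: a Kummer unit `z` with
`red z = (1,1)` whose chart lattices reduce onto the UNTWISTED nodal spaces is a constant times an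
`n`-th power. -/
def CechCoreStatement (D : NodalDatum A F F₁ F₂) (g₁ g₂ : ℕ) : Prop :=
  ∀ (n : ℕ), (n : k) ≠ 0 → ∀ z : F, IsKummerUnit D n z → D.V₁.redF z = 1 → D.V₂.redF z = 1 →
    (∀ a b : ℕ, ∀ h ∈ D.KLat n z a b,
      D.redF h ∈ Core.nodalSpace D.x₁ D.x₂ 1 (D.chartDiv₁ a b) (D.chartDiv₂ a b)) →
    (∀ a b : ℕ, D.Stable g₁ g₂ a b →
      ∀ φ ∈ Core.nodalSpace D.x₁ D.x₂ 1 (D.chartDiv₁ a b) (D.chartDiv₂ a b),
        ∃ h ∈ D.KLat n z a b, D.redF h = φ) →
    ∃ (h : F) (c : L), h ≠ 0 ∧ c ≠ 0 ∧ z = algebraMap L F c * h ^ n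

namespace NodalCtx

variable {D : NodalDatum A F F₁ F₂} {g g₁ g₂ : ℕ} (C : NodalCtx D g g₁ g₂)

include C

/-- (U) on divisors: if `n D₀` is principal then `(σ - 1)² D₀` is principal. -/
theorem unipotent_divisor (hcech : CechCoreStatement D g₁ g₂) {σ : SemilinearAut L F}
    (hσ : D.IsInertial σ) {n : ℕ} (hn : (n : k) ≠ 0) {D₀ : Divisor L F}
    (hD₀ : n • D₀ ∈ Divisor.principal (K := L) (F := F)) :
    σ • (σ • D₀ - D₀) - (σ • D₀ - D₀) ∈ Divisor.principal (K := L) (F := F) := by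
  have hn0 : n ≠ 0 := by
    rintro rfl
    exact hn (by simp)
  have hnpos : 0 < n := Nat.pos_of_ne_zero hn0
  have hnZ : (n : ℤ) ≠ 0 := by exact_mod_cast hn0
  obtain ⟨f, hf0, hfdiv⟩ := hD₀
  have hσf0 : σ • f ≠ 0 := by
    rw [SemilinearAut.smul_def]
    exact (map_ne_zero _).2 hf0
  set E₁ : Divisor L F := σ • D₀ - D₀ with hE₁
  set u : F := σ • f * f⁻¹ with hu
  have hu0 : u ≠ 0 := mul_ne_zero hσf0 (inv_ne_zero hf0)
  -- `div u = n E₁`
  have hudiv : ∀ P : Place L F, P.ord u = (n : ℤ) * E₁ P := by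
    intro P
    rw [hu, P.ord_mul hσf0 (inv_ne_zero hf0), P.ord_inv, NodalDatum.IsInertial.ord_smul_eq,
      ← hfdiv, ← hfdiv, hE₁, Finsupp.sub_apply, SemilinearAut.divisor_smul_apply,
      Finsupp.smul_apply, Finsupp.smul_apply, nsmul_eq_mul, nsmul_eq_mul]
    ring
  obtain ⟨hb₁, hb₂⟩ := kummerStatement D σ hσ f hf0
  have hKu : IsKummerUnit D n u :=
    ⟨hu0, fun P => ⟨E₁ P, hudiv P⟩, hb₁, hb₂⟩
  obtain ⟨hKz, hz₁, hz₂⟩ := hσ.isKummerUnit_div hKu
  obtain ⟨Hsub, Heq⟩ := C.twist_eq_one hσ hnpos hKu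
  obtain ⟨h, c, hh0, hc0, hz⟩ := hcech n hn _ hKz hz₁ hz₂ Hsub Heq
  have hσu0 : σ • u ≠ 0 := by
    rw [SemilinearAut.smul_def]
    exact (map_ne_zero _).2 hu0
  refine ⟨h, hh0, fun P => ?_⟩
  -- compare orders
  have h1 : P.ord (σ • u * u⁻¹) = (n : ℤ) * P.ord h := by
    rw [hz, P.ord_mul ((map_ne_zero _).2 hc0) (pow_ne_zero n hh0), S18lib.Cech.ord_const,
      S18lib.Cech.ord_pow, zero_add]
  rw [P.ord_mul hσu0 (inv_ne_zero hu0), P.ord_inv, NodalDatum.IsInertial.ord_smul_eq, hudiv,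
    hudiv] at h1
  rw [Finsupp.sub_apply, SemilinearAut.divisor_smul_apply]
  have h2 : (n : ℤ) * (E₁ (σ⁻¹ • P) - E₁ P) = (n : ℤ) * P.ord h := by
    rw [← h1]; ring
  exact mul_left_cancel₀ hnZ h2

/-- **(U), abstract form.** -/
theorem unipotent (hcech : CechCoreStatement D g₁ g₂) : UnipotentStatement D := by
  intro σ hσ n hn x hx
  obtain ⟨D₀, rfl⟩ := Pic0.mk_surjective x
  -- `n D₀` is principal
  have hprinc : n • (D₀ : Divisor L F) ∈ Divisor.principal (K := L) (F := F) := by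
    have h1 : Pic0.mk (n • D₀) = 0 := hx
    have h2 := (QuotientAddGroup.eq_zero_iff _).1 h1
    rw [AddSubgroup.mem_addSubgroupOf] at h2
    simpa using h2
  have hmain := C.unipotent_divisor hcech hσ hn hprinc
  -- translate to `Pic⁰`
  set E₁ : Divisor.degZero (K := L) (F := F) := SemilinearAut.degZeroSMulHom σ D₀ - D₀ with hE₁
  have e1 : σ • Pic0.mk D₀ - Pic0.mk D₀ = Pic0.mk E₁ := by
    rw [SemilinearAut.pic0_smul_mk]
    rfl
  rw [e1, SemilinearAut.pic0_smul_mk]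
  have h3 : Pic0.mk (SemilinearAut.degZeroSMulHom σ E₁ - E₁) = 0 := by
    apply (QuotientAddGroup.eq_zero_iff _).2
    rw [AddSubgroup.mem_addSubgroupOf]
    rw [smul_sub] at hmain
    simpa [hE₁] using hmain
  have h4 : Pic0.mk (SemilinearAut.degZeroSMulHom σ E₁ - E₁) =
      Pic0.mk (SemilinearAut.degZeroSMulHom σ E₁) - Pic0.mk E₁ := rfl
  rw [h4, sub_eq_zero] at h3
  exact h3

end NodalCtx

end Fermat.Agent.LSb
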