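/-
LSb / Core / CechFinal (helper6).
The nodal Čech core in helper1's contract form `CechCoreStatement` (LSb/Core/Unipotent.lean), and
the resulting abstract unipotency statement `UnipotentStatement D` for every nodal datum satisfying
`NodalCtx` -- (U), abstract form, with NO remaining hypothesis.
-/
import Fermat.Agent.LSb.Core.CechMain
import Fermat.Agent.LSb.Core.Unipotent

set_option autoImplicit false

noncomputable section

namespace Fermat.Agent.LSb

open AlgebraicCurve

variable {L : Type*} [Field L] {A : ValuationSubring L}
variable {F : Type*} [Field F] [Algebra L F]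
variable {F₁ F₂ : Type*} [Field F₁] [Field F₂]
variable [Algebra (IsLocalRing.ResidueField A) F₁] [Algebra (IsLocalRing.ResidueField A) F₂]

variable {D : NodalDatum A F F₁ F₂} {g g₁ g₂ : ℕ}

namespace NodalCtx

/-- **(β3)**: the nodal Čech core holds for every nodal datum satisfying `NodalCtx`
(only the inclusion half `Hsub` of the contract is used). -/
theorem cechCoreStatement (C : NodalCtx D g g₁ g₂) : CechCoreStatement D g₁ g₂ :=
  fun n hn z hz hz₁ hz₂ Hsub _ => cech_core C n hn z hz hz₁ hz₂ Hsub

/-- **(U), abstract form**: an inertial automorphism acts unipotently of level two on the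
prime-to-`char k` torsion of `Pic⁰(F)`. -/
theorem unipotentStatement (C : NodalCtx D g g₁ g₂) : UnipotentStatement D :=
  C.unipotent C.cechCoreStatement

end NodalCtx

end Fermat.Agent.LSb
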